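import Mathlib

set_option autoImplicit false

namespace Fermat.Agent.S20

open UpperHalfPlane CongruenceSubgroup Matrix.SpecialLinearGroup
open scoped MatrixGroups ModularForm Manifold

noncomputable section

/-- Function-level modular forms of weight `k` for `Γ₀(N)`. -/
def IsMF (N : ℕ) (k : ℤ) (f : ℍ → ℂ) : Prop :=
  MDiff f ∧ (∀ γ ∈ Gamma0 N, f ∣[k] (γ : SL(2, ℤ)) = f) ∧
    ∀ δ : SL(2, ℤ), IsBoundedAtImInfty (f ∣[k] δ)

/-- Function-level cusp forms of weight `k` for `Γ₀(N)`. -/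
def IsCF (N : ℕ) (k : ℤ) (f : ℍ → ℂ) : Prop :=
  MDiff f ∧ (∀ γ ∈ Gamma0 N, f ∣[k] (γ : SL(2, ℤ)) = f) ∧
    ∀ δ : SL(2, ℤ), IsZeroAtImInfty (f ∣[k] δ)

theorem IsCF.isMF {N : ℕ} {k : ℤ} {f : ℍ → ℂ} (h : IsCF N k f) : IsMF N k f :=
  ⟨h.1, h.2.1, fun δ => (h.2.2 δ).isBoundedAtImInfty⟩

theorem isCusp_mapGL_smul_infty {N : ℕ} [NeZero N] (δ : SL(2, ℤ)) :
    IsCusp (mapGL ℝ δ • OnePoint.infty) (Gamma0 N : Subgroup (GL (Fin 2) ℝ)) := by
  rw [Subgroup.IsArithmetic.isCusp_iff_isCusp_SL2Z, isCusp_SL2Z_iff']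
  exact ⟨δ, rfl⟩

theorem isMF_coe {N : ℕ} [NeZero N] {k : ℤ} (F : ModularForm (Gamma0 N) k) : IsMF N k ⇑F := by
  refine ⟨ModularFormClass.holo F, fun γ hγ => ?_, fun δ => ?_⟩
  · exact SlashInvariantFormClass.slash_action_eq F _ (Subgroup.mem_map_of_mem _ hγ)
  · have h := ModularFormClass.bdd_at_cusps F (isCusp_mapGL_smul_infty (N := N) δ)
    exact (OnePoint.isBoundedAt_iff rfl).mp h

theorem isCF_coe {N : ℕ} [NeZero N] {k : ℤ} (F : CuspForm (Gamma0 N) k) : IsCF N k ⇑F := by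
  refine ⟨CuspFormClass.holo F, fun γ hγ => ?_, fun δ => ?_⟩
  · exact SlashInvariantFormClass.slash_action_eq F _ (Subgroup.mem_map_of_mem _ hγ)
  · have h := CuspFormClass.zero_at_cusps F (isCusp_mapGL_smul_infty (N := N) δ)
    exact (OnePoint.isZeroAt_iff rfl).mp h

/-- Build the bundled modular form from a function-level one. -/
def IsMF.toMF {N : ℕ} [NeZero N] {k : ℤ} {f : ℍ → ℂ} (h : IsMF N k f) :
    ModularForm (Gamma0 N) k where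
  toFun := f
  slash_action_eq' γ hγ := by
    obtain ⟨g, hg, rfl⟩ := Subgroup.mem_map.mp hγ
    exact h.2.1 g hg
  holo' := h.1
  bdd_at_cusps' {c} hc := by
    rw [Subgroup.IsArithmetic.isCusp_iff_isCusp_SL2Z, isCusp_SL2Z_iff'] at hc
    obtain ⟨δ, rfl⟩ := hc
    exact (OnePoint.isBoundedAt_iff rfl).mpr (h.2.2 δ)

@[simp] theorem IsMF.coe_toMF {N : ℕ} [NeZero N] {k : ℤ} {f : ℍ → ℂ} (h : IsMF N k f) :
    ⇑h.toMF = f := rfl

def IsCF.toCF {N : ℕ} [NeZero N] {k : ℤ} {f : ℍ → ℂ} (h : IsCF N k f) :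
    CuspForm (Gamma0 N) k where
  toFun := f
  slash_action_eq' γ hγ := by
    obtain ⟨g, hg, rfl⟩ := Subgroup.mem_map.mp hγ
    exact h.2.1 g hg
  holo' := h.1
  zero_at_cusps' {c} hc := by
    rw [Subgroup.IsArithmetic.isCusp_iff_isCusp_SL2Z, isCusp_SL2Z_iff'] at hc
    obtain ⟨δ, rfl⟩ := hc
    exact (OnePoint.isZeroAt_iff rfl).mpr (h.2.2 δ)

@[simp] theorem IsCF.coe_toCF {N : ℕ} [NeZero N] {k : ℤ} {f : ℍ → ℂ} (h : IsCF N k f) :
    ⇑h.toCF = f := rfl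

theorem isMF_zero (N : ℕ) (k : ℤ) : IsMF N k 0 := by
  refine ⟨mdifferentiable_const, fun γ _ => ?_, fun δ => ?_⟩
  · exact SlashAction.zero_slash _ _
  · rw [SlashAction.zero_slash]; exact zero_form_isBoundedAtImInfty

theorem IsMF.add {N : ℕ} {k : ℤ} {f g : ℍ → ℂ} (hf : IsMF N k f) (hg : IsMF N k g) :
    IsMF N k (f + g) := by
  refine ⟨hf.1.add hg.1, fun γ hγ => ?_, fun δ => ?_⟩
  · rw [SlashAction.add_slash, hf.2.1 γ hγ, hg.2.1 γ hγ]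
  · rw [SlashAction.add_slash]; exact (hf.2.2 δ).add (hg.2.2 δ)

theorem IsMF.smul {N : ℕ} {k : ℤ} {f : ℍ → ℂ} (c : ℂ) (hf : IsMF N k f) :
    IsMF N k (c • f) := by
  refine ⟨hf.1.const_smul c, fun γ hγ => ?_, fun δ => ?_⟩
  · rw [ModularForm.SL_smul_slash, hf.2.1 γ hγ]
  · rw [ModularForm.SL_smul_slash]; exact (hf.2.2 δ).const_smul_left c

/-- The space of weight `k` modular forms for `Γ₀(N)` as a subspace of functions. -/
def MkSub (N : ℕ) (k : ℤ) : Submodule ℂ (ℍ → ℂ) where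
  carrier := {f | IsMF N k f}
  add_mem' := IsMF.add
  zero_mem' := isMF_zero N k
  smul_mem' c _ h := IsMF.smul c h

@[simp] theorem mem_MkSub {N : ℕ} {k : ℤ} {f : ℍ → ℂ} : f ∈ MkSub N k ↔ IsMF N k f := Iff.rfl

theorem isCF_zero (N : ℕ) (k : ℤ) : IsCF N k 0 := by
  refine ⟨mdifferentiable_const, fun γ _ => ?_, fun δ => ?_⟩
  · exact SlashAction.zero_slash _ _
  · rw [SlashAction.zero_slash]; exact Filter.zero_zeroAtFilter _

theorem IsCF.add {N : ℕ} {k : ℤ} {f g : ℍ → ℂ} (hf : IsCF N k f) (hg : IsCF N k g) :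
    IsCF N k (f + g) := by
  refine ⟨hf.1.add hg.1, fun γ hγ => ?_, fun δ => ?_⟩
  · rw [SlashAction.add_slash, hf.2.1 γ hγ, hg.2.1 γ hγ]
  · rw [SlashAction.add_slash]; exact (hf.2.2 δ).add (hg.2.2 δ)

theorem IsCF.smul {N : ℕ} {k : ℤ} {f : ℍ → ℂ} (c : ℂ) (hf : IsCF N k f) :
    IsCF N k (c • f) := by
  refine ⟨hf.1.const_smul c, fun γ hγ => ?_, fun δ => ?_⟩
  · rw [ModularForm.SL_smul_slash, hf.2.1 γ hγ]
  · rw [ModularForm.SL_smul_slash]; exact (hf.2.2 δ).smul c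

/-- The space of weight `k` cusp forms for `Γ₀(N)` as a subspace of functions. -/
def SkSub (N : ℕ) (k : ℤ) : Submodule ℂ (ℍ → ℂ) where
  carrier := {f | IsCF N k f}
  add_mem' := IsCF.add
  zero_mem' := isCF_zero N k
  smul_mem' c _ h := IsCF.smul c h

@[simp] theorem mem_SkSub {N : ℕ} {k : ℤ} {f : ℍ → ℂ} : f ∈ SkSub N k ↔ IsCF N k f := Iff.rfl

theorem SkSub_le_MkSub (N : ℕ) (k : ℤ) : SkSub N k ≤ MkSub N k := fun _ h => IsCF.isMF h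

/-- The bundled modular forms are linearly equivalent to the function-level space. -/
def mfEquiv (N : ℕ) [NeZero N] (k : ℤ) : ModularForm (Gamma0 N) k ≃ₗ[ℂ] MkSub N k where
  toFun F := ⟨⇑F, isMF_coe F⟩
  invFun f := IsMF.toMF f.2
  map_add' _ _ := rfl
  map_smul' _ _ := rfl
  left_inv _ := by ext; rfl
  right_inv _ := by ext; rfl

def cfEquiv (N : ℕ) [NeZero N] (k : ℤ) : CuspForm (Gamma0 N) k ≃ₗ[ℂ] SkSub N k where
  toFun F := ⟨⇑F, isCF_coe F⟩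
  invFun f := IsCF.toCF f.2
  map_add' _ _ := rfl
  map_smul' _ _ := rfl
  left_inv _ := by ext; rfl
  right_inv _ := by ext; rfl

theorem finrank_MkSub (N : ℕ) [NeZero N] (k : ℤ) :
    Module.finrank ℂ (MkSub N k) = Module.finrank ℂ (ModularForm (Gamma0 N) k) :=
  (mfEquiv N k).finrank_eq.symm

theorem finrank_SkSub (N : ℕ) [NeZero N] (k : ℤ) :
    Module.finrank ℂ (SkSub N k) = Module.finrank ℂ (CuspForm (Gamma0 N) k) :=
  (cfEquiv N k).finrank_eq.symm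

theorem IsMF.mul {N : ℕ} {k l : ℤ} {f g : ℍ → ℂ} (hf : IsMF N k f) (hg : IsMF N l g) :
    IsMF N (k + l) (f * g) := by
  refine ⟨hf.1.mul hg.1, fun γ hγ => ?_, fun δ => ?_⟩
  · rw [ModularForm.mul_slash_SL2, hf.2.1 γ hγ, hg.2.1 γ hγ]
  · rw [ModularForm.mul_slash_SL2]; exact (hf.2.2 δ).mul (hg.2.2 δ)

theorem IsMF.mul_isCF {N : ℕ} {k l : ℤ} {f g : ℍ → ℂ} (hf : IsMF N k f) (hg : IsCF N l g) :
    IsCF N (k + l) (f * g) := by
  refine ⟨hf.1.mul hg.1, fun γ hγ => ?_, fun δ => ?_⟩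
  · rw [ModularForm.mul_slash_SL2, hf.2.1 γ hγ, hg.2.1 γ hγ]
  · rw [ModularForm.mul_slash_SL2]; exact (hf.2.2 δ).mul_zeroAtFilter (hg.2.2 δ)

/-- Level-one forms are forms of every level. -/
theorem IsMF.of_levelOne {N : ℕ} {k : ℤ} {f : ℍ → ℂ} (hf : IsMF 1 k f) : IsMF N k f :=
  ⟨hf.1, fun γ _ => hf.2.1 γ (by rw [Gamma0_mem]; exact Subsingleton.elim _ _), hf.2.2⟩

theorem IsCF.of_levelOne {N : ℕ} {k : ℤ} {f : ℍ → ℂ} (hf : IsCF 1 k f) : IsCF N k f :=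
  ⟨hf.1, fun γ _ => hf.2.1 γ (by rw [Gamma0_mem]; exact Subsingleton.elim _ _), hf.2.2⟩

/-- Level-one forms are invariant under all of `SL(2, ℤ)`. -/
theorem IsMF.slash_levelOne {k : ℤ} {f : ℍ → ℂ} (hf : IsMF 1 k f) (γ : SL(2, ℤ)) :
    f ∣[k] γ = f :=
  hf.2.1 γ (by rw [Gamma0_mem]; exact Subsingleton.elim _ _)

/-- Slashing a level `N` form by any element of `SL(2, ℤ)` keeps holomorphy. -/
theorem IsMF.mdiff_slash {N : ℕ} {k : ℤ} {f : ℍ → ℂ} (hf : IsMF N k f) (δ : SL(2, ℤ)) :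
    MDiff (f ∣[k] δ) := hf.1.slash k _

theorem isCusp_mapGL_smul_infty_SL (δ : SL(2, ℤ)) :
    IsCusp (mapGL ℝ δ • OnePoint.infty) 𝒮ℒ := by
  rw [isCusp_SL2Z_iff']
  exact ⟨δ, rfl⟩

theorem isMF_coe_levelOne {k : ℤ} (F : ModularForm 𝒮ℒ k) : IsMF 1 k ⇑F := by
  refine ⟨ModularFormClass.holo F, fun γ _ => ?_, fun δ => ?_⟩
  · exact SlashInvariantFormClass.slash_action_eq F _ ⟨γ, rfl⟩
  · have h := ModularFormClass.bdd_at_cusps F (isCusp_mapGL_smul_infty_SL δ)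
    exact (OnePoint.isBoundedAt_iff rfl).mp h

theorem isCF_coe_levelOne {k : ℤ} (F : CuspForm 𝒮ℒ k) : IsCF 1 k ⇑F := by
  refine ⟨CuspFormClass.holo F, fun γ _ => ?_, fun δ => ?_⟩
  · exact SlashInvariantFormClass.slash_action_eq F _ ⟨γ, rfl⟩
  · have h := CuspFormClass.zero_at_cusps F (isCusp_mapGL_smul_infty_SL δ)
    exact (OnePoint.isZeroAt_iff rfl).mp h

def IsMF.toMFOne {k : ℤ} {f : ℍ → ℂ} (h : IsMF 1 k f) : ModularForm 𝒮ℒ k where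
  toFun := f
  slash_action_eq' γ hγ := by
    obtain ⟨g, rfl⟩ := hγ
    exact h.slash_levelOne g
  holo' := h.1
  bdd_at_cusps' {c} hc := by
    rw [isCusp_SL2Z_iff'] at hc
    obtain ⟨δ, rfl⟩ := hc
    exact (OnePoint.isBoundedAt_iff rfl).mpr (h.2.2 δ)

@[simp] theorem IsMF.coe_toMFOne {k : ℤ} {f : ℍ → ℂ} (h : IsMF 1 k f) : ⇑h.toMFOne = f := rfl

def IsCF.toCFOne {k : ℤ} {f : ℍ → ℂ} (h : IsCF 1 k f) : CuspForm 𝒮ℒ k where
  toFun := f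
  slash_action_eq' γ hγ := by
    obtain ⟨g, rfl⟩ := hγ
    exact h.isMF.slash_levelOne g
  holo' := h.1
  zero_at_cusps' {c} hc := by
    rw [isCusp_SL2Z_iff'] at hc
    obtain ⟨δ, rfl⟩ := hc
    exact (OnePoint.isZeroAt_iff rfl).mpr (h.2.2 δ)

@[simp] theorem IsCF.coe_toCFOne {k : ℤ} {f : ℍ → ℂ} (h : IsCF 1 k f) : ⇑h.toCFOne = f := rfl

def mfOneEquiv (k : ℤ) : ModularForm 𝒮ℒ k ≃ₗ[ℂ] MkSub 1 k where
  toFun F := ⟨⇑F, isMF_coe_levelOne F⟩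
  invFun f := IsMF.toMFOne f.2
  map_add' _ _ := rfl
  map_smul' _ _ := rfl
  left_inv _ := by ext; rfl
  right_inv _ := by ext; rfl

theorem finrank_MkSub_one (k : ℤ) :
    Module.finrank ℂ (MkSub 1 k) = Module.finrank ℂ (ModularForm 𝒮ℒ k) :=
  (mfOneEquiv k).finrank_eq.symm

open ModularForm EisensteinSeries in
theorem isMF_E4 : IsMF 1 4 ⇑E₄ := isMF_coe_levelOne E₄

open ModularForm EisensteinSeries in
theorem isMF_E6 : IsMF 1 6 ⇑E₆ := isMF_coe_levelOne E₆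

theorem isCF_delta : IsCF 1 12 ⇑CuspForm.discriminant := isCF_coe_levelOne _

end

end Fermat.Agent.S20
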