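import Fermat.Agent.S20.Defs

set_option autoImplicit false

namespace Fermat.Agent.S20

open UpperHalfPlane CongruenceSubgroup Matrix.SpecialLinearGroup
open scoped MatrixGroups ModularForm Manifold

noncomputable section

/-- Left cosets of `Γ₀(N)` in `SL(2, ℤ)` (Mathlib's quotient, with the left translation action). -/
abbrev Q (N : ℕ) : Type := SL(2, ℤ) ⧸ Gamma0 N

instance finiteQ (N : ℕ) [NeZero N] : Finite (Q N) := by
  have : (Gamma0 N).FiniteIndex := inferInstance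
  exact Subgroup.finite_quotient_of_finiteIndex

instance fintypeQ (N : ℕ) [NeZero N] : Fintype (Q N) := Fintype.ofFinite _

instance decEqQ (N : ℕ) : DecidableEq (Q N) := Classical.decEq _

/-- The translate of `f` attached to the coset `q = gΓ₀(N)`, namely `f ∣[k] g⁻¹`. -/
def cosetFn (N : ℕ) (k : ℤ) (f : ℍ → ℂ) (q : Q N) : ℍ → ℂ :=
  f ∣[k] (q.out)⁻¹

theorem cosetFn_mk {N : ℕ} {k : ℤ} {f : ℍ → ℂ}
    (hf : ∀ γ ∈ Gamma0 N, f ∣[k] (γ : SL(2, ℤ)) = f) (g : SL(2, ℤ)) :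
    cosetFn N k f (QuotientGroup.mk g) = f ∣[k] g⁻¹ := by
  unfold cosetFn
  have h : (QuotientGroup.mk g : Q N).out⁻¹ * g ∈ Gamma0 N := by
    have := QuotientGroup.mk_out_eq_mul (Gamma0 N) g
    obtain ⟨h, hh⟩ := this
    rw [hh]
    simp
  have h2 : ((QuotientGroup.mk g : Q N).out)⁻¹ =
      ((QuotientGroup.mk g : Q N).out⁻¹ * g) * g⁻¹ := by group
  rw [h2, SlashAction.slash_mul, hf _ h]

theorem cosetFn_slash {N : ℕ} {k : ℤ} {f : ℍ → ℂ}
    (hf : ∀ γ ∈ Gamma0 N, f ∣[k] (γ : SL(2, ℤ)) = f) (q : Q N) (δ : SL(2, ℤ)) :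
    cosetFn N k f q ∣[k] δ = cosetFn N k f (δ⁻¹ • q) := by
  induction q using QuotientGroup.induction_on with
  | H g =>
    rw [cosetFn_mk hf, ← SlashAction.slash_mul]
    have : δ⁻¹ • (QuotientGroup.mk g : Q N) = QuotientGroup.mk (δ⁻¹ * g) := rfl
    rw [this, cosetFn_mk hf, mul_inv_rev, inv_inv]

theorem cosetFn_one {N : ℕ} {k : ℤ} {f : ℍ → ℂ}
    (hf : ∀ γ ∈ Gamma0 N, f ∣[k] (γ : SL(2, ℤ)) = f) :
    cosetFn N k f (QuotientGroup.mk 1) = f := by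
  rw [cosetFn_mk hf, inv_one, SlashAction.slash_one]

/-- Pointwise form of `cosetFn_slash`. -/
theorem cosetFn_smul_apply {N : ℕ} {k : ℤ} {f : ℍ → ℂ}
    (hf : ∀ γ ∈ Gamma0 N, f ∣[k] (γ : SL(2, ℤ)) = f) (q : Q N) (δ : SL(2, ℤ)) (z : ℍ) :
    cosetFn N k f q (δ • z) = denom δ z ^ k * cosetFn N k f (δ⁻¹ • q) z := by
  have h := congrFun (cosetFn_slash hf q δ) z
  rw [ModularForm.SL_slash_apply] at h
  rw [← h, mul_comm, mul_assoc, ← zpow_add₀ (denom_ne_zero _ z)]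
  simp

/-- A homogeneous free basis of `⨁ₖ Mₖ(Γ₀(N))` over the level-one ring, indexed by the cosets. -/
structure FreeBasis (N : ℕ) [NeZero N] where
  /-- weights of the generators -/
  d : Q N → ℕ
  /-- the generators -/
  f : Q N → ℍ → ℂ
  mem : ∀ i, IsMF N (d i) (f i)
  span : ∀ (k : ℤ) (m : ℍ → ℂ), IsMF N k m →
    ∃ r : Q N → ℍ → ℂ, (∀ i, IsMF 1 (k - d i) (r i)) ∧ m = ∑ i, r i * f i
  indep : ∀ (k : ℤ) (r : Q N → ℍ → ℂ), (∀ i, IsMF 1 (k - d i) (r i)) →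
    ∑ i, r i * f i = 0 → ∀ i, r i = 0

/-- The matrix of all translates of the basis. -/
def FreeBasis.mat {N : ℕ} [NeZero N] (B : FreeBasis N) (z : ℍ) : Matrix (Q N) (Q N) ℂ :=
  fun i q => cosetFn N (B.d i) (B.f i) q z

/-- total weight -/
def FreeBasis.wt {N : ℕ} [NeZero N] (B : FreeBasis N) : ℕ := ∑ i, B.d i

end

end Fermat.Agent.S20
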