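import Mathlib
import Fermat.Agent.S20.Defs

set_option autoImplicit false

/-!
# L1: `E₄, E₆` is a regular sequence on modular forms of any level

* `eq_zero_of_E4_mul_eq_zero`: `E₄ * f = 0 → f = 0` for holomorphic `f`.
* `IsMF.exists_eq_E4_mul`: if `E₆ * f = E₄ * g` with `f ∈ M_k(Γ₀(N))`, `g ∈ M_{k+2}(Γ₀(N))` then
  `f = E₄ * h`, `g = E₆ * h` with `h ∈ M_{k-4}(Γ₀(N))`; same for cusp forms.
-/

namespace Fermat.Agent.S20

open UpperHalfPlane ModularForm EisensteinSeries Filter Topology CongruenceSubgroup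
  Matrix.SpecialLinearGroup
open scoped MatrixGroups ModularForm Manifold

noncomputable section

/-! ### Generalities on holomorphic functions on `ℍ` -/

/-- The ring of holomorphic functions on `ℍ` has no zero divisors. -/
theorem eq_zero_or_eq_zero_of_mul_eq_zero_of_mdiff {f g : ℍ → ℂ} (hf : MDiff f) (hg : MDiff g)
    (h : f * g = 0) : f = 0 ∨ g = 0 := by
  have hU : IsOpen {z : ℂ | 0 < z.im} := isOpen_upperHalfPlaneSet
  have hfa : AnalyticOnNhd ℂ (f ∘ ofComplex) {z : ℂ | 0 < z.im} :=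
    (UpperHalfPlane.mdifferentiable_iff.mp hf).analyticOnNhd hU
  have hga : AnalyticOnNhd ℂ (g ∘ ofComplex) {z : ℂ | 0 < z.im} :=
    (UpperHalfPlane.mdifferentiable_iff.mp hg).analyticOnNhd hU
  have hconn : IsPreconnected {z : ℂ | 0 < z.im} := (convex_halfSpace_im_gt 0).isPreconnected
  have hmul : ∀ z ∈ {z : ℂ | 0 < z.im}, (f ∘ ofComplex) z * (g ∘ ofComplex) z = 0 := by
    intro z _
    exact congrFun h (ofComplex z)
  rcases hfa.eq_zero_or_eq_zero_of_mul_eq_zero hga hmul hconn with h0 | h0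
  · left
    funext τ
    have := h0 (τ : ℂ) τ.im_pos
    simpa [Function.comp, ofComplex_apply] using this
  · right
    funext τ
    have := h0 (τ : ℂ) τ.im_pos
    simpa [Function.comp, ofComplex_apply] using this

/-- A level one modular form tends to its constant `q`-coefficient at `i∞`. -/
theorem tendsto_atImInfty_levelOne {k : ℤ} (F : ModularForm 𝒮ℒ k) :
    Tendsto (⇑F) atImInfty (𝓝 ((qExpansion 1 F).coeff 0)) := by
  have hΓ : (1 : ℝ) ∈ (𝒮ℒ : Subgroup (GL (Fin 2) ℝ)).strictPeriods :=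
    one_mem_strictPeriods_SL
  have han := ModularFormClass.analyticAt_cuspFunction_zero F one_pos hΓ
  have hcomp : (cuspFunction 1 F ∘ fun τ : ℍ ↦ Function.Periodic.qParam 1 τ : ℍ → ℂ) = F := by
    funext τ
    exact (SlashInvariantFormClass.eq_cuspFunction F τ hΓ one_ne_zero)
  have h0 : (qExpansion 1 F).coeff 0 = cuspFunction 1 F 0 := by
    simp [qExpansion_coeff]
  rw [h0]
  have := han.continuousAt.tendsto.comp (qParam_tendsto_atImInfty one_pos)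
  rwa [hcomp] at this

theorem regSeq_tendsto_E4 : Tendsto (⇑E₄) atImInfty (𝓝 1) := by
  have := tendsto_atImInfty_levelOne E₄
  rwa [E_qExpansion_coeff_zero _ ⟨2, rfl⟩] at this

theorem regSeq_tendsto_E6 : Tendsto (⇑E₆) atImInfty (𝓝 1) := by
  have := tendsto_atImInfty_levelOne E₆
  rwa [E_qExpansion_coeff_zero _ ⟨3, rfl⟩] at this

/-- `E₄` and `E₆` have no common zero (because `1728 Δ = E₄³ - E₆²` never vanishes). -/
theorem E4_ne_zero_or_E6_ne_zero (z : ℍ) : E₄ z ≠ 0 ∨ E₆ z ≠ 0 := by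
  by_contra h
  push Not at h
  have h1 := ModularForm.discriminant_eq_E₄_cube_sub_E₆_sq z
  rw [h.1, h.2] at h1
  exact ModularForm.discriminant_ne_zero z (by simpa using h1)

theorem E4_fun_ne_zero : (⇑E₄ : ℍ → ℂ) ≠ 0 := by
  intro h
  exact E_ne_zero (by norm_num : 3 ≤ 4) ⟨2, rfl⟩ (DFunLike.coe_injective h)

theorem E6_fun_ne_zero : (⇑E₆ : ℍ → ℂ) ≠ 0 := by
  intro h
  exact E_ne_zero (by norm_num : 3 ≤ 6) ⟨3, rfl⟩ (DFunLike.coe_injective h)

/-! ### L1 (a) -/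

/-- L1 (a): multiplication by `E₄` is injective on holomorphic functions. -/
theorem eq_zero_of_E4_mul_eq_zero {f : ℍ → ℂ} (hf : MDiff f) (h : ⇑E₄ * f = 0) : f = 0 :=
  (eq_zero_or_eq_zero_of_mul_eq_zero_of_mdiff (ModularFormClass.holo E₄) hf h).resolve_left
    E4_fun_ne_zero

theorem eq_zero_of_E6_mul_eq_zero {f : ℍ → ℂ} (hf : MDiff f) (h : ⇑E₆ * f = 0) : f = 0 :=
  (eq_zero_or_eq_zero_of_mul_eq_zero_of_mdiff (ModularFormClass.holo E₆) hf h).resolve_left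
    E6_fun_ne_zero

theorem IsMF.eq_zero_of_E4_mul_eq_zero {N : ℕ} {k : ℤ} {f : ℍ → ℂ} (hf : IsMF N k f)
    (h : ⇑E₄ * f = 0) : f = 0 :=
  Fermat.Agent.S20.eq_zero_of_E4_mul_eq_zero hf.1 h

/-! ### L1 (b) -/

/-- the quotient function: `f / E₄` where `E₄ ≠ 0`, `g / E₆` elsewhere -/
def quotE (f g : ℍ → ℂ) : ℍ → ℂ := fun z =>
  haveI := Classical.dec (E₄ z = 0)
  if E₄ z = 0 then g z / E₆ z else f z / E₄ z

theorem quotE_spec {f g : ℍ → ℂ} (h : ⇑E₆ * f = ⇑E₄ * g) :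
    f = ⇑E₄ * quotE f g ∧ g = ⇑E₆ * quotE f g := by
  constructor
  · funext z
    have hz := congrFun h z
    simp only [Pi.mul_apply] at hz
    simp only [Pi.mul_apply, quotE]
    by_cases h4 : E₄ z = 0
    · have h6 : E₆ z ≠ 0 := (E4_ne_zero_or_E6_ne_zero z).resolve_left (not_not.mpr h4)
      rw [if_pos h4, h4, zero_mul]
      rw [h4, zero_mul] at hz
      exact (mul_eq_zero.mp hz).resolve_left h6
    · rw [if_neg h4]
      field_simp
  · funext z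
    have hz := congrFun h z
    simp only [Pi.mul_apply] at hz
    simp only [Pi.mul_apply, quotE]
    by_cases h4 : E₄ z = 0
    · have h6 : E₆ z ≠ 0 := (E4_ne_zero_or_E6_ne_zero z).resolve_left (not_not.mpr h4)
      rw [if_pos h4]
      field_simp
    · rw [if_neg h4]
      field_simp
      linear_combination -hz

/-- local holomorphy of a quotient -/
theorem mdiffAt_of_eq_mul {u f q : ℍ → ℂ} (hu : MDiff u) (hf : MDiff f) (h : f = u * q) {τ : ℍ}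
    (hτ : u τ ≠ 0) : MDiffAt q τ := by
  have hdiv : MDiffAt (f / u) τ := by
    rw [UpperHalfPlane.mdifferentiableAt_iff]
    have h1 := UpperHalfPlane.mdifferentiableAt_iff.mp (hf τ)
    have h2 := UpperHalfPlane.mdifferentiableAt_iff.mp (hu τ)
    have hne : (u ∘ ofComplex) (τ : ℂ) ≠ 0 := by
      simpa [Function.comp, ofComplex_apply] using hτ
    exact h1.div h2 hne
  refine hdiv.congr_of_eventuallyEq ?_
  have hev : ∀ᶠ z in 𝓝 τ, u z ≠ 0 := hu.continuous.continuousAt.eventually_ne hτ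
  filter_upwards [hev] with z hz
  have := congrFun h z
  simp only [Pi.mul_apply] at this
  simp only [Pi.div_apply, this]
  field_simp

theorem mdiff_of_E4_E6_mul {f g q : ℍ → ℂ} (hf : MDiff f) (hg : MDiff g)
    (h4 : f = ⇑E₄ * q) (h6 : g = ⇑E₆ * q) : MDiff q := by
  intro τ
  rcases E4_ne_zero_or_E6_ne_zero τ with h | h
  · exact mdiffAt_of_eq_mul (ModularFormClass.holo E₄) hf h4 h
  · exact mdiffAt_of_eq_mul (ModularFormClass.holo E₆) hg h6 h

theorem E4_slash (γ : SL(2, ℤ)) : (⇑E₄ : ℍ → ℂ) ∣[(4 : ℤ)] γ = ⇑E₄ :=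
  isMF_E4.slash_levelOne γ

theorem E6_slash (γ : SL(2, ℤ)) : (⇑E₆ : ℍ → ℂ) ∣[(6 : ℤ)] γ = ⇑E₆ :=
  isMF_E6.slash_levelOne γ

theorem slash_E4_mul (k : ℤ) (q : ℍ → ℂ) (γ : SL(2, ℤ)) :
    (⇑E₄ * q) ∣[k] γ = ⇑E₄ * (q ∣[k - 4] γ) := by
  have hk : k = 4 + (k - 4) := by ring
  conv_lhs => rw [hk]
  rw [ModularForm.mul_slash_SL2, E4_slash]

theorem slash_E6_mul (k : ℤ) (q : ℍ → ℂ) (γ : SL(2, ℤ)) :
    (⇑E₆ * q) ∣[k] γ = ⇑E₆ * (q ∣[k - 6] γ) := by
  have hk : k = 6 + (k - 6) := by ring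
  conv_lhs => rw [hk]
  rw [ModularForm.mul_slash_SL2, E6_slash]

/-- two functions agreeing after multiplication by `E₄` and by `E₆` are equal -/
theorem eq_of_E4_mul_eq_of_E6_mul_eq {p q : ℍ → ℂ} (h4 : ⇑E₄ * p = ⇑E₄ * q)
    (h6 : ⇑E₆ * p = ⇑E₆ * q) : p = q := by
  funext z
  rcases E4_ne_zero_or_E6_ne_zero z with h | h
  · exact mul_left_cancel₀ h (congrFun h4 z)
  · exact mul_left_cancel₀ h (congrFun h6 z)

theorem slash_eq_of_E4_E6_mul {k : ℤ} {f g q : ℍ → ℂ} (γ : SL(2, ℤ)) (hf : f ∣[k] γ = f)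
    (hg : g ∣[k + 2] γ = g) (h4 : f = ⇑E₄ * q) (h6 : g = ⇑E₆ * q) : q ∣[k - 4] γ = q := by
  apply eq_of_E4_mul_eq_of_E6_mul_eq
  · rw [← slash_E4_mul, ← h4, hf]
  · have : k - 4 = (k + 2) - 6 := by ring
    rw [this, ← slash_E6_mul, ← h6, hg]

/-- boundedness at `i∞` passes to a quotient by a function tending to `1` -/
theorem isBoundedAtImInfty_of_eq_mul {u F q : ℍ → ℂ} (hu : Tendsto u atImInfty (𝓝 1))
    (hF : IsBoundedAtImInfty F) (h : F = u * q) : IsBoundedAtImInfty q := by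
  have hinv : Tendsto (fun z => (u z)⁻¹) atImInfty (𝓝 1) := by
    simpa using hu.inv₀ one_ne_zero
  have hb : IsBoundedAtImInfty (fun z => (u z)⁻¹) := hinv.isBigO_one ℝ
  have hprod : IsBoundedAtImInfty (F * fun z => (u z)⁻¹) := hF.mul hb
  have hev : ∀ᶠ z in atImInfty, u z ≠ 0 := hu.eventually_ne one_ne_zero
  refine Asymptotics.IsBigO.congr' hprod ?_ Filter.EventuallyEq.rfl
  filter_upwards [hev] with z hz
  have := congrFun h z
  simp only [Pi.mul_apply] at this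
  simp only [Pi.mul_apply, this]
  field_simp

/-- vanishing at `i∞` passes to a quotient by a function tending to `1` -/
theorem isZeroAtImInfty_of_eq_mul {u F q : ℍ → ℂ} (hu : Tendsto u atImInfty (𝓝 1))
    (hF : IsZeroAtImInfty F) (h : F = u * q) : IsZeroAtImInfty q := by
  have hinv : Tendsto (fun z => (u z)⁻¹) atImInfty (𝓝 1) := by
    simpa using hu.inv₀ one_ne_zero
  have hprod : Tendsto (fun z => F z * (u z)⁻¹) atImInfty (𝓝 0) := by
    simpa using hF.mul hinv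
  have hev : ∀ᶠ z in atImInfty, u z ≠ 0 := hu.eventually_ne one_ne_zero
  refine Tendsto.congr' ?_ hprod
  filter_upwards [hev] with z hz
  have := congrFun h z
  simp only [Pi.mul_apply] at this
  rw [this]
  field_simp

/-- L1 (b) for modular forms: `E₆ * f = E₄ * g` forces `f = E₄ * q`, `g = E₆ * q` with `q` a
modular form of weight `k - 4`. -/
theorem IsMF.exists_eq_E4_mul {N : ℕ} {k : ℤ} {f g : ℍ → ℂ} (hf : IsMF N k f)
    (hg : IsMF N (k + 2) g) (h : ⇑E₆ * f = ⇑E₄ * g) :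
    ∃ q : ℍ → ℂ, IsMF N (k - 4) q ∧ f = ⇑E₄ * q ∧ g = ⇑E₆ * q := by
  obtain ⟨h4, h6⟩ := quotE_spec h
  refine ⟨quotE f g, ⟨mdiff_of_E4_E6_mul hf.1 hg.1 h4 h6, fun γ hγ => ?_, fun δ => ?_⟩, h4, h6⟩
  · exact slash_eq_of_E4_E6_mul γ (hf.2.1 γ hγ) (hg.2.1 γ hγ) h4 h6
  · refine isBoundedAtImInfty_of_eq_mul regSeq_tendsto_E4 (hf.2.2 δ) ?_
    rw [← slash_E4_mul, ← h4]

/-- L1 (b) for cusp forms. -/
theorem IsCF.exists_eq_E4_mul {N : ℕ} {k : ℤ} {f g : ℍ → ℂ} (hf : IsCF N k f)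
    (hg : IsCF N (k + 2) g) (h : ⇑E₆ * f = ⇑E₄ * g) :
    ∃ q : ℍ → ℂ, IsCF N (k - 4) q ∧ f = ⇑E₄ * q ∧ g = ⇑E₆ * q := by
  obtain ⟨h4, h6⟩ := quotE_spec h
  refine ⟨quotE f g, ⟨mdiff_of_E4_E6_mul hf.1 hg.1 h4 h6, fun γ hγ => ?_, fun δ => ?_⟩, h4, h6⟩
  · exact slash_eq_of_E4_E6_mul γ (hf.2.1 γ hγ) (hg.2.1 γ hγ) h4 h6
  · refine isZeroAtImInfty_of_eq_mul regSeq_tendsto_E4 (hf.2.2 δ) ?_
    rw [← slash_E4_mul, ← h4]

/-- L1 (b) in the submodule language (shape of the abstract hypothesis `reg_b`). -/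
theorem exists_mem_MkSub_eq_E4_mul {N : ℕ} {k : ℤ} {f g : ℍ → ℂ} (hf : f ∈ MkSub N k)
    (hg : g ∈ MkSub N (k + 6 - 4)) (h : ⇑E₆ * f = ⇑E₄ * g) :
    ∃ q ∈ MkSub N (k - 4), f = ⇑E₄ * q := by
  have hg' : IsMF N (k + 2) g := by
    have : k + 6 - 4 = k + 2 := by ring
    rw [this] at hg
    exact hg
  obtain ⟨q, hq, h4, -⟩ := IsMF.exists_eq_E4_mul hf hg' h
  exact ⟨q, hq, h4⟩

theorem exists_mem_SkSub_eq_E4_mul {N : ℕ} {k : ℤ} {f g : ℍ → ℂ} (hf : f ∈ SkSub N k)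
    (hg : g ∈ SkSub N (k + 6 - 4)) (h : ⇑E₆ * f = ⇑E₄ * g) :
    ∃ q ∈ SkSub N (k - 4), f = ⇑E₄ * q := by
  have hg' : IsCF N (k + 2) g := by
    have : k + 6 - 4 = k + 2 := by ring
    rw [this] at hg
    exact hg
  obtain ⟨q, hq, h4, -⟩ := IsCF.exists_eq_E4_mul hf hg' h
  exact ⟨q, hq, h4⟩

end

end Fermat.Agent.S20
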