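import Mathlib
import Fermat.Agent.S20.Basis
import Fermat.Agent.S20.RegSeq

set_option autoImplicit false

/-!
# L3 / P4: the number of free generators equals the index `μ = [SL(2,ℤ) : Γ₀(N)]`

The analytic half: the primitive element `gN z = Δ(N z)`; it is a cusp form of weight
`12` for `Γ₀(N)`, its `μ` translates `cosetFn N 12 gN q` are pairwise distinct, the Vandermonde
family built from them has a nonvanishing determinant at some point, hence any homogeneous
generating family has at least `μ` elements, and the matrix of a `FreeBasis` is invertible at some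
point.

Exported: `gN`, `isMF_gN`, `cosetFn_gN_injective`, `card_le_card_of_span`, `exists_indep_family`,
`Rank.exists_mat_det_ne_zero`.
-/

namespace Fermat.Agent.S20

open UpperHalfPlane CongruenceSubgroup Matrix.SpecialLinearGroup Filter Topology
open scoped MatrixGroups ModularForm Manifold Real

noncomputable section

namespace Rank

/-- Bezout form of the Hermite decomposition, pure integer arithmetic. -/
theorem hermite_aux (n p q r s : ℤ) (hn : 0 < n) (hdet : p * s - q * r = 1) :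
    ∃ (A' C' x y a b d : ℤ), A' * x + C' * y = 1 ∧ 0 < a ∧ 0 < d ∧ a * d = n ∧
      n * p = A' * a ∧ n * q = A' * b + (-y) * d ∧ r = C' * a ∧ s = C' * b + x * d := by
  obtain ⟨A, hA⟩ : ∃ A : ℤ, A = n * p := ⟨_, rfl⟩
  obtain ⟨g, hg⟩ : ∃ g : ℤ, g = (Int.gcd A r : ℤ) := ⟨_, rfl⟩
  have hg0 : g ≠ 0 := by
    intro h0
    rw [h0] at hg
    have h0' : Int.gcd A r = 0 := by exact_mod_cast hg.symm
    rw [Int.gcd_eq_zero_iff] at h0'
    obtain ⟨h1, h2⟩ := h0'
    have h3 : p = 0 := by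
      rw [hA] at h1
      rcases mul_eq_zero.mp h1 with h | h
      · exact absurd h hn.ne'
      · exact h
    rw [h3, h2] at hdet
    simp at hdet
  have hgpos : 0 < g := lt_of_le_of_ne (by rw [hg]; positivity) (Ne.symm hg0)
  obtain ⟨A', hA'⟩ : g ∣ A := by rw [hg]; exact Int.gcd_dvd_left _ _
  obtain ⟨C', hC'⟩ : g ∣ r := by rw [hg]; exact Int.gcd_dvd_right _ _
  have hbez : g = A * Int.gcdA A r + r * Int.gcdB A r := by
    rw [hg]; exact Int.gcd_eq_gcd_ab A r
  obtain ⟨x, hx⟩ : ∃ x : ℤ, x = Int.gcdA A r := ⟨_, rfl⟩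
  obtain ⟨y, hy⟩ : ∃ y : ℤ, y = Int.gcdB A r := ⟨_, rfl⟩
  rw [← hx, ← hy] at hbez
  have hbez' : A' * x + C' * y = 1 := by
    have : g * (A' * x + C' * y) = g * 1 := by
      rw [mul_one]
      calc g * (A' * x + C' * y) = (g * A') * x + (g * C') * y := by ring
        _ = g := by rw [← hA', ← hC', ← hbez]
    exact mul_left_cancel₀ hg0 this
  have hgd : g * (A' * s - C' * n * q) = n := by
    have : g * (A' * s - C' * n * q) = A * s - r * n * q := by
      rw [hA', hC']; ring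
    rw [this, hA]
    linear_combination n * hdet
  refine ⟨A', C', x, y, g, x * n * q + y * s, A' * s - C' * n * q, hbez', hgpos, ?_, hgd,
    ?_, ?_, ?_, ?_⟩
  · by_contra hneg
    push Not at hneg
    have : g * (A' * s - C' * n * q) ≤ 0 := mul_nonpos_of_nonneg_of_nonpos hgpos.le hneg
    rw [hgd] at this
    omega
  · rw [← hA, hA']; ring
  · linear_combination (-n * q) * hbez'
  · rw [hC']; ring
  · linear_combination (-s) * hbez'

/-- Hermite normal form of `diag(N,1) * δ`. -/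
theorem hermite_decomp (N : ℕ) [NeZero N] (δ : SL(2, ℤ)) :
    ∃ (γ : SL(2, ℤ)) (a b d : ℤ), 0 < a ∧ 0 < d ∧ a * d = N ∧
      (N : ℤ) * δ 0 0 = γ 0 0 * a ∧ (N : ℤ) * δ 0 1 = γ 0 0 * b + γ 0 1 * d ∧
      δ 1 0 = γ 1 0 * a ∧ δ 1 1 = γ 1 0 * b + γ 1 1 * d := by
  have hN : (0 : ℤ) < N := by exact_mod_cast Nat.pos_of_ne_zero (NeZero.ne N)
  have hdet : δ 0 0 * δ 1 1 - δ 0 1 * δ 1 0 = 1 := by
    have := δ.det_coe
    rwa [Matrix.det_fin_two] at this
  obtain ⟨A', C', x, y, a, b, d, hbez, ha, hd, had, h1, h2, h3, h4⟩ :=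
    hermite_aux N (δ 0 0) (δ 0 1) (δ 1 0) (δ 1 1) hN hdet
  refine ⟨⟨!![A', -y; C', x], by rw [Matrix.det_fin_two_of]; linarith⟩, a, b, d, ha, hd, had,
    ?_, ?_, ?_, ?_⟩
  · simpa using h1
  · simpa using h2
  · simpa using h3
  · simpa using h4

/-- the map `z ↦ (a z + b) / d` of the upper half plane (`a, d > 0`) -/
def affH (a b d : ℝ) (ha : 0 < a) (hd : 0 < d) (z : ℍ) : ℍ :=
  UpperHalfPlane.mk (((a : ℂ) * z + b) / d) (by
    rw [Complex.div_ofReal_im]
    apply div_pos _ hd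
    simp only [Complex.add_im, Complex.mul_im, Complex.ofReal_re, Complex.ofReal_im, zero_mul,
      add_zero]
    exact mul_pos ha z.im_pos)

theorem coe_affH (a b d : ℝ) (ha : 0 < a) (hd : 0 < d) (z : ℍ) :
    (affH a b d ha hd z : ℂ) = ((a : ℂ) * z + b) / d := rfl

theorem im_affH (a b d : ℝ) (ha : 0 < a) (hd : 0 < d) (z : ℍ) :
    (affH a b d ha hd z).im = a / d * z.im := by
  change ((((a : ℂ) * z + b) / d : ℂ)).im = _
  rw [Complex.div_ofReal_im]
  simp only [Complex.add_im, Complex.mul_im, Complex.ofReal_re, Complex.ofReal_im, zero_mul,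
    add_zero, UpperHalfPlane.coe_im]
  ring

theorem tendsto_affH (a b d : ℝ) (ha : 0 < a) (hd : 0 < d) :
    Tendsto (affH a b d ha hd) atImInfty atImInfty := by
  rw [atImInfty, tendsto_comap_iff]
  have : (UpperHalfPlane.im ∘ affH a b d ha hd) = fun z : ℍ => a / d * z.im := by
    funext z
    exact im_affH a b d ha hd z
  rw [this]
  exact Tendsto.const_mul_atTop (div_pos ha hd) tendsto_comap

theorem mdiff_comp_affH (a b d : ℝ) (ha : 0 < a) (hd : 0 < d) {f : ℍ → ℂ} (hf : MDiff f) :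
    MDiff (fun z => f (affH a b d ha hd z)) := by
  rw [UpperHalfPlane.mdifferentiable_iff] at hf ⊢
  have hmap : Set.MapsTo (fun w : ℂ => ((a : ℂ) * w + b) / d) {z : ℂ | 0 < z.im}
      {z : ℂ | 0 < z.im} := by
    intro w hw
    simp only [Set.mem_ofPred_eq] at hw ⊢
    rw [Complex.div_ofReal_im]
    apply div_pos _ hd
    simp only [Complex.add_im, Complex.mul_im, Complex.ofReal_re, Complex.ofReal_im, zero_mul,
      add_zero]
    exact mul_pos ha hw
  have hd' : DifferentiableOn ℂ (fun w : ℂ => ((a : ℂ) * w + b) / d) {z : ℂ | 0 < z.im} := by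
    fun_prop
  refine (hf.comp hd' hmap).congr ?_
  intro w hw
  simp only [Function.comp, Set.mem_ofPred_eq] at hw ⊢
  congr 1
  apply UpperHalfPlane.ext
  rw [coe_affH, ofComplex_apply_of_im_pos hw, ofComplex_apply_of_im_pos (hmap hw)]

/-- the product factor of `Δ` -/
def prodFactor (τ : ℍ) : ℂ := ∏' n : ℕ, (1 - ModularForm.eta_q n τ) ^ 24

theorem norm_delta (τ : ℍ) :
    ‖ModularForm.discriminant τ‖ = Real.exp (-2 * π * τ.im) * ‖prodFactor τ‖ := by
  rw [ModularForm.discriminant_eq_q_prod, norm_mul]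
  congr 1
  simp [Function.Periodic.qParam, Complex.norm_exp]

theorem tendsto_prodFactor : Tendsto prodFactor atImInfty (𝓝 1) :=
  ModularForm.tendsto_atImInfty_tprod_one_sub_eta_q_pow

theorem not_lt_of_norm_delta_eq {a b d a' b' d' : ℝ} (ha : 0 < a) (hd : 0 < d) (ha' : 0 < a')
    (hd' : 0 < d') {c c' : ℝ} (hc : 0 < c) (hc' : 0 < c')
    (h : ∀ z, ‖ModularForm.discriminant (affH a b d ha hd z)‖ * c =
      ‖ModularForm.discriminant (affH a' b' d' ha' hd' z)‖ * c') :
    ¬ (a / d < a' / d') := by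
  intro hlt
  have e1 : ∀ᶠ z in atImInfty, 1 / 2 ≤ ‖prodFactor (affH a b d ha hd z)‖ := by
    have := (tendsto_prodFactor.comp (tendsto_affH a b d ha hd)).eventually
      (Metric.ball_mem_nhds 1 (by norm_num : (0 : ℝ) < 1 / 2))
    filter_upwards [this] with z hz
    simp only [Function.comp, Complex.dist_eq] at hz
    have h1 := norm_sub_norm_le (1 : ℂ) (prodFactor (affH a b d ha hd z))
    rw [norm_one, norm_sub_rev] at h1
    linarith
  have e2 : ∀ᶠ z in atImInfty, ‖prodFactor (affH a' b' d' ha' hd' z)‖ ≤ 2 := by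
    have := (tendsto_prodFactor.comp (tendsto_affH a' b' d' ha' hd')).eventually
      (Metric.ball_mem_nhds 1 (by norm_num : (0 : ℝ) < 1 / 2))
    filter_upwards [this] with z hz
    simp only [Function.comp, Complex.dist_eq] at hz
    have h1 := norm_sub_norm_le (prodFactor (affH a' b' d' ha' hd' z)) (1 : ℂ)
    rw [norm_one] at h1
    linarith
  have e3 : Tendsto (fun z : ℍ => Real.exp (2 * π * (a' / d' - a / d) * z.im)) atImInfty atTop := by
    refine Real.tendsto_exp_atTop.comp ?_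
    refine Tendsto.const_mul_atTop ?_ tendsto_comap
    have : 0 < a' / d' - a / d := sub_pos.mpr hlt
    positivity
  have e4 := e3.eventually_gt_atTop (4 * c' / c)
  obtain ⟨z, hz1, hz2, hz3⟩ := (e1.and (e2.and e4)).exists
  have hz := h z
  rw [norm_delta, norm_delta, im_affH, im_affH] at hz
  have hexp : Real.exp (2 * π * (a' / d' - a / d) * z.im) =
      Real.exp (-2 * π * (a / d * z.im)) / Real.exp (-2 * π * (a' / d' * z.im)) := by
    rw [← Real.exp_sub]; congr 1; ring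
  rw [hexp, div_lt_div_iff₀ hc (Real.exp_pos _)] at hz3
  have p1 := Real.exp_pos (-2 * π * (a / d * z.im))
  have p2 := Real.exp_pos (-2 * π * (a' / d' * z.im))
  nlinarith [mul_pos p1 hc, mul_pos p2 hc', mul_le_mul_of_nonneg_left hz1 (mul_pos p1 hc).le,
    mul_le_mul_of_nonneg_left hz2 (mul_pos p2 hc').le]

theorem ratio_eq_of_norm_delta_eq {a b d a' b' d' : ℝ} (ha : 0 < a) (hd : 0 < d) (ha' : 0 < a')
    (hd' : 0 < d') {c c' : ℝ} (hc : 0 < c) (hc' : 0 < c')
    (h : ∀ z, ‖ModularForm.discriminant (affH a b d ha hd z)‖ * c =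
      ‖ModularForm.discriminant (affH a' b' d' ha' hd' z)‖ * c') :
    a / d = a' / d' :=
  le_antisymm (not_lt.mp (not_lt_of_norm_delta_eq ha' hd' ha hd hc' hc (fun z => (h z).symm)))
    (not_lt.mp (not_lt_of_norm_delta_eq ha hd ha' hd' hc hc' h))

theorem natCast_pos' (N : ℕ) [NeZero N] : (0 : ℝ) < N :=
  Nat.cast_pos.mpr (Nat.pos_of_ne_zero (NeZero.ne N))

theorem intCast_pos' {a : ℤ} (ha : 0 < a) : (0 : ℝ) < a := Int.cast_pos.mpr ha

end Rank

open Rank

/-- the primitive element `z ↦ Δ(N z)` -/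
def gN (N : ℕ) [NeZero N] : ℍ → ℂ := fun z =>
  ModularForm.discriminant (affH N 0 1 (natCast_pos' N) one_pos z)

namespace Rank

theorem delta_smul (γ : SL(2, ℤ)) (w : ℍ) :
    ModularForm.discriminant (γ • w) = ModularForm.discriminant w * (denom γ w) ^ (12 : ℕ) := by
  have h := congrFun (isCF_delta.isMF.slash_levelOne γ) w
  rw [ModularForm.SL_slash_apply] at h
  have hne : denom γ w ≠ 0 := denom_ne_zero _ w
  change ModularForm.discriminant (γ • w) * _ = ModularForm.discriminant w at h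
  rw [← h, mul_assoc, ← zpow_natCast, ← zpow_add₀ hne]
  simp

theorem gN_slash_of_decomp (N : ℕ) [NeZero N] (δ γ : SL(2, ℤ)) (a b d : ℤ) (ha : 0 < a)
    (hd : 0 < d)
    (h1 : (N : ℤ) * δ 0 0 = γ 0 0 * a) (h2 : (N : ℤ) * δ 0 1 = γ 0 0 * b + γ 0 1 * d)
    (h3 : δ 1 0 = γ 1 0 * a) (h4 : δ 1 1 = γ 1 0 * b + γ 1 1 * d) (z : ℍ) :
    (gN N ∣[(12 : ℤ)] δ) z =
      ModularForm.discriminant (affH a b d (intCast_pos' ha) (intCast_pos' hd) z) *
        ((d : ℂ) ^ (12 : ℕ))⁻¹ := by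
  have hdC : (d : ℂ) ≠ 0 := by exact_mod_cast hd.ne'
  have c1 : (N : ℂ) * (δ 0 0 : ℤ) = (γ 0 0 : ℤ) * a := by exact_mod_cast h1
  have c2 : (N : ℂ) * (δ 0 1 : ℤ) = (γ 0 0 : ℤ) * b + (γ 0 1 : ℤ) * d := by exact_mod_cast h2
  have c3 : ((δ 1 0 : ℤ) : ℂ) = (γ 1 0 : ℤ) * a := by exact_mod_cast h3
  have c4 : ((δ 1 1 : ℤ) : ℂ) = (γ 1 0 : ℤ) * b + (γ 1 1 : ℤ) * d := by exact_mod_cast h4
  set w := affH a b d (intCast_pos' ha) (intCast_pos' hd) z with hw
  have hwc : (w : ℂ) = ((a : ℂ) * z + b) / d := by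
    rw [hw, coe_affH]; push_cast; rfl
  have hden : denom δ z = d * denom γ w := by
    rw [ModularGroup.denom_apply, ModularGroup.denom_apply, hwc, c3, c4]
    field_simp
    ring
  have hden0 : denom δ z ≠ 0 := denom_ne_zero _ z
  have hden1 : denom γ w ≠ 0 := denom_ne_zero _ w
  have hsm : affH N 0 1 (natCast_pos' N) one_pos (δ • z) = γ • w := by
    apply UpperHalfPlane.ext
    rw [coe_affH, coe_specialLinearGroup_apply, coe_specialLinearGroup_apply]
    simp only [algebraMap_int_eq, eq_intCast, Complex.ofReal_intCast, Complex.ofReal_natCast,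
      Complex.ofReal_zero, Complex.ofReal_one, add_zero, div_one]
    rw [ModularGroup.denom_apply] at hden0 hden1
    rw [mul_div_assoc', div_eq_div_iff hden0 hden1, hwc]
    field_simp
    linear_combination (((γ 1 0 : ℤ) : ℂ) * a * z + (γ 1 0 : ℤ) * b + (γ 1 1 : ℤ) * d) * z * c1 +
      (((γ 1 0 : ℤ) : ℂ) * a * z + (γ 1 0 : ℤ) * b + (γ 1 1 : ℤ) * d) * c2
      - (((γ 0 0 : ℤ) : ℂ) * a * z + (γ 0 0 : ℤ) * b + (γ 0 1 : ℤ) * d) * z * c3
      - (((γ 0 0 : ℤ) : ℂ) * a * z + (γ 0 0 : ℤ) * b + (γ 0 1 : ℤ) * d) * c4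
  rw [ModularForm.SL_slash_apply]
  change ModularForm.discriminant (affH N 0 1 (natCast_pos' N) one_pos (δ • z)) * _ = _
  rw [hsm, delta_smul, hden]
  rw [zpow_neg, show ((12 : ℤ)) = ((12 : ℕ) : ℤ) from rfl, zpow_natCast, mul_pow]
  field_simp

theorem gN_slash_exists (N : ℕ) [NeZero N] (δ : SL(2, ℤ)) :
    ∃ (a b d : ℤ) (ha : 0 < a) (hd : 0 < d), a * d = N ∧ a ∣ δ 1 0 ∧
      ∀ z : ℍ, (gN N ∣[(12 : ℤ)] δ) z =
        ModularForm.discriminant (affH a b d (intCast_pos' ha) (intCast_pos' hd) z) *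
          ((d : ℂ) ^ (12 : ℕ))⁻¹ := by
  obtain ⟨γ, a, b, d, ha, hd, had, h1, h2, h3, h4⟩ := hermite_decomp N δ
  exact ⟨a, b, d, ha, hd, had, ⟨γ 1 0, by rw [h3]; ring⟩,
    gN_slash_of_decomp N δ γ a b d ha hd h1 h2 h3 h4⟩

theorem gN_slash_Gamma0 (N : ℕ) [NeZero N] (γ : SL(2, ℤ)) (hγ : γ ∈ Gamma0 N) :
    gN N ∣[(12 : ℤ)] γ = gN N := by
  rw [Gamma0_mem] at hγ
  have hdvd : (N : ℤ) ∣ γ 1 0 := (ZMod.intCast_zmod_eq_zero_iff_dvd _ _).mp hγ
  obtain ⟨c', hc'⟩ := hdvd
  have hdet : γ 0 0 * γ 1 1 - γ 0 1 * γ 1 0 = 1 := by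
    have := γ.det_coe
    rwa [Matrix.det_fin_two] at this
  have hN : (0 : ℤ) < N := by exact_mod_cast Nat.pos_of_ne_zero (NeZero.ne N)
  let γ' : SL(2, ℤ) := ⟨!![γ 0 0, N * γ 0 1; c', γ 1 1], by
    rw [Matrix.det_fin_two_of]; rw [hc'] at hdet; linarith⟩
  funext z
  have := gN_slash_of_decomp N γ γ' N 0 1 hN one_pos (by simp [γ', mul_comm]) (by simp [γ'])
    (by simp [γ', hc', mul_comm]) (by simp [γ']) z
  rw [this]
  simp only [Int.cast_one, one_pow, inv_one, mul_one, gN]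
  congr 1
  apply UpperHalfPlane.ext
  rw [coe_affH, coe_affH]
  push_cast
  rfl

theorem isCF_gN (N : ℕ) [NeZero N] : IsCF N 12 (gN N) := by
  refine ⟨mdiff_comp_affH _ _ _ _ _ (isCF_delta.1), fun γ hγ => gN_slash_Gamma0 N γ hγ, fun δ => ?_⟩
  obtain ⟨a, b, d, ha, hd, -, -, h⟩ := gN_slash_exists N δ
  have : gN N ∣[(12 : ℤ)] δ = fun z =>
      ModularForm.discriminant (affH a b d (intCast_pos' ha) (intCast_pos' hd) z) *
          ((d : ℂ) ^ (12 : ℕ))⁻¹ := funext h
  rw [this]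
  have h0 : Tendsto (fun z => ModularForm.discriminant
      (affH a b d (intCast_pos' ha) (intCast_pos' hd) z)) atImInfty (𝓝 0) :=
    ModularForm.discriminant_isZeroAtImInfty.comp (tendsto_affH _ _ _ _ _)
  have := h0.mul_const (((d : ℂ) ^ (12 : ℕ))⁻¹)
  rwa [zero_mul] at this

end Rank

theorem isMF_gN (N : ℕ) [NeZero N] : IsMF N 12 (gN N) := (Rank.isCF_gN N).isMF

namespace Rank

theorem mem_Gamma0_of_gN_slash_eq (N : ℕ) [NeZero N] (δ : SL(2, ℤ))
    (h : gN N ∣[(12 : ℤ)] δ = gN N) : δ ∈ Gamma0 N := by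
  obtain ⟨a, b, d, ha, hd, had, hdvd, hf⟩ := gN_slash_exists N δ
  have hdR : (0 : ℝ) < d := intCast_pos' hd
  have hc : (0 : ℝ) < ((d : ℝ) ^ (12 : ℕ))⁻¹ := by positivity
  have key : ∀ z : ℍ, ‖ModularForm.discriminant (affH a b d (intCast_pos' ha) hdR z)‖ *
      ((d : ℝ) ^ (12 : ℕ))⁻¹ =
      ‖ModularForm.discriminant (affH N 0 1 (natCast_pos' N) one_pos z)‖ * 1 := by
    intro z
    have h1 := hf z
    rw [h] at h1
    have h2 := congrArg norm h1
    rw [norm_mul, norm_inv, norm_pow, Complex.norm_intCast, abs_of_pos hdR] at h2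
    rw [mul_one, ← h2]
    rfl
  have hr := ratio_eq_of_norm_delta_eq (intCast_pos' ha) hdR (natCast_pos' N) one_pos hc one_pos key
  rw [div_one, div_eq_iff hdR.ne'] at hr
  have hr' : a = N * d := by exact_mod_cast hr
  have hN : (N : ℤ) ≠ 0 := by exact_mod_cast NeZero.ne N
  have hdd : d * d = 1 := by
    have : (N : ℤ) * (d * d) = N * 1 := by
      calc (N : ℤ) * (d * d) = (N * d) * d := by ring
        _ = N * 1 := by rw [← hr', had, mul_one]
    exact mul_left_cancel₀ hN this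
  have hd1 : d = 1 := by nlinarith
  rw [hd1, mul_one] at hr'
  rw [hr'] at hdvd
  rw [Gamma0_mem]
  exact (ZMod.intCast_zmod_eq_zero_iff_dvd _ _).mpr hdvd

end Rank

theorem cosetFn_gN_injective (N : ℕ) [NeZero N] : Function.Injective (cosetFn N 12 (gN N)) := by
  intro q q' h
  induction q using QuotientGroup.induction_on with
  | H g =>
    induction q' using QuotientGroup.induction_on with
    | H g' =>
      have hinv := (isMF_gN N).2.1
      rw [cosetFn_mk hinv, cosetFn_mk hinv] at h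
      have h2 := congrArg (fun f => f ∣[(12 : ℤ)] g') h
      simp only [← SlashAction.slash_mul] at h2
      rw [inv_mul_cancel, SlashAction.slash_one] at h2
      exact QuotientGroup.eq.mpr (mem_Gamma0_of_gN_slash_eq N _ h2)

namespace Rank

/-! ### generalities -/

theorem isMF_one (N : ℕ) : IsMF N 0 (1 : ℍ → ℂ) := by
  refine ⟨mdifferentiable_const, fun γ _ => ModularForm.is_invariant_one γ, fun δ => ?_⟩
  rw [ModularForm.is_invariant_one]
  exact const_boundedAtFilter _ (1 : ℂ)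

theorem IsMF.congr_weight {N : ℕ} {k k' : ℤ} {f : ℍ → ℂ} (hf : IsMF N k f) (h : k = k') :
    IsMF N k' f := h ▸ hf

theorem IsMF.pow {N : ℕ} {k : ℤ} {f : ℍ → ℂ} (hf : IsMF N k f) (n : ℕ) :
    IsMF N (n * k) (f ^ n) := by
  induction n with
  | zero => simpa using isMF_one N
  | succ n ih =>
    rw [pow_succ]
    exact IsMF.congr_weight (ih.mul hf) (by push_cast; ring)

theorem cosetFn_mul (N : ℕ) (k l : ℤ) (f g : ℍ → ℂ) (q : Q N) :
    cosetFn N (k + l) (f * g) q = cosetFn N k f q * cosetFn N l g q := by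
  unfold cosetFn
  exact ModularForm.mul_slash_SL2 k l _ f g

theorem cosetFn_levelOne (N : ℕ) {k : ℤ} {r : ℍ → ℂ} (hr : IsMF 1 k r) (q : Q N) :
    cosetFn N k r q = r := by
  unfold cosetFn
  exact hr.slash_levelOne _

theorem cosetFn_pow (N : ℕ) (k : ℤ) (f : ℍ → ℂ) (n : ℕ) (q : Q N) :
    cosetFn N (n * k) (f ^ n) q = (cosetFn N k f q) ^ n := by
  induction n with
  | zero =>
    simp only [Nat.cast_zero, zero_mul, pow_zero]
    exact cosetFn_levelOne N (isMF_one 1) q
  | succ n ih =>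
    have hk : ((n + 1 : ℕ) : ℤ) * k = n * k + k := by push_cast; ring
    rw [hk, pow_succ, cosetFn_mul, ih, pow_succ]

theorem cosetFn_sum (N : ℕ) (k : ℤ) {ι : Type*} (s : Finset ι) (F : ι → ℍ → ℂ) (q : Q N) :
    cosetFn N k (∑ i ∈ s, F i) q = ∑ i ∈ s, cosetFn N k (F i) q := by
  classical
  unfold cosetFn
  induction s using Finset.induction_on with
  | empty => simp [SlashAction.zero_slash]
  | insert a s ha ih => rw [Finset.sum_insert ha, Finset.sum_insert ha, SlashAction.add_slash, ih]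

theorem mdiff_cosetFn {N : ℕ} {k : ℤ} {f : ℍ → ℂ} (hf : IsMF N k f) (q : Q N) :
    MDiff (cosetFn N k f q) := by
  unfold cosetFn
  exact hf.mdiff_slash _

/-- finitely many nonzero holomorphic functions on `ℍ` are simultaneously nonzero somewhere -/
theorem exists_forall_ne_zero {ι : Type*} (s : Finset ι) (F : ι → ℍ → ℂ)
    (hF : ∀ i ∈ s, MDiff (F i)) (hne : ∀ i ∈ s, F i ≠ 0) : ∃ z, ∀ i ∈ s, F i z ≠ 0 := by
  classical
  have key : MDiff (∏ i ∈ s, F i) ∧ (∏ i ∈ s, F i) ≠ 0 := by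
    induction s using Finset.induction_on with
    | empty =>
      simp only [Finset.prod_empty]
      exact ⟨(isMF_one 1).1, one_ne_zero⟩
    | insert a s ha ih =>
      have ih' := ih (fun i hi => hF i (Finset.mem_insert_of_mem hi))
        (fun i hi => hne i (Finset.mem_insert_of_mem hi))
      rw [Finset.prod_insert ha]
      have h1 := hF a (Finset.mem_insert_self a s)
      refine ⟨h1.mul ih'.1, fun h0 => ?_⟩
      rcases eq_zero_or_eq_zero_of_mul_eq_zero_of_mdiff h1 ih'.1 h0 with h | h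
      · exact hne a (Finset.mem_insert_self a s) h
      · exact ih'.2 h
  obtain ⟨z, hz⟩ := Function.ne_iff.mp key.2
  refine ⟨z, fun i hi => ?_⟩
  rw [Finset.prod_apply, Pi.zero_apply] at hz
  exact (Finset.prod_ne_zero_iff.mp hz) i hi

/-- a point separating the translates of `gN` -/
theorem exists_separating_point (N : ℕ) [NeZero N] :
    ∃ z₀ : ℍ, Function.Injective (fun q : Q N => cosetFn N 12 (gN N) q z₀) := by
  classical
  obtain ⟨z, hz⟩ := exists_forall_ne_zero
    ((Finset.univ : Finset (Q N × Q N)).filter (fun p => p.1 ≠ p.2))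
    (fun p => cosetFn N 12 (gN N) p.1 - cosetFn N 12 (gN N) p.2)
    (fun p _ => (mdiff_cosetFn (isMF_gN N) p.1).sub (mdiff_cosetFn (isMF_gN N) p.2))
    (fun p hp h0 => (Finset.mem_filter.mp hp).2 (cosetFn_gN_injective N (sub_eq_zero.mp h0)))
  refine ⟨z, fun q q' h => ?_⟩
  by_contra hne
  exact hz (q, q') (Finset.mem_filter.mpr ⟨Finset.mem_univ _, hne⟩) (by simpa [sub_eq_zero] using h)

/-! ### the Vandermonde family -/

/-- the index `μ` -/
abbrev mu (N : ℕ) [NeZero N] : ℕ := Fintype.card (Q N)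

/-- an enumeration of the cosets -/
def enumQ (N : ℕ) [NeZero N] : Q N ≃ Fin (mu N) := Fintype.equivFin (Q N)

/-- the common weight of the Vandermonde family -/
def wtV (N : ℕ) [NeZero N] : ℤ := 12 * ((mu N - 1 : ℕ) : ℤ)

/-- the Vandermonde family `gN ^ a * Δ ^ (μ - 1 - a)` -/
def vN (N : ℕ) [NeZero N] (p : Q N) : ℍ → ℂ :=
  gN N ^ (enumQ N p : ℕ) * ModularForm.discriminant ^ (mu N - 1 - (enumQ N p : ℕ))

theorem isMF_delta : IsMF 1 12 ModularForm.discriminant := isCF_delta.isMF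

theorem wtV_eq (N : ℕ) [NeZero N] (p : Q N) :
    ((enumQ N p : ℕ) : ℤ) * 12 + ((mu N - 1 - (enumQ N p : ℕ) : ℕ) : ℤ) * 12 = wtV N := by
  have h := (enumQ N p).isLt
  unfold wtV
  have h1 : (enumQ N p : ℕ) + (mu N - 1 - (enumQ N p : ℕ)) = mu N - 1 := by omega
  have h2 : ((mu N - 1 : ℕ) : ℤ) =
      ((enumQ N p : ℕ) : ℤ) + ((mu N - 1 - (enumQ N p : ℕ) : ℕ) : ℤ) := by
    exact_mod_cast h1.symm
  rw [h2]
  ring

theorem isMF_vN (N : ℕ) [NeZero N] (p : Q N) : IsMF N (wtV N) (vN N p) := by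
  unfold vN
  exact IsMF.congr_weight
    ((IsMF.pow (isMF_gN N) _).mul (IsMF.of_levelOne (IsMF.pow isMF_delta _))) (wtV_eq N p)

theorem cosetFn_vN (N : ℕ) [NeZero N] (p q : Q N) :
    cosetFn N (wtV N) (vN N p) q =
      (cosetFn N 12 (gN N) q) ^ (enumQ N p : ℕ) *
        ModularForm.discriminant ^ (mu N - 1 - (enumQ N p : ℕ)) := by
  rw [← wtV_eq N p]
  unfold vN
  rw [cosetFn_mul, cosetFn_pow, cosetFn_levelOne N (IsMF.pow isMF_delta _)]

/-- the Vandermonde matrix of the family at a point -/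
def matV (N : ℕ) [NeZero N] (z : ℍ) : Matrix (Q N) (Q N) ℂ :=
  Matrix.of fun p q => cosetFn N (wtV N) (vN N p) q z

theorem exists_det_matV_ne_zero (N : ℕ) [NeZero N] : ∃ z, (matV N z).det ≠ 0 := by
  obtain ⟨z, hz⟩ := exists_separating_point N
  refine ⟨z, ?_⟩
  have h1 : matV N z = Matrix.of fun p q =>
      (ModularForm.discriminant z ^ (mu N - 1 - (enumQ N p : ℕ))) *
        ((Matrix.vandermonde (fun j : Fin (mu N) =>
          cosetFn N 12 (gN N) ((enumQ N).symm j) z)).transpose.submatrix (enumQ N) (enumQ N)) p q := by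
    ext p q
    simp only [matV, Matrix.of_apply, cosetFn_vN, Pi.mul_apply, Pi.pow_apply,
      Matrix.submatrix_apply, Matrix.transpose_apply, Matrix.vandermonde_apply,
      Equiv.symm_apply_apply]
    ring
  rw [h1, Matrix.det_mul_column, Matrix.det_submatrix_equiv_self, Matrix.det_transpose]
  refine mul_ne_zero ?_ ?_
  · exact Finset.prod_ne_zero_iff.mpr fun p _ => pow_ne_zero _ (ModularForm.discriminant_ne_zero z)
  · exact Matrix.det_vandermonde_ne_zero_iff.mpr (hz.comp (enumQ N).symm.injective)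

end Rank

/-! ### factorisation through a spanning family, and the exported statements -/

namespace Rank

theorem cosetFn_mul_levelOne (N : ℕ) {k l : ℤ} {r : ℍ → ℂ} (hr : IsMF 1 (k - l) r)
    (f : ℍ → ℂ) (q : Q N) : cosetFn N k (r * f) q = r * cosetFn N l f q := by
  have h : cosetFn N k (r * f) q = cosetFn N ((k - l) + l) (r * f) q := by
    rw [sub_add_cancel]
  rw [h, cosetFn_mul, cosetFn_levelOne N hr]

/-- for a spanning family, the Vandermonde matrix factors through the matrix of translates -/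
theorem exists_factor (N : ℕ) [NeZero N] {ι : Type*} [Fintype ι] (d : ι → ℤ) (f : ι → ℍ → ℂ)
    (span : ∀ (k : ℤ) (m : ℍ → ℂ), IsMF N k m →
      ∃ r : ι → ℍ → ℂ, (∀ i, IsMF 1 (k - d i) (r i)) ∧ m = ∑ i, r i * f i) (z : ℍ) :
    ∃ C : Matrix (Q N) ι ℂ,
      matV N z = C * Matrix.of (fun i q => cosetFn N (d i) (f i) q z) := by
  choose r hr hsum using fun p : Q N => span (wtV N) (vN N p) (isMF_vN N p)
  refine ⟨Matrix.of fun p i => r p i z, ?_⟩
  ext p q
  simp only [matV, Matrix.of_apply, Matrix.mul_apply]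
  conv_lhs => rw [hsum p]
  rw [cosetFn_sum, Finset.sum_apply]
  refine Finset.sum_congr rfl fun i _ => ?_
  rw [cosetFn_mul_levelOne N (hr p i), Pi.mul_apply]

end Rank

open Rank

/-- **Lower bound for the number of generators**: a homogeneous family spanning all modular forms
for `Γ₀(N)` over the level one ring has at least `μ = [SL(2,ℤ) : Γ₀(N)]` elements. -/
theorem card_le_card_of_span (N : ℕ) [NeZero N] {ι : Type*} [Fintype ι] (d : ι → ℤ)
    (f : ι → ℍ → ℂ)
    (span : ∀ (k : ℤ) (m : ℍ → ℂ), IsMF N k m →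
      ∃ r : ι → ℍ → ℂ, (∀ i, IsMF 1 (k - d i) (r i)) ∧ m = ∑ i, r i * f i) :
    Fintype.card (Q N) ≤ Fintype.card ι := by
  obtain ⟨z, hz⟩ := exists_det_matV_ne_zero N
  obtain ⟨C, hC⟩ := exists_factor N d f span z
  have h1 : (matV N z).rank = Fintype.card (Q N) :=
    Matrix.rank_of_isUnit _ ((Matrix.isUnit_iff_isUnit_det _).mpr (IsUnit.mk0 _ hz))
  rw [← h1, hC]
  exact (Matrix.rank_mul_le_right _ _).trans (Matrix.rank_le_card_height _)

namespace Rank

/-- the matrix of a free basis is invertible at some point -/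
theorem exists_mat_det_ne_zero {N : ℕ} [NeZero N] (B : FreeBasis N) :
    ∃ z, (B.mat z).det ≠ 0 := by
  obtain ⟨z, hz⟩ := exists_det_matV_ne_zero N
  obtain ⟨C, hC⟩ := exists_factor N (fun i => (B.d i : ℤ)) B.f B.span z
  refine ⟨z, ?_⟩
  have h2 : (Matrix.of fun i q => cosetFn N (B.d i) (B.f i) q z) = B.mat z := rfl
  rw [hC, h2, Matrix.det_mul] at hz
  exact right_ne_zero_of_mul hz

theorem mdiff_det {n : Type*} [Fintype n] [DecidableEq n] {M : ℍ → Matrix n n ℂ}
    (h : ∀ i j, MDiff (fun z => M z i j)) : MDiff (fun z => (M z).det) := by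
  rw [UpperHalfPlane.mdifferentiable_iff]
  have h' : ∀ i j, DifferentiableOn ℂ (fun w => M (ofComplex w) i j) {z : ℂ | 0 < z.im} :=
    fun i j => UpperHalfPlane.mdifferentiable_iff.mp (h i j)
  have heq : ((fun z => (M z).det) ∘ ofComplex) = fun w => ∑ σ : Equiv.Perm n,
      ((Equiv.Perm.sign σ : ℤ) : ℂ) * ∏ i, M (ofComplex w) (σ i) i := by
    funext w
    simp only [Function.comp_apply, Matrix.det_apply']
  rw [heq]
  exact DifferentiableOn.fun_sum fun σ _ =>
    (DifferentiableOn.fun_finsetProd fun i _ => h' (σ i) i).const_mul _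

theorem mdiff_det_matV (N : ℕ) [NeZero N] : MDiff (fun z => (matV N z).det) :=
  mdiff_det fun p q => mdiff_cosetFn (isMF_vN N p) q

theorem det_matV_ne_zero_fun (N : ℕ) [NeZero N] : (fun z => (matV N z).det) ≠ 0 := by
  obtain ⟨z, hz⟩ := exists_det_matV_ne_zero N
  exact fun h => hz (congrFun h z)

end Rank

/-- **Independent family**: the `μ` forms `gN ^ a * Δ ^ (μ - 1 - a)` of weight `12 (μ - 1)` are
linearly independent over the ring of level one forms. -/
theorem exists_indep_family (N : ℕ) [NeZero N] :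
    ∃ (w : ℤ) (v : Q N → ℍ → ℂ), (∀ a, IsMF N w (v a)) ∧
      ∀ (k : ℤ) (r : Q N → ℍ → ℂ), (∀ a, IsMF 1 k (r a)) → ∑ a, r a * v a = 0 → ∀ a, r a = 0 := by
  refine ⟨wtV N, vN N, isMF_vN N, fun k r hr hsum a => ?_⟩
  have key : ∀ z : ℍ, Matrix.vecMul (fun a => r a z) (matV N z) = 0 := by
    intro z
    funext q
    have h1 : cosetFn N (k + wtV N) (∑ a, r a * vN N a) q = cosetFn N (k + wtV N) 0 q := by
      rw [hsum]
    rw [cosetFn_sum] at h1
    have h0 : cosetFn N (k + wtV N) (0 : ℍ → ℂ) q = 0 := by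
      unfold cosetFn
      exact SlashAction.zero_slash _ _
    rw [h0] at h1
    have h2 := congrFun h1 z
    rw [Finset.sum_apply] at h2
    simp only [Matrix.vecMul, dotProduct, Pi.zero_apply, matV, Matrix.of_apply]
    rw [Pi.zero_apply] at h2
    rw [← h2]
    refine Finset.sum_congr rfl fun p _ => ?_
    have hrp : IsMF 1 (k + wtV N - wtV N) (r p) := by
      rw [add_sub_cancel_right]; exact hr p
    rw [cosetFn_mul_levelOne N (k := k + wtV N) (l := wtV N) hrp, Pi.mul_apply]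
  have hmul : (fun z => (matV N z).det) * r a = 0 := by
    funext z
    have h1 := congrArg (fun v => Matrix.vecMul v (matV N z).adjugate) (key z)
    simp only [Matrix.vecMul_vecMul, Matrix.mul_adjugate, Matrix.vecMul_smul, Matrix.vecMul_one,
      Matrix.zero_vecMul] at h1
    have h2 := congrFun h1 a
    simpa using h2
  exact (eq_zero_or_eq_zero_of_mul_eq_zero_of_mdiff (mdiff_det_matV N) (hr a).1 hmul).resolve_left
    (det_matV_ne_zero_fun N)

end

end Fermat.Agent.S20
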