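import Fermat.Agent.S20.Basis
import Fermat.Prelude.Thm_ModularForm_sturm_bound_Gamma0
import Fermat.Prelude.Thm_CongruenceSubgroup_one_mem_strictPeriods_Gamma0

set_option autoImplicit false

namespace Fermat.Agent.S20

open UpperHalfPlane CongruenceSubgroup Matrix.SpecialLinearGroup Filter Topology
open scoped MatrixGroups ModularForm Manifold

noncomputable section


/-! ### constants and powers -/

theorem isMF_one (N : ℕ) : IsMF N 0 (1 : ℍ → ℂ) := by
  refine ⟨mdifferentiable_const, fun γ _ => ModularForm.is_invariant_one γ, fun δ => ?_⟩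
  rw [ModularForm.is_invariant_one δ]
  exact Filter.const_boundedAtFilter _ (1 : ℂ)

theorem isMF_const (N : ℕ) (c : ℂ) : IsMF N 0 (fun _ => c) := by
  have h : (fun _ : ℍ => c) = c • (1 : ℍ → ℂ) := by
    ext z; simp
  rw [h]
  exact (isMF_one N).smul c

theorem IsMF.cast {N : ℕ} {k l : ℤ} {f : ℍ → ℂ} (hf : IsMF N k f) (h : k = l) : IsMF N l f :=
  h ▸ hf

theorem IsCF.cast {N : ℕ} {k l : ℤ} {f : ℍ → ℂ} (hf : IsCF N k f) (h : k = l) : IsCF N l f :=
  h ▸ hf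

theorem IsMF.pow {N : ℕ} {k : ℤ} {f : ℍ → ℂ} (hf : IsMF N k f) (n : ℕ) :
    IsMF N (n * k) (f ^ n) := by
  induction n with
  | zero => simpa using isMF_one N
  | succ n ih =>
    rw [pow_succ]
    exact (ih.mul hf).cast (by push_cast; ring)

/-! ### values at infinity of level one forms -/

theorem IsMF.tendsto_valueAtInfty {k : ℤ} {f : ℍ → ℂ} (hf : IsMF 1 k f) :
    Tendsto f atImInfty (𝓝 (valueAtInfty f)) := by
  set F := hf.toMFOne with hF
  have hper : Function.Periodic (f ∘ ofComplex) (1 : ℝ) :=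
    SlashInvariantFormClass.periodic_comp_ofComplex F one_mem_strictPeriods_SL
  have han : AnalyticAt ℂ (cuspFunction 1 f) 0 :=
    ModularFormClass.analyticAt_cuspFunction_zero F one_pos one_mem_strictPeriods_SL
  have h0 := cuspFunction_apply_zero (h := 1) one_pos han hper
  have : (cuspFunction 1 f ∘ fun τ : ℍ ↦ Function.Periodic.qParam 1 τ : ℍ → ℂ) = f := by
    funext τ
    simpa using eq_cuspFunction (h := 1) τ one_ne_zero hper
  rw [← h0]
  simpa [this] using han.continuousAt.tendsto.comp (qParam_tendsto_atImInfty (h := 1) one_pos)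

theorem valueAtInfty_eq_of_tendsto {f : ℍ → ℂ} {c : ℂ} (h : Tendsto f atImInfty (𝓝 c)) :
    valueAtInfty f = c := h.limUnder_eq

theorem IsMF.isCF_of_valueAtInfty_eq_zero {k : ℤ} {f : ℍ → ℂ} (hf : IsMF 1 k f)
    (h0 : valueAtInfty f = 0) : IsCF 1 k f := by
  refine ⟨hf.1, hf.2.1, fun δ => ?_⟩
  rw [hf.slash_levelOne δ]
  have := hf.tendsto_valueAtInfty
  rw [h0] at this
  exact this

theorem IsMF.valueAtInfty_eq_coeff_zero {k : ℤ} {f : ℍ → ℂ} (hf : IsMF 1 k f) :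
    valueAtInfty f = (qExpansion 1 f).coeff 0 := by
  set F := hf.toMFOne with hF
  have hper : Function.Periodic (f ∘ ofComplex) (1 : ℝ) :=
    SlashInvariantFormClass.periodic_comp_ofComplex F one_mem_strictPeriods_SL
  have han : AnalyticAt ℂ (cuspFunction 1 f) 0 :=
    ModularFormClass.analyticAt_cuspFunction_zero F one_pos one_mem_strictPeriods_SL
  exact (qExpansion_coeff_zero (h := 1) one_pos han hper).symm

theorem tendsto_E4 : Tendsto (⇑ModularForm.E₄ : ℍ → ℂ) atImInfty (𝓝 1) := by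
  have h := isMF_E4.tendsto_valueAtInfty
  have h1 : valueAtInfty (⇑ModularForm.E₄ : ℍ → ℂ) = 1 := by
    rw [isMF_E4.valueAtInfty_eq_coeff_zero]
    exact EisensteinSeries.E_qExpansion_coeff_zero _ ⟨2, rfl⟩
  rwa [h1] at h

theorem tendsto_E6 : Tendsto (⇑ModularForm.E₆ : ℍ → ℂ) atImInfty (𝓝 1) := by
  have h := isMF_E6.tendsto_valueAtInfty
  have h1 : valueAtInfty (⇑ModularForm.E₆ : ℍ → ℂ) = 1 := by
    rw [isMF_E6.valueAtInfty_eq_coeff_zero]
    exact EisensteinSeries.E_qExpansion_coeff_zero _ ⟨3, rfl⟩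
  rwa [h1] at h

/-! ### (e) division by the discriminant -/

theorem IsCF.exists_eq_delta_mul {k : ℤ} {f : ℍ → ℂ} (hf : IsCF 1 k f) :
    ∃ g, IsMF 1 (k - 12) g ∧ f = (⇑CuspForm.discriminant : ℍ → ℂ) * g := by
  refine ⟨⇑(CuspForm.discriminantEquiv hf.toCFOne), isMF_coe_levelOne _, ?_⟩
  have h := ModularForm.discriminant_mul_discriminantEquiv hf.toCFOne
  rw [IsCF.coe_toCFOne] at h
  exact h.symm

theorem delta_eq : (⇑CuspForm.discriminant : ℍ → ℂ) =
    fun z => ((⇑ModularForm.E₄ : ℍ → ℂ) z ^ 3 - (⇑ModularForm.E₆ : ℍ → ℂ) z ^ 2) / 1728 := by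
  funext z
  exact ModularForm.discriminant_eq_E₄_cube_sub_E₆_sq z

/-! ### (f) forms with value one at infinity -/

theorem exists_isMF_tendsto_one_of_eq (a b : ℕ) :
    ∃ A, IsMF 1 (4 * a + 6 * b) A ∧ Tendsto A atImInfty (𝓝 1) := by
  refine ⟨(⇑ModularForm.E₄ : ℍ → ℂ) ^ a * (⇑ModularForm.E₆ : ℍ → ℂ) ^ b, ?_, ?_⟩
  · exact ((isMF_E4.pow a).mul (isMF_E6.pow b)).cast (by ring)
  · have h4 := tendsto_E4.pow a
    have h6 := tendsto_E6.pow b
    have := h4.mul h6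
    rw [one_pow, one_pow, one_mul] at this
    exact this

theorem exists_nat_of_even {k : ℤ} (hk : Even k) (hk' : k = 0 ∨ 4 ≤ k) :
    ∃ a b : ℕ, k = 4 * a + 6 * b := by
  obtain ⟨m, hm⟩ := hk
  rcases hk' with h0 | h4
  · exact ⟨0, 0, by simpa using h0⟩
  · rcases Int.even_or_odd m with ⟨n, hn⟩ | ⟨n, hn⟩
    · refine ⟨n.toNat, 0, ?_⟩
      have : 0 ≤ n := by omega
      rw [Int.toNat_of_nonneg this]; omega
    · refine ⟨(n - 1).toNat, 1, ?_⟩
      have : 0 ≤ n - 1 := by omega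
      rw [Int.toNat_of_nonneg this]; omega

theorem exists_isMF_tendsto_one {k : ℤ} (hk : Even k) (hk' : k = 0 ∨ 4 ≤ k) :
    ∃ A, IsMF 1 k A ∧ Tendsto A atImInfty (𝓝 1) := by
  obtain ⟨a, b, rfl⟩ := exists_nat_of_even hk hk'
  exact exists_isMF_tendsto_one_of_eq a b

/-! ### (a) decomposition `r = E4 * s + E6 * t` -/

theorem IsMF.eq_zero_of_odd {k : ℤ} {r : ℍ → ℂ} (hk : Odd k) (hr : IsMF 1 k r) : r = 0 := by
  have h := ModularForm.levelOne_odd_weight_eq_zero hk hr.toMFOne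
  have h2 := congrArg (fun F : ModularForm 𝒮ℒ k => (⇑F : ℍ → ℂ)) h
  simpa using h2

theorem IsMF.eq_zero_of_weight_two {r : ℍ → ℂ} (hr : IsMF 1 2 r) : r = 0 := by
  have h := rank_zero_iff_forall_zero.mp ModularForm.levelOne_weight_two_rank_zero hr.toMFOne
  have h2 := congrArg (fun F : ModularForm 𝒮ℒ 2 => (⇑F : ℍ → ℂ)) h
  simpa using h2

theorem IsMF.eq_zero_of_neg {N : ℕ} [NeZero N] {k : ℤ} {r : ℍ → ℂ} (hk : k < 0)
    (hr : IsMF N k r) : r = 0 := by
  have h := ModularForm.isZero_of_neg_weight hk hr.toMF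
  have h2 := congrArg (fun F : ModularForm (Gamma0 N) k => (⇑F : ℍ → ℂ)) h
  simpa using h2

theorem IsMF.sub {N : ℕ} {k : ℤ} {f g : ℍ → ℂ} (hf : IsMF N k f) (hg : IsMF N k g) :
    IsMF N k (f - g) := by
  have : f - g = f + (-1 : ℂ) • g := by
    ext z; simp [sub_eq_add_neg]
  rw [this]
  exact hf.add (hg.smul _)

/-- key step: a form `A0 → 1` at `i∞` with a decomposition gives a decomposition of everything. -/
theorem levelOne_decomp_aux {k : ℤ} {A0 s0 t0 : ℍ → ℂ} (hA0 : IsMF 1 k A0)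
    (hlim : Tendsto A0 atImInfty (𝓝 1)) (hs0 : IsMF 1 (k - 4) s0) (ht0 : IsMF 1 (k - 6) t0)
    (hdec : A0 = (⇑ModularForm.E₄ : ℍ → ℂ) * s0 + (⇑ModularForm.E₆ : ℍ → ℂ) * t0)
    {r : ℍ → ℂ} (hr : IsMF 1 k r) :
    ∃ s t, IsMF 1 (k - 4) s ∧ IsMF 1 (k - 6) t ∧
      r = (⇑ModularForm.E₄ : ℍ → ℂ) * s + (⇑ModularForm.E₆ : ℍ → ℂ) * t := by
  set c := valueAtInfty r with hc
  have hf : IsMF 1 k (r - c • A0) := hr.sub (hA0.smul c)
  have hf0 : valueAtInfty (r - c • A0) = 0 := by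
    apply valueAtInfty_eq_of_tendsto
    have h1 := hr.tendsto_valueAtInfty
    have h2 : Tendsto (c • A0) atImInfty (𝓝 (c • (1 : ℂ))) := hlim.const_smul c
    have := h1.sub h2
    rw [← hc, smul_eq_mul, mul_one, sub_self] at this
    exact this
  obtain ⟨g, hg, hfg⟩ := (hf.isCF_of_valueAtInfty_eq_zero hf0).exists_eq_delta_mul
  refine ⟨c • s0 + (1 / 1728 : ℂ) • ((⇑ModularForm.E₄ : ℍ → ℂ) * (⇑ModularForm.E₄ : ℍ → ℂ) * g),
    c • t0 + (-1 / 1728 : ℂ) • ((⇑ModularForm.E₆ : ℍ → ℂ) * g), ?_, ?_, ?_⟩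
  · refine (hs0.smul c).add (IsMF.smul _ ?_)
    exact ((isMF_E4.mul isMF_E4).mul hg).cast (by ring)
  · refine (ht0.smul c).add (IsMF.smul _ ?_)
    exact (isMF_E6.mul hg).cast (by ring)
  · have hr' : r = c • A0 + (⇑CuspForm.discriminant : ℍ → ℂ) * g := by
      rw [← hfg]; abel
    rw [hr', hdec, delta_eq]
    funext z
    simp only [Pi.add_apply, Pi.mul_apply, Pi.smul_apply, smul_eq_mul]
    ring

theorem levelOne_decomp {k : ℤ} (hk : 0 < k) {r : ℍ → ℂ} (hr : IsMF 1 k r) :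
    ∃ s t, IsMF 1 (k - 4) s ∧ IsMF 1 (k - 6) t ∧
      r = (⇑ModularForm.E₄ : ℍ → ℂ) * s + (⇑ModularForm.E₆ : ℍ → ℂ) * t := by
  have hzero : r = 0 → ∃ s t, IsMF 1 (k - 4) s ∧ IsMF 1 (k - 6) t ∧
      r = (⇑ModularForm.E₄ : ℍ → ℂ) * s + (⇑ModularForm.E₆ : ℍ → ℂ) * t := by
    intro h0
    exact ⟨0, 0, isMF_zero _ _, isMF_zero _ _, by simp [h0]⟩
  rcases Int.even_or_odd k with hev | hodd
  · by_cases h2 : k = 2
    · subst h2
      exact hzero hr.eq_zero_of_weight_two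
    by_cases h6 : k = 6
    · subst h6
      refine levelOne_decomp_aux (A0 := (⇑ModularForm.E₆ : ℍ → ℂ)) (s0 := 0) (t0 := 1)
        isMF_E6 tendsto_E6 (isMF_zero _ _) ((isMF_one 1).cast (by norm_num)) (by simp) hr
    · have hk4 : Even (k - 4) := by
        obtain ⟨m, hm⟩ := hev
        exact ⟨m - 2, by omega⟩
      have hk4' : k - 4 = 0 ∨ 4 ≤ k - 4 := by
        obtain ⟨m, hm⟩ := hev
        omega
      obtain ⟨A', hA', hlim'⟩ := exists_isMF_tendsto_one hk4 hk4'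
      refine levelOne_decomp_aux (A0 := (⇑ModularForm.E₄ : ℍ → ℂ) * A') (s0 := A') (t0 := 0)
        ((isMF_E4.mul hA').cast (by ring)) ?_ hA' (isMF_zero _ _) (by simp) hr
      have := tendsto_E4.mul hlim'
      rwa [one_mul] at this
  · exact hzero (hr.eq_zero_of_odd hodd)

/-! ### (b) vanishing and finiteness at level `N` -/

theorem MkSub_eq_bot_of_neg (N : ℕ) [NeZero N] {k : ℤ} (hk : k < 0) : MkSub N k = ⊥ := by
  rw [eq_bot_iff]
  intro f hf
  rw [Submodule.mem_bot]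
  exact IsMF.eq_zero_of_neg hk hf

theorem IsMF.eq_const_of_weight_zero {N : ℕ} [NeZero N] {f : ℍ → ℂ} (hf : IsMF N 0 f) :
    ∃ c : ℂ, f = fun _ => c := by
  obtain ⟨c, hc⟩ := ModularForm.eq_const_of_weight_zero hf.toMF
  exact ⟨c, hc⟩

theorem MkSub_zero (N : ℕ) [NeZero N] : MkSub N 0 = Submodule.span ℂ {(1 : ℍ → ℂ)} := by
  apply le_antisymm
  · intro f hf
    obtain ⟨c, rfl⟩ := IsMF.eq_const_of_weight_zero hf
    rw [Submodule.mem_span_singleton]
    exact ⟨c, by ext z; simp⟩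
  · rw [Submodule.span_le, Set.singleton_subset_iff]
    exact isMF_one N

theorem neg_one_mem_Gamma0 (N : ℕ) : (-1 : SL(2, ℤ)) ∈ Gamma0 N := by
  rw [Gamma0_mem]
  simp

theorem neg_one_mem_Gamma0_GL (N : ℕ) :
    (-1 : GL (Fin 2) ℝ) ∈ (Gamma0 N : Subgroup (GL (Fin 2) ℝ)) := by
  refine Subgroup.mem_map.mpr ⟨-1, neg_one_mem_Gamma0 N, ?_⟩
  ext i j
  simp [mapGL]

theorem IsMF.eq_zero_of_odd' {N : ℕ} [NeZero N] {k : ℤ} {r : ℍ → ℂ} (hk : Odd k)
    (hr : IsMF N k r) : r = 0 := by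
  have h := ModularForm.eq_zero_of_neg_one_mem (neg_one_mem_Gamma0_GL N) hk hr.toMF
  have h2 := congrArg (fun F : ModularForm (Gamma0 N) k => (⇑F : ℍ → ℂ)) h
  simpa using h2

theorem MkSub_eq_bot_of_odd (N : ℕ) [NeZero N] {k : ℤ} (hk : Odd k) : MkSub N k = ⊥ := by
  rw [eq_bot_iff]
  intro f hf
  rw [Submodule.mem_bot]
  exact IsMF.eq_zero_of_odd' hk hf

/-! ### (c) level one dimensions -/

theorem finrank_MkSub_one_nat {k : ℕ} (hk : Even k) :
    Module.finrank ℂ (MkSub 1 (k : ℤ)) = if k ≡ 2 [MOD 12] then k / 12 else k / 12 + 1 := by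
  rw [finrank_MkSub_one]
  have h := ModularForm.dimension_level_one k hk
  have h2 := congrArg Cardinal.toNat h
  rw [Module.finrank]
  rw [h2]
  split_ifs <;> simp

theorem MkSub_one_two : MkSub 1 2 = ⊥ := by
  rw [eq_bot_iff]
  intro f hf
  rw [Submodule.mem_bot]
  exact IsMF.eq_zero_of_weight_two hf

theorem finrank_MkSub_one_lower {k : ℤ} (hk0 : 0 ≤ k) (hk : Even k) :
    k - 11 ≤ 12 * (Module.finrank ℂ (MkSub 1 k) : ℤ) := by
  obtain ⟨n, rfl⟩ := Int.eq_ofNat_of_zero_le hk0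
  have hn : Even n := by exact_mod_cast hk
  rw [finrank_MkSub_one_nat hn]
  obtain ⟨m, rfl⟩ := hn
  split_ifs with h
  · unfold Nat.ModEq at h
    push_cast
    omega
  · push_cast
    omega

theorem finrank_MkSub_one_upper {k : ℤ} (hk0 : 0 ≤ k) (hk : Even k) :
    12 * (Module.finrank ℂ (MkSub 1 k) : ℤ) ≤ k + 12 := by
  obtain ⟨n, rfl⟩ := Int.eq_ofNat_of_zero_le hk0
  have hn : Even n := by exact_mod_cast hk
  rw [finrank_MkSub_one_nat hn]
  split_ifs with h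
  · push_cast
    omega
  · push_cast
    omega

/-! ### (d) Sturm bound -/

/-- The first `m + 1` `q`-expansion coefficients, as a linear map. -/
def qCoeffMap (N : ℕ) [NeZero N] (k : ℤ) (m : ℕ) :
    ModularForm (Gamma0 N) k →ₗ[ℂ] (Fin (m + 1) → ℂ) where
  toFun f i := (qExpansion 1 f).coeff i
  map_add' f g := by
    have h1 := CongruenceSubgroup.one_mem_strictPeriods_Gamma0 N
    ext i
    rw [FunLike.coe_add, ModularForm.qExpansion_add one_pos h1 f g, map_add]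
    rfl
  map_smul' c f := by
    have h1 := CongruenceSubgroup.one_mem_strictPeriods_Gamma0 N
    ext i
    rw [FunLike.coe_smul, ModularForm.qExpansion_smul one_pos h1 c f]
    simp

theorem qCoeffMap_injective (N : ℕ) [NeZero N] (k : ℤ) :
    Function.Injective (qCoeffMap N k ((k * (Gamma0 N).index).toNat / 12)) := by
  rw [← LinearMap.ker_eq_bot, eq_bot_iff]
  intro f hf
  rw [LinearMap.mem_ker] at hf
  rw [Submodule.mem_bot]
  apply ModularForm.sturm_bound_Gamma0 N f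
  intro n hn
  have := congrFun hf ⟨n, Nat.lt_succ_of_le hn⟩
  simpa [qCoeffMap] using this

instance finiteDimensional_MF (N : ℕ) [NeZero N] (k : ℤ) :
    FiniteDimensional ℂ (ModularForm (Gamma0 N) k) :=
  FiniteDimensional.of_injective _ (qCoeffMap_injective N k)

instance finiteDimensional_MkSub (N : ℕ) [NeZero N] (k : ℤ) :
    FiniteDimensional ℂ (MkSub N k) :=
  LinearEquiv.finiteDimensional (mfEquiv N k)

theorem finrank_MF_le (N : ℕ) [NeZero N] (k : ℤ) :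
    Module.finrank ℂ (ModularForm (Gamma0 N) k) ≤ (k * (Gamma0 N).index).toNat / 12 + 1 := by
  have h := LinearMap.finrank_le_finrank_of_injective (qCoeffMap_injective N k)
  simpa using h

theorem index_Gamma0_eq_card (N : ℕ) : (Gamma0 N).index = Nat.card (Q N) := rfl

/-- STURM: `12 * dim M_k(Γ₀(N)) ≤ k * μ + 12`. -/
theorem sturm_finrank (N : ℕ) [NeZero N] {k : ℤ} (hk : 0 ≤ k) :
    12 * (Module.finrank ℂ (MkSub N k) : ℤ) ≤ k * (Nat.card (Q N) : ℤ) + 12 := by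
  rw [finrank_MkSub]
  have h := finrank_MF_le N k
  rw [index_Gamma0_eq_card] at h
  have h2 : (((k * (Nat.card (Q N) : ℤ)).toNat / 12 : ℕ) : ℤ) * 12 ≤ k * (Nat.card (Q N) : ℤ) := by
    have h3 : ((k * (Nat.card (Q N) : ℤ)).toNat : ℤ) = k * (Nat.card (Q N) : ℤ) :=
      Int.toNat_of_nonneg (by positivity)
    have h4 := Nat.div_mul_le_self (k * (Nat.card (Q N) : ℤ)).toNat 12
    omega
  have h5 : (Module.finrank ℂ (ModularForm (Gamma0 N) k) : ℤ) ≤
      (((k * (Nat.card (Q N) : ℤ)).toNat / 12 : ℕ) : ℤ) + 1 := by exact_mod_cast h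
  linarith

end

end Fermat.Agent.S20
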