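import Mathlib
import Fermat.Prelude.Def_ModularCurve_GenusNumerics

/-! Coset combinatorics of `SL(2, ℤ) ⧸ Γ₀(N)`: basic model lemmas (first columns mod `N`). -/

set_option autoImplicit false

open Matrix ModularGroup CongruenceSubgroup
open scoped MatrixGroups

namespace Fermat.Agent.S20

/-- The lower unitriangular matrix with lower left entry `x`. -/
def lowerL (x : ℤ) : SL(2, ℤ) := ⟨!![1, 0; x, 1], by simp [Matrix.det_fin_two_of]⟩

@[simp] lemma lowerL_apply_zero_zero (x : ℤ) : lowerL x 0 0 = 1 := rfl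
@[simp] lemma lowerL_apply_zero_one (x : ℤ) : lowerL x 0 1 = 0 := rfl
@[simp] lemma lowerL_apply_one_zero (x : ℤ) : lowerL x 1 0 = x := rfl
@[simp] lemma lowerL_apply_one_one (x : ℤ) : lowerL x 1 1 = 1 := rfl

lemma det_eq (g : SL(2, ℤ)) : g 0 0 * g 1 1 - g 0 1 * g 1 0 = 1 := by
  have := g.det_coe
  rw [Matrix.det_fin_two] at this
  exact this

lemma isCoprime_col (g : SL(2, ℤ)) : IsCoprime (g 0 0) (g 1 0) :=
  ⟨g 1 1, -g 0 1, by linear_combination det_eq g⟩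

lemma inv_mul_apply_one_zero (g h : SL(2, ℤ)) :
    (g⁻¹ * h) 1 0 = g 0 0 * h 1 0 - g 1 0 * h 0 0 := by
  rw [Matrix.SpecialLinearGroup.coe_mul, Matrix.SpecialLinearGroup.coe_inv,
    Matrix.adjugate_fin_two, Matrix.mul_apply, Fin.sum_univ_two]
  simp
  ring

lemma inv_mul_mem_Gamma0_iff (N : ℕ) (g h : SL(2, ℤ)) :
    g⁻¹ * h ∈ Gamma0 N ↔
      ((g 0 0 : ℤ) : ZMod N) * ((h 1 0 : ℤ) : ZMod N) =
        ((g 1 0 : ℤ) : ZMod N) * ((h 0 0 : ℤ) : ZMod N) := by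
  rw [Gamma0_mem, inv_mul_apply_one_zero]
  push_cast
  rw [sub_eq_zero]

/-- Two cosets agree iff the first columns are proportional mod `N`. -/
lemma mk_eq_mk_iff (N : ℕ) (g h : SL(2, ℤ)) :
    (QuotientGroup.mk g : SL(2, ℤ) ⧸ Gamma0 N) = QuotientGroup.mk h ↔
      ((g 0 0 : ℤ) : ZMod N) * ((h 1 0 : ℤ) : ZMod N) =
        ((g 1 0 : ℤ) : ZMod N) * ((h 0 0 : ℤ) : ZMod N) := by
  rw [QuotientGroup.eq, inv_mul_mem_Gamma0_iff]

lemma smul_mk_eq_iff (N : ℕ) (s g : SL(2, ℤ)) :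
    s • (QuotientGroup.mk g : SL(2, ℤ) ⧸ Gamma0 N) = QuotientGroup.mk g ↔
      g⁻¹ * s * g ∈ Gamma0 N := by
  rw [MulAction.Quotient.smul_mk, eq_comm, QuotientGroup.eq, smul_eq_mul, mul_assoc]

lemma conj_S_apply (g : SL(2, ℤ)) : (g⁻¹ * S * g) 1 0 = g 0 0 ^ 2 + g 1 0 ^ 2 := by
  rw [mul_assoc, inv_mul_apply_one_zero, Matrix.SpecialLinearGroup.coe_mul]
  simp [S, Matrix.mul_apply, Fin.sum_univ_two]
  ring

lemma conj_ST_apply (g : SL(2, ℤ)) :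
    (g⁻¹ * (S * T) * g) 1 0 = g 0 0 ^ 2 + g 0 0 * g 1 0 + g 1 0 ^ 2 := by
  rw [mul_assoc, inv_mul_apply_one_zero, Matrix.SpecialLinearGroup.coe_mul,
    Matrix.SpecialLinearGroup.coe_mul]
  simp [S, T, Matrix.mul_apply, Fin.sum_univ_two]
  ring

end Fermat.Agent.S20
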