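import Mathlib
import Fermat.Agent.S20.Basis

set_option autoImplicit false
set_option linter.unusedSectionVars false

/-!
# L8: the dual basis of cusp forms

For a free basis `B` whose matrix of translates is everywhere invertible, the rows of
`Δ • (B.mat z)⁻¹ᵀ` are cusp forms `g i` of weight `12 - d i`, and they form a free basis of the
cusp forms over the level-one ring.  Consequently `dim S₂ = #{i | d i = 10}`.
-/

namespace Fermat.Agent.S20

open UpperHalfPlane ModularForm Filter Topology CongruenceSubgroup Matrix.SpecialLinearGroup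
open scoped MatrixGroups ModularForm Manifold

noncomputable section

local notation "Δ" => ModularForm.discriminant

/-! ### Level-one facts from Mathlib, function-level -/

theorem du_levelOne_neg {k : ℤ} (hk : k < 0) {f : ℍ → ℂ} (h : IsMF 1 k f) : f = 0 := by
  have := ModularFormClass.levelOne_neg_weight_eq_zero hk h.toMFOne
  simpa using this

theorem du_levelOne_zero {f : ℍ → ℂ} (h : IsMF 1 0 f) : ∃ c : ℂ, f = Function.const ℍ c := by
  obtain ⟨c, hc⟩ := ModularFormClass.levelOne_weight_zero_const h.toMFOne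
  exact ⟨c, by simpa using hc⟩

theorem du_isMF_const (c : ℂ) : IsMF 1 0 (Function.const ℍ c) :=
  isMF_coe_levelOne (ModularForm.const c)

theorem du_exists_eq_delta_mul {k : ℤ} {f : ℍ → ℂ} (h : IsCF 1 k f) :
    ∃ g : ℍ → ℂ, IsMF 1 (k - 12) g ∧ f = Δ * g := by
  refine ⟨⇑(CuspForm.discriminantEquiv h.toCFOne), isMF_coe_levelOne _, ?_⟩
  have := ModularForm.discriminant_mul_discriminantEquiv h.toCFOne
  rw [this]
  rfl

theorem du_neg {N : ℕ} [NeZero N] {k : ℤ} (hk : k < 0) {f : ℍ → ℂ} (h : IsMF N k f) : f = 0 := by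
  have := ModularForm.isZero_of_neg_weight hk h.toMF
  have h2 : ⇑h.toMF = (0 : ℍ → ℂ) := by rw [this]; rfl
  simpa using h2

theorem du_cusp_zero {N : ℕ} [NeZero N] {f : ℍ → ℂ} (h : IsCF N 0 f) : f = 0 := by
  obtain ⟨c, hc⟩ := ModularForm.eq_const_of_weight_zero h.isMF.toMF
  have hc' : f = Function.const ℍ c := by simpa using hc
  have h0 : IsZeroAtImInfty f := by
    have := h.2.2 1
    rwa [SlashAction.slash_one] at this
  have h1 : Tendsto f atImInfty (𝓝 c) := by rw [hc']; exact tendsto_const_nhds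
  have h2 : Tendsto f atImInfty (𝓝 0) := h0
  have : c = 0 := tendsto_nhds_unique h1 h2
  rw [hc', this]
  rfl

/-- Pointwise transformation law of a level-one form. -/
theorem du_levelOne_smul_apply {k : ℤ} {f : ℍ → ℂ} (hf : IsMF 1 k f) (δ : SL(2, ℤ)) (z : ℍ) :
    f (δ • z) = denom δ z ^ k * f z := by
  have h := congrFun (hf.slash_levelOne δ) z
  rw [ModularForm.SL_slash_apply] at h
  rw [← h, mul_comm, mul_assoc, ← zpow_add₀ (denom_ne_zero _ z)]
  simp

theorem du_delta_smul_apply (δ : SL(2, ℤ)) (z : ℍ) : Δ (δ • z) = denom δ z ^ (12 : ℤ) * Δ z :=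
  du_levelOne_smul_apply isCF_delta.isMF δ z

/-! ### The dual matrix -/

variable {N : ℕ} [NeZero N] [DecidableEq (Q N)] (B : FreeBasis N)

omit [DecidableEq (Q N)] in
theorem FreeBasis.mat_smul (δ : SL(2, ℤ)) (z : ℍ) (i q : Q N) :
    B.mat (δ • z) i q = denom δ z ^ (B.d i : ℤ) * B.mat z i (δ⁻¹ • q) :=
  cosetFn_smul_apply (B.mem i).2.1 q δ z

/-- The dual matrix `Δ • (B.mat z)⁻¹ᵀ`. -/
def FreeBasis.dualMat (z : ℍ) : Matrix (Q N) (Q N) ℂ := fun i q => Δ z * (B.mat z)⁻¹ q i

/-- The dual forms: the column of the dual matrix at the trivial coset. -/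
def FreeBasis.dualFn (i : Q N) : ℍ → ℂ := fun z => B.dualMat z i (QuotientGroup.mk 1)

variable {B}

theorem FreeBasis.mat_mul_inv (hdet : ∀ z, (B.mat z).det ≠ 0) (z : ℍ) :
    B.mat z * (B.mat z)⁻¹ = 1 :=
  Matrix.mul_nonsing_inv _ (isUnit_iff_ne_zero.mpr (hdet z))

theorem FreeBasis.inv_mul_mat (hdet : ∀ z, (B.mat z).det ≠ 0) (z : ℍ) :
    (B.mat z)⁻¹ * B.mat z = 1 :=
  Matrix.nonsing_inv_mul _ (isUnit_iff_ne_zero.mpr (hdet z))

theorem FreeBasis.inv_mat_smul (hdet : ∀ z, (B.mat z).det ≠ 0) (δ : SL(2, ℤ)) (z : ℍ)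
    (q i : Q N) :
    (B.mat (δ • z))⁻¹ q i = (B.mat z)⁻¹ (δ⁻¹ • q) i * (denom δ z ^ (B.d i : ℤ))⁻¹ := by
  have key : (B.mat (δ • z))⁻¹ =
      Matrix.of fun q i => (B.mat z)⁻¹ (δ⁻¹ • q) i * (denom δ z ^ (B.d i : ℤ))⁻¹ := by
    apply Matrix.inv_eq_right_inv
    ext i j
    rw [Matrix.mul_apply]
    simp only [Matrix.of_apply]
    have h1 : ∀ q : Q N, B.mat (δ • z) i q *
        ((B.mat z)⁻¹ (δ⁻¹ • q) j * (denom δ z ^ (B.d j : ℤ))⁻¹) =
        denom δ z ^ (B.d i : ℤ) * (denom δ z ^ (B.d j : ℤ))⁻¹ *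
          (B.mat z i (δ⁻¹ • q) * (B.mat z)⁻¹ (δ⁻¹ • q) j) := by
      intro q
      rw [B.mat_smul]
      ring
    rw [Finset.sum_congr rfl (fun q _ => h1 q), ← Finset.mul_sum]
    have h2 : ∑ q : Q N, B.mat z i (δ⁻¹ • q) * (B.mat z)⁻¹ (δ⁻¹ • q) j =
        ∑ q : Q N, B.mat z i q * (B.mat z)⁻¹ q j :=
      Fintype.sum_equiv (MulAction.toPerm δ⁻¹) _ _ (fun q => rfl)
    rw [h2, ← Matrix.mul_apply, FreeBasis.mat_mul_inv hdet z, Matrix.one_apply]
    split_ifs with hij
    · subst hij
      rw [mul_one, mul_inv_cancel₀ (zpow_ne_zero _ (denom_ne_zero _ z))]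
    · rw [mul_zero]
  rw [key, Matrix.of_apply]

theorem FreeBasis.dualMat_smul (hdet : ∀ z, (B.mat z).det ≠ 0) (δ : SL(2, ℤ)) (z : ℍ)
    (i q : Q N) :
    B.dualMat (δ • z) i q = denom δ z ^ ((12 : ℤ) - B.d i) * B.dualMat z i (δ⁻¹ • q) := by
  unfold FreeBasis.dualMat
  rw [FreeBasis.inv_mat_smul hdet, du_delta_smul_apply, zpow_sub₀ (denom_ne_zero _ z)]
  ring

/-- Slash form of the transformation law. -/
theorem FreeBasis.dualMat_slash (hdet : ∀ z, (B.mat z).det ≠ 0) (δ : SL(2, ℤ)) (i q : Q N) :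
    (fun z => B.dualMat z i q) ∣[(12 : ℤ) - B.d i] δ = fun z => B.dualMat z i (δ⁻¹ • q) := by
  funext z
  rw [ModularForm.SL_slash_apply, FreeBasis.dualMat_smul hdet, mul_comm, ← mul_assoc,
    ← zpow_add₀ (denom_ne_zero _ z)]
  simp

/-! ### Holomorphy -/

omit [NeZero N] [DecidableEq (Q N)] in
theorem du_mdiff_det {n : Type*} [Fintype n] [DecidableEq n] {M : ℍ → Matrix n n ℂ}
    (h : ∀ i j, MDiff (fun z => M z i j)) : MDiff (fun z => (M z).det) := by
  rw [UpperHalfPlane.mdifferentiable_iff]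
  have h' : ∀ i j, DifferentiableOn ℂ (fun w => M (ofComplex w) i j) {z : ℂ | 0 < z.im} :=
    fun i j => UpperHalfPlane.mdifferentiable_iff.mp (h i j)
  have heq : ((fun z => (M z).det) ∘ ofComplex) = fun w => ∑ σ : Equiv.Perm n,
      ((Equiv.Perm.sign σ : ℤ) : ℂ) * ∏ i, M (ofComplex w) (σ i) i := by
    funext w
    simp only [Function.comp_apply, Matrix.det_apply']
  rw [heq]
  exact DifferentiableOn.fun_sum fun σ _ =>
    (DifferentiableOn.fun_finsetProd fun i _ => h' (σ i) i).const_mul _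

omit [NeZero N] [DecidableEq (Q N)] in
theorem du_mdiff_inv {n : Type*} [Fintype n] [DecidableEq n] {M : ℍ → Matrix n n ℂ}
    (h : ∀ i j, MDiff (fun z => M z i j)) (hdet : ∀ z, (M z).det ≠ 0) (i j : n) :
    MDiff (fun z => (M z)⁻¹ i j) := by
  have hadj : MDiff (fun z => (M z).adjugate i j) := by
    have : (fun z => (M z).adjugate i j) =
        fun z => ((M z).updateRow j (Pi.single i 1)).det := by
      funext z
      rw [Matrix.adjugate_apply]
    rw [this]
    apply du_mdiff_det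
    intro a b
    by_cases hab : a = j
    · subst hab
      simp only [Matrix.updateRow_self]
      exact mdifferentiable_const
    · simp only [Matrix.updateRow_ne hab]
      exact h a b
  have hd := du_mdiff_det h
  have : (fun z => (M z)⁻¹ i j) = fun z => (M z).adjugate i j / (M z).det := by
    funext z
    rw [Matrix.inv_def, Ring.inverse_eq_inv', Matrix.smul_apply, smul_eq_mul, div_eq_inv_mul]
  rw [this]
  exact hadj.div hd hdet

omit [DecidableEq (Q N)] in
theorem FreeBasis.mdiff_mat (B : FreeBasis N) (i q : Q N) : MDiff (fun z => B.mat z i q) :=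
  (B.mem i).mdiff_slash _

theorem FreeBasis.mdiff_dualMat (hdet : ∀ z, (B.mat z).det ≠ 0) (i q : Q N) :
    MDiff (fun z => B.dualMat z i q) := by
  unfold FreeBasis.dualMat
  exact (CuspFormClass.holo CuspForm.discriminant).mul
    (du_mdiff_inv (fun i q => B.mdiff_mat i q) hdet q i)

/-! ### The dual forms are cusp forms -/

omit [DecidableEq (Q N)] in
theorem du_inv_smul_mk_one {γ : SL(2, ℤ)} (hγ : γ ∈ Gamma0 N) :
    γ⁻¹ • (QuotientGroup.mk 1 : Q N) = QuotientGroup.mk 1 := by
  have : γ⁻¹ • (QuotientGroup.mk 1 : Q N) = QuotientGroup.mk (γ⁻¹ * 1) := rfl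
  rw [this, QuotientGroup.eq]
  simpa using hγ

theorem FreeBasis.isCF_dualFn (hdet : ∀ z, (B.mat z).det ≠ 0)
    (hzero : ∀ i q, IsZeroAtImInfty (fun z => B.dualMat z i q)) (i : Q N) :
    IsCF N ((12 : ℤ) - B.d i) (B.dualFn i) := by
  refine ⟨B.mdiff_dualMat hdet i _, fun γ hγ => ?_, fun δ => ?_⟩
  · unfold FreeBasis.dualFn
    rw [FreeBasis.dualMat_slash hdet, du_inv_smul_mk_one hγ]
  · unfold FreeBasis.dualFn
    rw [FreeBasis.dualMat_slash hdet]
    exact hzero i _

/-- The translates of the dual forms are the entries of the dual matrix. -/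
theorem FreeBasis.cosetFn_dualFn (hdet : ∀ z, (B.mat z).det ≠ 0)
    (hzero : ∀ i q, IsZeroAtImInfty (fun z => B.dualMat z i q)) (i q : Q N) :
    cosetFn N ((12 : ℤ) - B.d i) (B.dualFn i) q = fun z => B.dualMat z i q := by
  induction q using QuotientGroup.induction_on with
  | H g =>
    rw [cosetFn_mk (FreeBasis.isCF_dualFn hdet hzero i).2.1]
    unfold FreeBasis.dualFn
    rw [FreeBasis.dualMat_slash hdet, inv_inv]
    have : g • (QuotientGroup.mk 1 : Q N) = QuotientGroup.mk g := by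
      have : g • (QuotientGroup.mk 1 : Q N) = QuotientGroup.mk (g * 1) := rfl
      rw [this, mul_one]
    rw [this]

/-! ### The trace pairing -/

omit [DecidableEq (Q N)] in
/-- The trace pairing of a cusp form with a modular form is a level-one cusp form. -/
theorem du_isCF_trace {k l : ℤ} {g f : ℍ → ℂ} (hg : IsCF N k g) (hf : IsMF N l f) :
    IsCF 1 (k + l) (∑ q : Q N, cosetFn N k g q * cosetFn N l f q) := by
  have hinv : ∀ γ : SL(2, ℤ), (∑ q : Q N, cosetFn N k g q * cosetFn N l f q) ∣[k + l] γ =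
      ∑ q : Q N, cosetFn N k g q * cosetFn N l f q := by
    intro γ
    rw [SlashAction.sum_slash]
    have h1 : ∀ q : Q N, (cosetFn N k g q * cosetFn N l f q) ∣[k + l] γ =
        cosetFn N k g (γ⁻¹ • q) * cosetFn N l f (γ⁻¹ • q) := by
      intro q
      rw [ModularForm.mul_slash_SL2, cosetFn_slash hg.2.1, cosetFn_slash hf.2.1]
    rw [Finset.sum_congr rfl (fun q _ => h1 q)]
    exact Fintype.sum_equiv (MulAction.toPerm γ⁻¹) _ _ (fun q => rfl)
  refine ⟨?_, fun γ _ => hinv γ, fun δ => ?_⟩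
  · exact MDifferentiable.sum fun q _ => (hg.1.slash k _).mul (hf.1.slash l _)
  · rw [hinv δ]
    have h2 : ∀ q : Q N, IsZeroAtImInfty (cosetFn N k g q * cosetFn N l f q) := by
      intro q
      have := (hf.2.2 (q.out)⁻¹).mul_zeroAtFilter (hg.2.2 (q.out)⁻¹)
      rw [mul_comm] at this
      exact this
    have h3 : ∀ s : Finset (Q N), IsZeroAtImInfty (∑ q ∈ s, cosetFn N k g q * cosetFn N l f q) := by
      intro s
      classical
      induction s using Finset.induction_on with
      | empty =>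
        rw [Finset.sum_empty]
        exact Filter.zero_zeroAtFilter _
      | insert a t ha IH =>
        rw [Finset.sum_insert ha]
        exact (h2 a).add IH
    exact h3 Finset.univ

/-! ### Expansion in the dual basis -/

theorem FreeBasis.exists_dual_expansion (hdet : ∀ z, (B.mat z).det ≠ 0) {k : ℤ} {g : ℍ → ℂ}
    (hg : IsCF N k g) :
    ∃ b : Q N → ℍ → ℂ, (∀ i, IsMF 1 (k + B.d i - 12) (b i)) ∧ g = ∑ i, b i * B.dualFn i := by
  have hT : ∀ i, ∃ b : ℍ → ℂ, IsMF 1 (k + B.d i - 12) b ∧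
      (∑ q : Q N, cosetFn N k g q * cosetFn N (B.d i) (B.f i) q) = Δ * b :=
    fun i => du_exists_eq_delta_mul (du_isCF_trace hg (B.mem i))
  choose b hb hTb using hT
  refine ⟨b, hb, ?_⟩
  funext z
  have h1 : ∀ i, Δ z * b i z = ∑ q : Q N, cosetFn N k g q z * B.mat z i q := by
    intro i
    have := congrFun (hTb i) z
    rw [Pi.mul_apply] at this
    rw [← this, Finset.sum_apply]
    rfl
  have h2 : (∑ i, b i * B.dualFn i) z =
      ∑ i, (∑ q : Q N, cosetFn N k g q z * B.mat z i q) * (B.mat z)⁻¹ (QuotientGroup.mk 1) i := by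
    rw [Finset.sum_apply]
    refine Finset.sum_congr rfl fun i _ => ?_
    rw [← h1 i, Pi.mul_apply]
    unfold FreeBasis.dualFn FreeBasis.dualMat
    ring
  rw [h2]
  have h3 : ∑ i, (∑ q : Q N, cosetFn N k g q z * B.mat z i q) *
      (B.mat z)⁻¹ (QuotientGroup.mk 1) i =
      ∑ q : Q N, cosetFn N k g q z * ((B.mat z)⁻¹ * B.mat z) (QuotientGroup.mk 1) q := by
    simp_rw [Finset.sum_mul, Matrix.mul_apply, Finset.mul_sum]
    rw [Finset.sum_comm]
    refine Finset.sum_congr rfl fun q _ => Finset.sum_congr rfl fun i _ => ?_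
    ring
  rw [h3, FreeBasis.inv_mul_mat hdet z]
  simp only [Matrix.one_apply, mul_ite, mul_one, mul_zero, Finset.sum_ite_eq, Finset.mem_univ,
    if_true]
  rw [cosetFn_one hg.2.1]

theorem FreeBasis.dual_indep (hdet : ∀ z, (B.mat z).det ≠ 0) (k : ℤ) (b : Q N → ℍ → ℂ)
    (hb : ∀ i, IsMF 1 (k + B.d i - 12) (b i)) (h : ∑ i, b i * B.dualFn i = 0) :
    ∀ i, b i = 0 := by
  have key0 : ∀ (δ : SL(2, ℤ)) (z : ℍ),
      ∑ i, b i z * B.dualMat z i (δ⁻¹ • (QuotientGroup.mk 1 : Q N)) = 0 := by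
    intro δ z
    have h1 := congrFun h (δ • z)
    rw [Finset.sum_apply, Pi.zero_apply] at h1
    have h2 : ∀ i, (b i * B.dualFn i) (δ • z) =
        denom δ z ^ k * (b i z * B.dualMat z i (δ⁻¹ • (QuotientGroup.mk 1 : Q N))) := by
      intro i
      rw [Pi.mul_apply, du_levelOne_smul_apply (hb i)]
      unfold FreeBasis.dualFn
      rw [FreeBasis.dualMat_smul hdet]
      have hd : denom δ z ^ (k + B.d i - 12) * denom δ z ^ ((12 : ℤ) - B.d i) =
          denom δ z ^ k := by
        rw [← zpow_add₀ (denom_ne_zero _ z)]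
        congr 1
        ring
      rw [← hd]
      ring
    rw [Finset.sum_congr rfl (fun i _ => h2 i), ← Finset.mul_sum] at h1
    exact (mul_eq_zero.mp h1).resolve_left (zpow_ne_zero _ (denom_ne_zero _ z))
  have key : ∀ (z : ℍ) (q : Q N), ∑ i, b i z * B.dualMat z i q = 0 := by
    intro z q
    induction q using QuotientGroup.induction_on with
    | H g =>
      have := key0 g⁻¹ z
      have hg : (g⁻¹)⁻¹ • (QuotientGroup.mk 1 : Q N) = QuotientGroup.mk g := by
        have : (g⁻¹)⁻¹ • (QuotientGroup.mk 1 : Q N) = QuotientGroup.mk ((g⁻¹)⁻¹ * 1) := rfl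
        rw [this, mul_one, inv_inv]
      rwa [hg] at this
  intro i
  funext z
  have h3 : (B.mat z)⁻¹.mulVec (fun i => b i z) = 0 := by
    funext q
    have := key z q
    unfold FreeBasis.dualMat at this
    have h4 : ∑ i, b i z * (Δ z * (B.mat z)⁻¹ q i) =
        Δ z * ∑ i, (B.mat z)⁻¹ q i * b i z := by
      rw [Finset.mul_sum]
      refine Finset.sum_congr rfl fun i _ => ?_
      ring
    rw [h4] at this
    exact (mul_eq_zero.mp this).resolve_left (ModularForm.discriminant_ne_zero z)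
  have h5 : (fun i => b i z) = (B.mat z).mulVec ((B.mat z)⁻¹.mulVec (fun i => b i z)) := by
    rw [Matrix.mulVec_mulVec, FreeBasis.mat_mul_inv hdet z, Matrix.one_mulVec]
  rw [h3, Matrix.mulVec_zero] at h5
  exact congrFun h5 i

/-! ### Bounds on the weights -/

omit [DecidableEq (Q N)] in
theorem du_odd {k : ℤ} (hk : Odd k) {f : ℍ → ℂ} (h : IsMF N k f) : f = 0 := by
  have hmem : (-1 : GL (Fin 2) ℝ) ∈ ((Gamma0 N : Subgroup SL(2, ℤ)) : Subgroup (GL (Fin 2) ℝ)) :=
    ⟨-1, by simp [Gamma0_mem], by ext i j; simp⟩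
  have := ModularForm.eq_zero_of_neg_one_mem hmem hk h.toMF
  have h2 : ⇑h.toMF = (0 : ℍ → ℂ) := by rw [this]; rfl
  simpa using h2

omit [DecidableEq (Q N)] in
theorem du_one_ne_zero : (1 : ℍ → ℂ) ≠ 0 := fun h => by
  have := congrFun h UpperHalfPlane.I
  simp at this

theorem du_isMF_one_sub_self (n : ℕ) : IsMF 1 ((n : ℤ) - n) (1 : ℍ → ℂ) := by
  rw [sub_self]
  exact du_isMF_const 1

theorem FreeBasis.f_ne_zero (B : FreeBasis N) (i : Q N) : B.f i ≠ 0 := by
  intro h0
  have := B.indep (B.d i) (fun j => if j = i then 1 else 0) (fun j => by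
    by_cases hj : j = i
    · subst hj
      simp only [if_true]
      exact du_isMF_one_sub_self _
    · simp only [hj, if_false]
      exact isMF_zero _ _) (by
    rw [Finset.sum_eq_single i]
    · simp [h0]
    · intro j _ hj
      simp [hj]
    · intro h
      exact absurd (Finset.mem_univ i) h) i
  simp only [if_true] at this
  exact du_one_ne_zero this

theorem FreeBasis.d_even (B : FreeBasis N) (i : Q N) : Even (B.d i) := by
  by_contra hodd
  rw [Nat.not_even_iff_odd] at hodd
  exact B.f_ne_zero i (du_odd (by exact_mod_cast hodd) (B.mem i))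

theorem FreeBasis.dualFn_ne_zero (hdet : ∀ z, (B.mat z).det ≠ 0) (i : Q N) :
    B.dualFn i ≠ 0 := by
  intro h0
  have := FreeBasis.dual_indep hdet ((12 : ℤ) - B.d i) (fun j => if j = i then 1 else 0)
    (fun j => by
      by_cases hj : j = i
      · subst hj
        simp only [if_true]
        have : (12 : ℤ) - B.d j + B.d j - 12 = 0 := by ring
        rw [this]
        exact du_isMF_const 1
      · simp only [hj, if_false]
        exact isMF_zero _ _) (by
      rw [Finset.sum_eq_single i]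
      · simp [h0]
      · intro j _ hj
        simp [hj]
      · intro h
        exact absurd (Finset.mem_univ i) h) i
  simp only [if_true] at this
  exact du_one_ne_zero this

theorem FreeBasis.d_lt_twelve (hdet : ∀ z, (B.mat z).det ≠ 0)
    (hzero : ∀ i q, IsZeroAtImInfty (fun z => B.dualMat z i q)) (i : Q N) : B.d i < 12 := by
  by_contra hge
  rw [not_lt] at hge
  have hcf := FreeBasis.isCF_dualFn hdet hzero i
  rcases hge.eq_or_lt with h | h
  · have h0 : (12 : ℤ) - B.d i = 0 := by rw [← h]; norm_num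
    rw [h0] at hcf
    exact FreeBasis.dualFn_ne_zero hdet i (du_cusp_zero hcf)
  · have h0 : (12 : ℤ) - B.d i < 0 := by
      have : (12 : ℤ) < B.d i := by exact_mod_cast h
      linarith
    exact FreeBasis.dualFn_ne_zero hdet i (du_neg h0 hcf.isMF)

theorem FreeBasis.d_le_ten (hdet : ∀ z, (B.mat z).det ≠ 0)
    (hzero : ∀ i q, IsZeroAtImInfty (fun z => B.dualMat z i q)) (i : Q N) : B.d i ≤ 10 := by
  have h1 := FreeBasis.d_lt_twelve hdet hzero i
  obtain ⟨m, hm⟩ := B.d_even i
  omega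

/-! ### The dimension of `S₂` -/

theorem FreeBasis.isCF_two_dualFn (hdet : ∀ z, (B.mat z).det ≠ 0)
    (hzero : ∀ i q, IsZeroAtImInfty (fun z => B.dualMat z i q)) {i : Q N} (hi : B.d i = 10) :
    IsCF N 2 (B.dualFn i) := by
  have := FreeBasis.isCF_dualFn hdet hzero i
  have h0 : (12 : ℤ) - B.d i = 2 := by rw [hi]; norm_num
  rwa [h0] at this

/-- The map from coefficient vectors to weight two cusp forms. -/
def FreeBasis.dualComb (hdet : ∀ z, (B.mat z).det ≠ 0)
    (hzero : ∀ i q, IsZeroAtImInfty (fun z => B.dualMat z i q)) :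
    ({i : Q N // B.d i = 10} → ℂ) →ₗ[ℂ] SkSub N 2 :=
  LinearMap.codRestrict (SkSub N 2)
    (Fintype.linearCombination ℂ (fun j : {i : Q N // B.d i = 10} => B.dualFn j.1))
    (fun c => by
      rw [Fintype.linearCombination_apply]
      exact Submodule.sum_mem _ fun j _ =>
        Submodule.smul_mem _ _ (FreeBasis.isCF_two_dualFn hdet hzero j.2))

theorem FreeBasis.dualComb_apply (hdet : ∀ z, (B.mat z).det ≠ 0)
    (hzero : ∀ i q, IsZeroAtImInfty (fun z => B.dualMat z i q))
    (c : {i : Q N // B.d i = 10} → ℂ) :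
    ((FreeBasis.dualComb hdet hzero c : SkSub N 2) : ℍ → ℂ) = ∑ j, c j • B.dualFn j.1 := by
  unfold FreeBasis.dualComb
  rw [LinearMap.codRestrict_apply, Fintype.linearCombination_apply]

/-- Sums over all cosets of terms supported on `d i = 10`. -/
theorem FreeBasis.sum_eq_sum_subtype (B : FreeBasis N) {M : Type*} [AddCommMonoid M]
    (F : Q N → M) (hF : ∀ i, B.d i ≠ 10 → F i = 0) :
    ∑ i, F i = ∑ j : {i : Q N // B.d i = 10}, F j.1 := by
  rw [← Finset.sum_subtype (Finset.univ.filter fun i => B.d i = 10) (by simp) F]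
  symm
  apply Finset.sum_filter_of_ne
  intro i _ hne
  by_contra h
  exact hne (hF i h)

theorem FreeBasis.dualComb_injective (hdet : ∀ z, (B.mat z).det ≠ 0)
    (hzero : ∀ i q, IsZeroAtImInfty (fun z => B.dualMat z i q)) :
    Function.Injective (FreeBasis.dualComb hdet hzero) := by
  rw [← LinearMap.ker_eq_bot, LinearMap.ker_eq_bot']
  intro c hc
  have hc' : ∑ j, c j • B.dualFn j.1 = 0 := by
    rw [← FreeBasis.dualComb_apply hdet hzero, hc]
    rfl
  let b : Q N → ℍ → ℂ := fun i =>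
    if h : B.d i = 10 then Function.const ℍ (c ⟨i, h⟩) else 0
  have hb : ∀ i, IsMF 1 ((2 : ℤ) + B.d i - 12) (b i) := by
    intro i
    by_cases h : B.d i = 10
    · have h2 : (2 : ℤ) + B.d i - 12 = 0 := by rw [h]; norm_num
      rw [h2]
      simp only [b, h, dif_pos]
      exact du_isMF_const _
    · simp only [b, h, dif_neg, not_false_iff]
      exact isMF_zero _ _
  have hsum : ∑ i, b i * B.dualFn i = 0 := by
    rw [B.sum_eq_sum_subtype (fun i => b i * B.dualFn i) (fun i hi => by simp [b, hi]), ← hc']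
    refine Finset.sum_congr rfl fun j _ => ?_
    simp only [b, j.2, dif_pos]
    funext z
    simp
  have h0 := FreeBasis.dual_indep hdet 2 b hb hsum
  funext j
  have h1 := congrFun (h0 j.1) UpperHalfPlane.I
  simp only [b, j.2, dif_pos] at h1
  simpa using h1

theorem FreeBasis.dualComb_surjective (hdet : ∀ z, (B.mat z).det ≠ 0)
    (hzero : ∀ i q, IsZeroAtImInfty (fun z => B.dualMat z i q)) :
    Function.Surjective (FreeBasis.dualComb hdet hzero) := by
  rintro ⟨g, hg⟩
  obtain ⟨b, hb, hgb⟩ := FreeBasis.exists_dual_expansion hdet (mem_SkSub.mp hg)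
  have hb0 : ∀ i, B.d i ≠ 10 → b i = 0 := by
    intro i hi
    have hle := FreeBasis.d_le_ten hdet hzero i
    have hlt : B.d i < 10 := lt_of_le_of_ne hle hi
    refine du_levelOne_neg ?_ (hb i)
    have : (B.d i : ℤ) < 10 := by exact_mod_cast hlt
    linarith
  have hbc : ∀ j : {i : Q N // B.d i = 10},
      b j.1 = Function.const ℍ (b j.1 UpperHalfPlane.I) := by
    intro j
    have h0 : (2 : ℤ) + B.d j.1 - 12 = 0 := by rw [j.2]; norm_num
    have hj := hb j.1
    rw [h0] at hj
    obtain ⟨c, hc⟩ := du_levelOne_zero hj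
    rw [hc]
    rfl
  refine ⟨fun j => b j.1 UpperHalfPlane.I, Subtype.ext ?_⟩
  rw [FreeBasis.dualComb_apply]
  show _ = g
  rw [hgb, B.sum_eq_sum_subtype (fun i => b i * B.dualFn i) (fun i hi => by simp [hb0 i hi])]
  refine Finset.sum_congr rfl fun j _ => ?_
  funext z
  conv_rhs => rw [hbc j]
  simp

/-- **L8**: the dimension of the space of weight two cusp forms is the number of generators
of weight ten. -/
theorem FreeBasis.finrank_S2 (hdet : ∀ z, (B.mat z).det ≠ 0)
    (hzero : ∀ i q, IsZeroAtImInfty (fun z => B.dualMat z i q)) :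
    Module.finrank ℂ (SkSub N 2) = Nat.card {i : Q N // B.d i = 10} := by
  have e := LinearEquiv.ofBijective (FreeBasis.dualComb hdet hzero)
    ⟨FreeBasis.dualComb_injective hdet hzero, FreeBasis.dualComb_surjective hdet hzero⟩
  rw [← e.finrank_eq, Module.finrank_fintype_fun_eq_card, Nat.card_eq_fintype_card]

end

end Fermat.Agent.S20
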