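import Mathlib

set_option autoImplicit false

/-!
# Twisted-periodic bounded holomorphic functions on the upper half plane

If `φ : ℍ → ℂ` is holomorphic, bounded at `i∞` and satisfies `φ (z + 1) = exp (2πiλ) φ z` with
`λ < 1`, then `φ z * exp (-2πiλ z)` has a limit at `i∞`; if this limit vanishes then
`φ z * exp (-2πi (λ + 1) z)` is still bounded at `i∞`.
-/

namespace Fermat.Agent.S20

open Complex Filter Function
open UpperHalfPlane hiding I
open scoped Real Topology Manifold

noncomputable section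

local notation "𝕢" => Periodic.qParam

/-- the exponential `z ↦ exp (2πi c z)` on the upper half plane -/
def expFn (c : ℝ) (z : ℍ) : ℂ := cexp (2 * π * I * c * z)

lemma expFn_add (c c' : ℝ) (z : ℍ) : expFn (c + c') z = expFn c z * expFn c' z := by
  unfold expFn
  rw [← Complex.exp_add]
  congr 1
  push_cast
  ring

lemma expFn_zero (z : ℍ) : expFn 0 z = 1 := by
  simp [expFn]

lemma expFn_ne_zero (c : ℝ) (z : ℍ) : expFn c z ≠ 0 := Complex.exp_ne_zero _

lemma expFn_neg_mul (c : ℝ) (z : ℍ) : expFn (-c) z * expFn c z = 1 := by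
  rw [← expFn_add, neg_add_cancel, expFn_zero]

lemma expFn_one (z : ℍ) : expFn 1 z = 𝕢 1 z := by
  simp [expFn, Periodic.qParam]

lemma norm_expFn (c : ℝ) (z : ℍ) : ‖expFn c z‖ = Real.exp (-2 * π * c * z.im) := by
  unfold expFn
  rw [Complex.norm_exp]
  congr 1
  have : (2 * (π : ℂ) * I * (c : ℂ) * (z : ℂ)).re = -2 * π * c * z.im := by
    simp [mul_re, mul_im]
  rw [this]

lemma mdiff_expFn (c : ℝ) : MDiff (expFn c) := by
  rw [UpperHalfPlane.mdifferentiable_iff]
  have h1 : DifferentiableOn ℂ (fun w : ℂ => cexp (2 * π * I * c * w)) {z | 0 < z.im} :=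
    (Differentiable.differentiableOn (by fun_prop))
  refine h1.congr ?_
  intro w hw
  simp only [comp_apply, expFn, ofComplex_apply_of_im_pos hw]

lemma expFn_vadd_one (c : ℝ) (z : ℍ) :
    expFn c ((1 : ℝ) +ᵥ z) = cexp (2 * π * I * c) * expFn c z := by
  unfold expFn
  rw [← Complex.exp_add]
  congr 1
  simp only [coe_vadd]
  push_cast
  ring

lemma isZeroAtImInfty_expFn {c : ℝ} (hc : 0 < c) : IsZeroAtImInfty (expFn c) := by
  unfold IsZeroAtImInfty ZeroAtFilter
  rw [tendsto_zero_iff_norm_tendsto_zero]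
  simp only [norm_expFn]
  refine Real.tendsto_exp_atBot.comp ?_
  have h1 : Tendsto (fun z : ℍ => z.im) atImInfty atTop := tendsto_comap
  have h2 : -2 * π * c < 0 := by
    have := Real.pi_pos
    nlinarith
  exact h1.const_mul_atTop_of_neg h2

lemma isBoundedAtImInfty_expFn {c : ℝ} (hc : 0 ≤ c) : IsBoundedAtImInfty (expFn c) := by
  rw [isBoundedAtImInfty_iff]
  refine ⟨1, 0, fun z _ => ?_⟩
  rw [norm_expFn]
  apply Real.exp_le_one_iff.mpr
  have := Real.pi_pos
  have := z.im_pos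
  nlinarith [mul_nonneg (mul_nonneg Real.pi_pos.le hc) z.im_pos.le]

/-- **Twisted-periodic functions**: existence of the limit of `φ z * exp (-2πiλz)` at `i∞`, and
exponential decay of one more order when the limit vanishes. -/
theorem twisted_limit {φ : ℍ → ℂ} (hφ : MDiff φ) (hb : IsBoundedAtImInfty φ) {lam : ℝ}
    (h1 : lam < 1) (hper : ∀ z : ℍ, φ ((1 : ℝ) +ᵥ z) = cexp (2 * π * I * lam) * φ z) :
    ∃ l : ℂ, Tendsto (fun z : ℍ => φ z * expFn (-lam) z) atImInfty (𝓝 l) ∧
      (l = 0 → IsBoundedAtImInfty (fun z : ℍ => φ z * expFn (-(lam + 1)) z)) := by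
  set g : ℍ → ℂ := fun z => φ z * expFn (1 - lam) z with hg
  have hgper : Periodic (g ∘ ofComplex) (1 : ℝ) := by
    intro w
    by_cases hw : 0 < im w
    · have hw1 : 0 < im (w + (1 : ℝ)) := by simpa using hw
      simp only [comp_apply, ofComplex_apply_of_im_pos hw1, ofComplex_apply_of_im_pos hw]
      have e : (⟨w + (1 : ℝ), hw1⟩ : ℍ) = (1 : ℝ) +ᵥ (⟨w, hw⟩ : ℍ) := by
        ext
        simp [add_comm]
      rw [e, hg]
      simp only
      rw [hper, expFn_vadd_one]
      have h2 : cexp (2 * π * I * lam) * cexp (2 * π * I * ((1 - lam : ℝ) : ℂ)) = 1 := by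
        rw [← Complex.exp_add]
        have : 2 * (π : ℂ) * I * lam + 2 * π * I * ((1 - lam : ℝ) : ℂ) = 2 * π * I := by
          push_cast; ring
        rw [this, Complex.exp_two_pi_mul_I]
      linear_combination (φ ⟨w, hw⟩ * expFn (1 - lam) ⟨w, hw⟩) * h2
    · have hw' : im w ≤ 0 := not_lt.mp hw
      have hw1 : im (w + ((1 : ℝ) : ℂ)) ≤ 0 := by simpa using hw'
      show g (ofComplex (w + ((1 : ℝ) : ℂ))) = g (ofComplex w)
      rw [ofComplex_apply_of_im_nonpos hw1, ofComplex_apply_of_im_nonpos hw']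
  have hgdiff : MDiff g := hφ.mul (mdiff_expFn _)
  have hgzero : IsZeroAtImInfty g :=
    hb.mul_zeroAtFilter (isZeroAtImInfty_expFn (by linarith))
  set G : ℂ → ℂ := UpperHalfPlane.cuspFunction 1 g with hG
  have hGdiff : ∀ q : ℂ, ‖q‖ < 1 → DifferentiableAt ℂ G q := fun q hq =>
    UpperHalfPlane.differentiableAt_cuspFunction one_pos hgper hgdiff
      hgzero.isBoundedAtImInfty hq
  have hGon : DifferentiableOn ℂ G (Metric.ball 0 1) := fun q hq =>
    (hGdiff q (mem_ball_zero_iff.mp hq)).differentiableWithinAt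
  have hball : Metric.ball (0 : ℂ) 1 ∈ 𝓝 (0 : ℂ) := Metric.ball_mem_nhds 0 one_pos
  have hG0 : G 0 = 0 :=
    Periodic.cuspFunction_zero_of_zero_at_inf one_pos
      (hgzero.comp tendsto_comap_im_ofComplex)
  have hGeq : ∀ z : ℍ, G (𝕢 1 z) = g z := fun z =>
    UpperHalfPlane.eq_cuspFunction z one_ne_zero hgper
  have hq0 : ∀ z : ℍ, 𝕢 1 (z : ℂ) ≠ 0 := fun z => Periodic.qParam_ne_zero _
  have hqinv : ∀ z : ℍ, (𝕢 1 (z : ℂ))⁻¹ = expFn (-1) z := fun z => by
    rw [← expFn_one]
    exact inv_eq_of_mul_eq_one_left (expFn_neg_mul 1 z)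
  -- the first quotient
  have hk : ∀ z : ℍ, dslope G 0 (𝕢 1 z) = φ z * expFn (-lam) z := fun z => by
    rw [dslope_of_ne _ (hq0 z), slope_def_field, hG0, sub_zero, sub_zero, hGeq, div_eq_mul_inv,
      hqinv, hg]
    simp only
    rw [mul_assoc, ← expFn_add]
    congr 2
    ring
  have hqt : Tendsto (fun z : ℍ => 𝕢 1 (z : ℂ)) atImInfty (𝓝 0) :=
    UpperHalfPlane.qParam_tendsto_atImInfty one_pos
  have hkcont : ContinuousAt (dslope G 0) 0 :=
    continuousAt_dslope_same.mpr (hGdiff 0 (by simp))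
  refine ⟨dslope G 0 0, ?_, ?_⟩
  · have := hkcont.tendsto.comp hqt
    refine this.congr ?_
    intro z
    exact hk z
  · intro hl
    have hkon : DifferentiableOn ℂ (dslope G 0) (Metric.ball 0 1) :=
      (Complex.differentiableOn_dslope hball).mpr hGon
    have hk2cont : ContinuousAt (dslope (dslope G 0) 0) 0 :=
      continuousAt_dslope_same.mpr (hkon.differentiableAt hball)
    have hk2 : ∀ z : ℍ, dslope (dslope G 0) 0 (𝕢 1 z) = φ z * expFn (-(lam + 1)) z := fun z => by
      rw [dslope_of_ne _ (hq0 z), slope_def_field, hl, sub_zero, sub_zero, hk, div_eq_mul_inv,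
        hqinv, mul_assoc, ← expFn_add]
      congr 2
      ring
    have hev : ∀ᶠ q in 𝓝 (0 : ℂ), ‖dslope (dslope G 0) 0 q‖ < ‖dslope (dslope G 0) 0 0‖ + 1 :=
      hk2cont.norm.eventually (gt_mem_nhds (lt_add_one _))
    have hev' := hqt.eventually hev
    refine Asymptotics.IsBigO.of_bound (‖dslope (dslope G 0) 0 0‖ + 1) ?_
    filter_upwards [hev'] with z hz
    rw [← hk2 z]
    simpa using hz.le

end

end Fermat.Agent.S20
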