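import Fermat.Agent.S20.P1Model

/-! The index of `Γ₀(N)` in `SL(2, ℤ)` is the Dedekind psi function. -/

set_option autoImplicit false

open Matrix ModularGroup CongruenceSubgroup
open scoped MatrixGroups

namespace Fermat.Agent.S20

/-- Relative index from an explicit transversal. -/
theorem relIndex_eq_card_of_transversal {G : Type*} [Group G] (H K : Subgroup G)
    {ι : Type*} (r : ι → G) (hr : ∀ i, r i ∈ K)
    (hsurj : ∀ k ∈ K, ∃ i, (r i)⁻¹ * k ∈ H) (hinj : ∀ i j, (r i)⁻¹ * r j ∈ H → i = j) :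
    H.relIndex K = Nat.card ι := by
  rw [Subgroup.relIndex, Subgroup.index]
  symm
  refine Nat.card_congr (Equiv.ofBijective
    (fun i => (QuotientGroup.mk (⟨r i, hr i⟩ : K) : K ⧸ H.subgroupOf K)) ⟨?_, ?_⟩)
  · intro i j hij
    rw [QuotientGroup.eq, Subgroup.mem_subgroupOf] at hij
    exact hinj i j (by simpa using hij)
  · intro q
    obtain ⟨k, rfl⟩ := QuotientGroup.mk_surjective q
    obtain ⟨i, hi⟩ := hsurj k k.2
    refine ⟨i, ?_⟩
    rw [QuotientGroup.eq, Subgroup.mem_subgroupOf]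
    simpa using hi

lemma inv_mul_mem_Gamma0_iff_dvd (N : ℕ) (g h : SL(2, ℤ)) :
    g⁻¹ * h ∈ Gamma0 N ↔ (N : ℤ) ∣ g 0 0 * h 1 0 - g 1 0 * h 0 0 := by
  rw [Gamma0_mem, inv_mul_apply_one_zero, ZMod.intCast_zmod_eq_zero_iff_dvd]

lemma mem_Gamma0_iff_dvd (N : ℕ) (g : SL(2, ℤ)) : g ∈ Gamma0 N ↔ (N : ℤ) ∣ g 1 0 := by
  rw [Gamma0_mem, ZMod.intCast_zmod_eq_zero_iff_dvd]

lemma Gamma0_le_of_dvd {M N : ℕ} (h : M ∣ N) : Gamma0 N ≤ Gamma0 M := by
  intro g hg
  rw [mem_Gamma0_iff_dvd] at hg ⊢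
  exact dvd_trans (Int.natCast_dvd_natCast.mpr h) hg

lemma lowerL_mem_Gamma0 (M : ℕ) (j : ℤ) : lowerL (j * M) ∈ Gamma0 M := by
  rw [mem_Gamma0_iff_dvd, lowerL_apply_one_zero]
  exact Dvd.intro_left j rfl

lemma exists_lowerL_inv_mul_mem {M p : ℕ} [NeZero p] (k : SL(2, ℤ)) (c' : ℤ)
    (hc' : k 1 0 = (M : ℤ) * c') (hcop : IsCoprime (k 0 0) (p : ℤ)) :
    ∃ j : ZMod p, (lowerL ((j.val : ℤ) * M))⁻¹ * k ∈ Gamma0 (M * p) := by
  obtain ⟨u, v, huv⟩ := hcop
  refine ⟨((c' * u : ℤ) : ZMod p), ?_⟩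
  rw [inv_mul_mem_Gamma0_iff_dvd]
  simp only [lowerL_apply_zero_zero, lowerL_apply_one_zero]
  have hj : ((((c' * u : ℤ) : ZMod p).val : ℤ) : ZMod p) = ((c' * u : ℤ) : ZMod p) := by
    rw [Int.cast_natCast, ZMod.natCast_zmod_val]
  have hj' : (p : ℤ) ∣ (((c' * u : ℤ) : ZMod p).val : ℤ) - c' * u := by
    rw [← ZMod.intCast_zmod_eq_zero_iff_dvd]
    push_cast at hj ⊢
    rw [hj, sub_self]
  obtain ⟨w, hw⟩ := hj'
  have : (1 : ℤ) * k 1 0 - (((c' * u : ℤ) : ZMod p).val : ℤ) * M * k 0 0 =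
      (M * p : ℤ) * (c' * v - w * k 0 0) := by
    rw [hc']
    have hw' : (((c' * u : ℤ) : ZMod p).val : ℤ) = c' * u + p * w := by linarith
    rw [hw']
    linear_combination (-(M : ℤ) * c') * huv
  rw [this]
  push_cast
  exact Dvd.intro _ rfl

lemma lowerL_inj {M p : ℕ} [NeZero p] (hM : M ≠ 0) (i j : ZMod p)
    (hij : (lowerL ((i.val : ℤ) * M))⁻¹ * lowerL ((j.val : ℤ) * M) ∈ Gamma0 (M * p)) : i = j := by
  have hMZ : (M : ℤ) ≠ 0 := by exact_mod_cast hM
  rw [inv_mul_mem_Gamma0_iff_dvd] at hij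
  simp only [lowerL_apply_zero_zero, lowerL_apply_one_zero] at hij
  have h1 : ((M * p : ℕ) : ℤ) ∣ (M : ℤ) * ((j.val : ℤ) - (i.val : ℤ)) := by
    convert hij using 1
    ring
  push_cast at h1
  rw [mul_dvd_mul_iff_left hMZ] at h1
  have h2 : (((j.val : ℤ) - (i.val : ℤ) : ℤ) : ZMod p) = 0 :=
    (ZMod.intCast_zmod_eq_zero_iff_dvd _ _).mpr h1
  push_cast at h2
  rw [ZMod.natCast_zmod_val, ZMod.natCast_zmod_val, sub_eq_zero] at h2
  exact h2.symm

/-- The relative index `[Γ₀(M) : Γ₀(M p)]` when `p ∣ M`. -/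
theorem relIndex_Gamma0_of_dvd {M p : ℕ} (hM : M ≠ 0) (hp : p.Prime) (hpM : p ∣ M) :
    (Gamma0 (M * p)).relIndex (Gamma0 M) = p := by
  have : NeZero p := ⟨hp.ne_zero⟩
  rw [relIndex_eq_card_of_transversal (Gamma0 (M * p)) (Gamma0 M)
    (fun j : ZMod p => lowerL ((j.val : ℤ) * M)) (fun j => lowerL_mem_Gamma0 M _), Nat.card_zmod]
  · intro k hk
    rw [mem_Gamma0_iff_dvd] at hk
    obtain ⟨c', hc'⟩ := hk
    have hcop : IsCoprime (k 0 0) (p : ℤ) := by
      have h1 : IsCoprime (k 0 0) (k 1 0) := isCoprime_col k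
      have h2 : (p : ℤ) ∣ k 1 0 := by
        rw [hc']
        exact Dvd.dvd.mul_right (Int.natCast_dvd_natCast.mpr hpM) c'
      exact IsCoprime.of_isCoprime_of_dvd_right h1 h2
    exact exists_lowerL_inv_mul_mem k c' hc' hcop
  · exact fun i j hij => lowerL_inj hM i j hij

/-- The relative index `[Γ₀(M) : Γ₀(M p)]` when `p ∤ M`. -/
theorem relIndex_Gamma0_of_not_dvd {M p : ℕ} (hM : M ≠ 0) (hp : p.Prime) (hpM : ¬ p ∣ M) :
    (Gamma0 (M * p)).relIndex (Gamma0 M) = p + 1 := by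
  have : NeZero p := ⟨hp.ne_zero⟩
  have hMZ : (M : ℤ) ≠ 0 := by exact_mod_cast hM
  have hpZ : Prime (p : ℤ) := Nat.prime_iff_prime_int.mp hp
  have hcopM : IsCoprime (p : ℤ) (M : ℤ) := by
    rw [Int.isCoprime_iff_gcd_eq_one, Int.gcd_natCast_natCast]
    exact (Nat.Prime.coprime_iff_not_dvd hp).mpr hpM
  obtain ⟨u, v, huv⟩ := hcopM
  -- the extra representative
  let ginf : SL(2, ℤ) := ⟨!![(p : ℤ) * u, -v; (M : ℤ), 1], by
    rw [Matrix.det_fin_two_of]; linear_combination huv⟩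
  have hg00 : ginf 0 0 = (p : ℤ) * u := rfl
  have hg10 : ginf 1 0 = (M : ℤ) := rfl
  have hnot1 : ¬ (p : ℤ) ∣ 1 := hpZ.not_dvd_one
  rw [relIndex_eq_card_of_transversal (Gamma0 (M * p)) (Gamma0 M)
    (fun j : Option (ZMod p) => j.elim ginf (fun j => lowerL ((j.val : ℤ) * M))), Nat.card_eq_fintype_card,
    Fintype.card_option, ZMod.card]
  · rintro (_ | j)
    · rw [Option.elim_none, mem_Gamma0_iff_dvd, hg10]
    · exact lowerL_mem_Gamma0 M _
  · intro k hk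
    rw [mem_Gamma0_iff_dvd] at hk
    obtain ⟨c', hc'⟩ := hk
    by_cases hpa : (p : ℤ) ∣ k 0 0
    · refine ⟨none, ?_⟩
      rw [Option.elim_none, inv_mul_mem_Gamma0_iff_dvd, hg00, hg10, hc']
      obtain ⟨a', ha'⟩ := hpa
      rw [ha']
      push_cast
      exact ⟨u * c' - a', by ring⟩
    · have hcop : IsCoprime (k 0 0) (p : ℤ) :=
        (IsCoprime.symm ((Prime.coprime_iff_not_dvd hpZ).mpr hpa))
      obtain ⟨j, hj⟩ := exists_lowerL_inv_mul_mem k c' hc' hcop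
      exact ⟨some j, hj⟩
  · rintro (_ | i) (_ | j) hij
    · rfl
    · exfalso
      simp only [Option.elim_none, Option.elim_some] at hij
      rw [inv_mul_mem_Gamma0_iff_dvd, hg00, hg10] at hij
      simp only [lowerL_apply_zero_zero, lowerL_apply_one_zero] at hij
      have h1 : ((M * p : ℕ) : ℤ) ∣ (M : ℤ) * ((p : ℤ) * u * (j.val : ℤ) - 1) := by
        convert hij using 1
        ring
      push_cast at h1
      rw [mul_dvd_mul_iff_left hMZ] at h1
      apply hnot1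
      have h2 : (p : ℤ) ∣ (p : ℤ) * u * (j.val : ℤ) := ⟨u * (j.val : ℤ), by ring⟩
      have := dvd_sub h2 h1
      simpa using this
    · exfalso
      simp only [Option.elim_none, Option.elim_some] at hij
      rw [inv_mul_mem_Gamma0_iff_dvd, hg00, hg10] at hij
      simp only [lowerL_apply_zero_zero, lowerL_apply_one_zero] at hij
      have h1 : ((M * p : ℕ) : ℤ) ∣ (M : ℤ) * (1 - (i.val : ℤ) * ((p : ℤ) * u)) := by
        convert hij using 1
        ring
      push_cast at h1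
      rw [mul_dvd_mul_iff_left hMZ] at h1
      apply hnot1
      have h2 : (p : ℤ) ∣ (i.val : ℤ) * ((p : ℤ) * u) := ⟨(i.val : ℤ) * u, by ring⟩
      have := dvd_add h1 h2
      simpa using this
    · simp only [Option.elim_some] at hij
      rw [lowerL_inj hM i j hij]

section Psi

open ModularCurve

lemma sqfree_divisors_mul_prime_of_dvd {M p : ℕ} (hM : M ≠ 0) (hp : p.Prime) (hpM : p ∣ M) :
    (M * p).divisors.filter Squarefree = M.divisors.filter Squarefree := by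
  ext d
  simp only [Finset.mem_filter, Nat.mem_divisors]
  constructor
  · rintro ⟨⟨hd, -⟩, hsq⟩
    refine ⟨⟨?_, hM⟩, hsq⟩
    by_cases hpd : p ∣ d
    · obtain ⟨e, rfl⟩ := hpd
      have hcop : p.Coprime e := (Nat.squarefree_mul_iff.mp hsq).1
      have he : e ∣ M := by
        rw [mul_comm M p] at hd
        exact (Nat.mul_dvd_mul_iff_left hp.pos).mp hd
      exact Nat.Coprime.mul_dvd_of_dvd_of_dvd hcop hpM he
    · have hcop : d.Coprime p := ((Nat.Prime.coprime_iff_not_dvd hp).mpr hpd).symm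
      exact Nat.Coprime.dvd_of_dvd_mul_right hcop hd
  · rintro ⟨⟨hd, -⟩, hsq⟩
    exact ⟨⟨Dvd.dvd.mul_right hd p, Nat.mul_ne_zero hM hp.ne_zero⟩, hsq⟩

lemma dedekindPsi_mul_prime_of_dvd {M p : ℕ} (hM : M ≠ 0) (hp : p.Prime) (hpM : p ∣ M) :
    dedekindPsi (M * p) = p * dedekindPsi M := by
  rw [dedekindPsi, dedekindPsi, sqfree_divisors_mul_prime_of_dvd hM hp hpM, Finset.mul_sum]
  refine Finset.sum_congr rfl fun d hd => ?_
  have hdM : d ∣ M := (Nat.mem_divisors.mp (Finset.mem_filter.mp hd).1).1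
  rw [mul_comm M p, Nat.mul_div_assoc p hdM]

lemma sqfree_divisors_mul_prime_of_not_dvd {M p : ℕ} (hM : M ≠ 0) (hp : p.Prime)
    (hpM : ¬ p ∣ M) :
    (M * p).divisors.filter Squarefree =
      M.divisors.filter Squarefree ∪ (M.divisors.filter Squarefree).image (· * p) := by
  ext d
  simp only [Finset.mem_filter, Nat.mem_divisors, Finset.mem_union, Finset.mem_image]
  constructor
  · rintro ⟨⟨hd, -⟩, hsq⟩
    by_cases hpd : p ∣ d
    · right
      obtain ⟨e, rfl⟩ := hpd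
      have hsq' := Nat.squarefree_mul_iff.mp hsq
      have he : e ∣ M := by
        rw [mul_comm M p] at hd
        exact (Nat.mul_dvd_mul_iff_left hp.pos).mp hd
      exact ⟨e, ⟨⟨he, hM⟩, hsq'.2.2⟩, mul_comm e p⟩
    · left
      have hcop : d.Coprime p := ((Nat.Prime.coprime_iff_not_dvd hp).mpr hpd).symm
      exact ⟨⟨Nat.Coprime.dvd_of_dvd_mul_right hcop hd, hM⟩, hsq⟩
  · rintro (⟨⟨hd, -⟩, hsq⟩ | ⟨e, ⟨⟨he, -⟩, hsq⟩, rfl⟩)
    · exact ⟨⟨Dvd.dvd.mul_right hd p, Nat.mul_ne_zero hM hp.ne_zero⟩, hsq⟩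
    · refine ⟨⟨Nat.mul_dvd_mul_right he p, Nat.mul_ne_zero hM hp.ne_zero⟩, ?_⟩
      rw [Nat.squarefree_mul_iff]
      refine ⟨?_, hsq, hp.prime.squarefree⟩
      apply Nat.Coprime.symm
      rw [Nat.Prime.coprime_iff_not_dvd hp]
      exact fun h => hpM (dvd_trans h he)

lemma dedekindPsi_mul_prime_of_not_dvd {M p : ℕ} (hM : M ≠ 0) (hp : p.Prime)
    (hpM : ¬ p ∣ M) : dedekindPsi (M * p) = (p + 1) * dedekindPsi M := by
  rw [dedekindPsi, dedekindPsi, sqfree_divisors_mul_prime_of_not_dvd hM hp hpM,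
    Finset.sum_union, Finset.sum_image, add_mul, one_mul, Finset.mul_sum]
  · congr 1
    · refine Finset.sum_congr rfl fun d hd => ?_
      have hdM : d ∣ M := (Nat.mem_divisors.mp (Finset.mem_filter.mp hd).1).1
      rw [mul_comm M p, Nat.mul_div_assoc p hdM]
    · refine Finset.sum_congr rfl fun d _ => ?_
      rw [Nat.mul_div_mul_right _ _ hp.pos]
  · intro x _ y _ hxy
    exact Nat.eq_of_mul_eq_mul_right hp.pos hxy
  · rw [Finset.disjoint_left]
    intro d hd hd'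
    obtain ⟨e, -, rfl⟩ := Finset.mem_image.mp hd'
    have hdM : e * p ∣ M := (Nat.mem_divisors.mp (Finset.mem_filter.mp hd).1).1
    exact hpM (dvd_trans (Dvd.intro_left e rfl) hdM)

lemma Gamma0_one : Gamma0 1 = ⊤ := by
  ext g
  simp only [Gamma0_mem, Subgroup.mem_top, iff_true]
  exact Subsingleton.elim _ _

/-- The index of `Γ₀(N)` is the Dedekind psi function. -/
theorem index_Gamma0 (N : ℕ) (hN : N ≠ 0) : (Gamma0 N).index = dedekindPsi N := by
  induction N using induction_on_primes with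
  | zero => exact absurd rfl hN
  | one => rw [Gamma0_one, Subgroup.index_top, dedekindPsi_one]
  | prime_mul p a hp ih =>
    have ha : a ≠ 0 := fun h => hN (by rw [h, mul_zero])
    have hle : Gamma0 (a * p) ≤ Gamma0 a := Gamma0_le_of_dvd (Dvd.intro p rfl)
    rw [mul_comm p a, ← Subgroup.relIndex_mul_index hle, ih ha]
    by_cases hpa : p ∣ a
    · rw [relIndex_Gamma0_of_dvd ha hp hpa, dedekindPsi_mul_prime_of_dvd ha hp hpa]
    · rw [relIndex_Gamma0_of_not_dvd ha hp hpa, dedekindPsi_mul_prime_of_not_dvd ha hp hpa]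

theorem card_quotient_Gamma0 (N : ℕ) [NeZero N] :
    Nat.card (SL(2, ℤ) ⧸ Gamma0 N) = dedekindPsi N := by
  rw [← Subgroup.index_eq_card]
  exact index_Gamma0 N (NeZero.ne N)

end Psi

end Fermat.Agent.S20
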