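import Fermat.Agent.S20.TwistedPeriodic

/-! Comparison of orders at `i∞`: if `det F ^ 12 = c Δ ^ w` and `F U diag(exp(-2πi λ_x z))` tends to
an invertible matrix at `i∞`, then `w = 12 ∑ λ_x`. -/

set_option autoImplicit false

namespace Fermat.Agent.S20

namespace CuspOrder

open Complex Filter Function
open UpperHalfPlane hiding I
open scoped Real Topology Manifold

noncomputable section

local notation "Δ" => ModularForm.discriminant
local notation "𝕢" => Periodic.qParam

theorem prod_expFn {X : Type*} (s : Finset X) (c : X → ℝ) (z : ℍ) :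
    ∏ x ∈ s, expFn (c x) z = expFn (∑ x ∈ s, c x) z := by
  classical
  induction s using Finset.induction_on with
  | empty => simp [expFn_zero]
  | insert a s ha ih => rw [Finset.prod_insert ha, Finset.sum_insert ha, expFn_add, ih]

theorem expFn_pow (c : ℝ) (n : ℕ) (z : ℍ) : expFn c z ^ n = expFn (n * c) z := by
  induction n with
  | zero => simp [expFn_zero]
  | succ n ih =>
    rw [pow_succ, ih, ← expFn_add]
    congr 1
    push_cast
    ring

/-- `expFn r` has a nonzero limit at `i∞` only for `r = 0`. -/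
theorem eq_zero_of_tendsto_expFn {r : ℝ} {l : ℂ} (hl : l ≠ 0)
    (h : Tendsto (fun z : ℍ => expFn r z) atImInfty (𝓝 l)) : r = 0 := by
  rcases lt_trichotomy r 0 with hr | hr | hr
  · exfalso
    have h1 : Tendsto (fun z : ℍ => expFn (-r) z) atImInfty (𝓝 0) :=
      isZeroAtImInfty_expFn (by linarith)
    have h2 : Tendsto (fun z : ℍ => expFn (-r) z * expFn r z) atImInfty (𝓝 (0 * l)) := h1.mul h
    have h3 : (fun z : ℍ => expFn (-r) z * expFn r z) = fun _ => (1 : ℂ) := by
      funext z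
      exact expFn_neg_mul r z
    rw [h3, zero_mul] at h2
    have := tendsto_nhds_unique h2 tendsto_const_nhds
    exact zero_ne_one this
  · exact hr
  · exfalso
    have h1 : Tendsto (fun z : ℍ => expFn r z) atImInfty (𝓝 0) := isZeroAtImInfty_expFn hr
    exact hl (tendsto_nhds_unique h h1)

/-- the factor `Δ / q` of the discriminant -/
theorem exists_delta_factor :
    ∃ P : ℍ → ℂ, (∀ z, Δ z = expFn 1 z * P z) ∧ Tendsto P atImInfty (𝓝 1) :=
  ⟨fun z => ∏' n, (1 - ModularForm.eta_q n z) ^ 24,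
    fun z => by rw [expFn_one]; exact ModularForm.discriminant_eq_q_prod z,
    ModularForm.tendsto_atImInfty_tprod_one_sub_eta_q_pow⟩

/-- Order comparison at `i∞`. -/
theorem wt_eq_of_limit {X : Type*} [Fintype X] [DecidableEq X]
    (F : ℍ → Matrix X X ℂ) (U : Matrix X X ℂ) (lam : X → ℝ) (L : Matrix X X ℂ) (w : ℕ) (c : ℂ)
    (hU : U.det ≠ 0) (hc : c ≠ 0)
    (hdet : ∀ z, (F z).det ^ 12 = c * Δ z ^ w)
    (hlim : ∀ i x, Tendsto (fun z : ℍ => (F z * U) i x * expFn (-(lam x)) z) atImInfty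
      (𝓝 (L i x)))
    (hL : L.det ≠ 0) :
    (w : ℝ) = 12 * ∑ x, lam x := by
  obtain ⟨P, hP, hPlim⟩ := exists_delta_factor
  set S : ℝ := ∑ x, lam x with hS
  set H : ℍ → Matrix X X ℂ := fun z => F z * U * Matrix.diagonal (fun x => expFn (-(lam x)) z)
    with hH
  have hHentry : ∀ z i x, H z i x = (F z * U) i x * expFn (-(lam x)) z := by
    intro z i x
    rw [hH]
    exact Matrix.mul_diagonal _ _ _ _
  have hHlim : Tendsto H atImInfty (𝓝 L) := by
    refine tendsto_pi_nhds.2 fun i => tendsto_pi_nhds.2 fun x => ?_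
    refine (hlim i x).congr fun z => ?_
    rw [hHentry]
  have hdetlim : Tendsto (fun z => (H z).det) atImInfty (𝓝 L.det) :=
    ((continuous_id : Continuous fun M : Matrix X X ℂ => M).matrix_det.tendsto L).comp hHlim
  have hdetH : ∀ z, (H z).det = (F z).det * U.det * expFn (-S) z := by
    intro z
    rw [hH, Matrix.det_mul, Matrix.det_mul, Matrix.det_diagonal, prod_expFn, hS,
      Finset.sum_neg_distrib]
  set r : ℝ := (w : ℝ) - 12 * S with hr
  have hkey : ∀ z, (H z).det ^ 12 = expFn r z * (c * U.det ^ 12 * P z ^ w) := by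
    intro z
    rw [hdetH, mul_pow, mul_pow, hdet, hP, mul_pow, expFn_pow, expFn_pow]
    have h1 : expFn r z = expFn ((w : ℕ) * 1) z * expFn ((12 : ℕ) * -S) z := by
      rw [← expFn_add]
      congr 1
      rw [hr]
      push_cast
      ring
    rw [h1]
    ring
  have hlim12 : Tendsto (fun z => (H z).det ^ 12) atImInfty (𝓝 (L.det ^ 12)) := hdetlim.pow 12
  have hden : Tendsto (fun z => c * U.det ^ 12 * P z ^ w) atImInfty
      (𝓝 (c * U.det ^ 12 * 1 ^ w)) := (hPlim.pow w).const_mul _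
  rw [one_pow, mul_one] at hden
  have hden0 : c * U.det ^ 12 ≠ 0 := mul_ne_zero hc (pow_ne_zero _ hU)
  have hPne : ∀ z, P z ≠ 0 := by
    intro z hz
    have := hP z
    rw [hz, mul_zero] at this
    exact ModularForm.discriminant_ne_zero z this
  have hquot : Tendsto (fun z => expFn r z) atImInfty (𝓝 (L.det ^ 12 / (c * U.det ^ 12))) := by
    have h1 := hlim12.div hden hden0
    refine h1.congr fun z => ?_
    show (H z).det ^ 12 / (c * U.det ^ 12 * P z ^ w) = expFn r z
    rw [hkey]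
    have : c * U.det ^ 12 * P z ^ w ≠ 0 := mul_ne_zero hden0 (pow_ne_zero _ (hPne z))
    rw [mul_div_assoc, div_self this, mul_one]
  have hr0 : r = 0 :=
    eq_zero_of_tendsto_expFn (div_ne_zero (pow_ne_zero _ hL) hden0) hquot
  rw [hr] at hr0
  linarith

/-- Order comparison at `i∞`, rational form. -/
theorem wt_eq_six_mul {X : Type*} [Fintype X] [DecidableEq X]
    (F : ℍ → Matrix X X ℂ) (U : Matrix X X ℂ) (e wd : X → ℕ) (L : Matrix X X ℂ) (w : ℕ) (c : ℂ)
    (n : ℕ) (hU : U.det ≠ 0) (hc : c ≠ 0)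
    (hdet : ∀ z, (F z).det ^ 12 = c * Δ z ^ w)
    (hlim : ∀ i x, Tendsto (fun z : ℍ => (F z * U) i x * expFn (-((e x : ℝ) / (wd x : ℝ))) z)
      atImInfty (𝓝 (L i x)))
    (hL : L.det ≠ 0)
    (hsum : ∑ x, ((e x : ℚ) / (wd x : ℚ)) = ((Fintype.card X : ℚ) - (n : ℚ)) / 2) :
    (w : ℤ) = 6 * ((Fintype.card X : ℤ) - (n : ℤ)) := by
  have h1 := wt_eq_of_limit F U (fun x => (e x : ℝ) / (wd x : ℝ)) L w c hU hc hdet hlim hL
  have h2 : (∑ x, ((e x : ℝ) / (wd x : ℝ))) = ((Fintype.card X : ℝ) - (n : ℝ)) / 2 := by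
    have := congrArg (fun q : ℚ => (q : ℝ)) hsum
    push_cast at this
    exact this
  rw [h2] at h1
  have h3 : ((w : ℤ) : ℝ) = ((6 * ((Fintype.card X : ℤ) - (n : ℤ)) : ℤ) : ℝ) := by
    push_cast
    linarith
  exact_mod_cast h3

end

end CuspOrder

end Fermat.Agent.S20
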