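import Fermat.Agent.S20.Dual
import Fermat.Agent.S20.CuspOrder

set_option autoImplicit false

/-! The dual matrix vanishes at `i∞` as soon as the basis matrix has a cusp normal form
`F U diag(exp(-2πi λ_x z)) → L` with `L` invertible and `λ_x < 1`. -/

namespace Fermat.Agent.S20

open Complex Filter Function
open UpperHalfPlane hiding I
open scoped Real Topology Manifold

noncomputable section

local notation "Δ" => ModularForm.discriminant

variable {N : ℕ} [NeZero N] {B : FreeBasis N}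

theorem FreeBasis.dualMat_isZeroAtImInfty (hdet : ∀ z, (B.mat z).det ≠ 0)
    (U : Matrix (Q N) (Q N) ℂ) (lam : Q N → ℝ) (L : Matrix (Q N) (Q N) ℂ)
    (hU : U.det ≠ 0) (hL : L.det ≠ 0) (hlam : ∀ x, lam x < 1)
    (hlim : ∀ i x, Tendsto (fun z : ℍ => (B.mat z * U) i x * expFn (-(lam x)) z) atImInfty
      (𝓝 (L i x))) (i q : Q N) :
    IsZeroAtImInfty (fun z => B.dualMat z i q) := by
  obtain ⟨P, hP, hPlim⟩ := CuspOrder.exists_delta_factor
  set D : ℍ → Matrix (Q N) (Q N) ℂ := fun z => Matrix.diagonal (fun x => expFn (-(lam x)) z)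
    with hD
  set H : ℍ → Matrix (Q N) (Q N) ℂ := fun z => B.mat z * U * D z with hH
  have hHentry : ∀ z i x, H z i x = (B.mat z * U) i x * expFn (-(lam x)) z := by
    intro z i x
    rw [hH, hD]
    exact Matrix.mul_diagonal _ _ _ _
  have hHlim : Tendsto H atImInfty (𝓝 L) := by
    refine tendsto_pi_nhds.2 fun i => tendsto_pi_nhds.2 fun x => ?_
    refine (hlim i x).congr fun z => ?_
    rw [hHentry]
  have hinvlim : Tendsto (fun z => (H z)⁻¹) atImInfty (𝓝 L⁻¹) := by
    have hc : ContinuousAt Ring.inverse L.det :=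
      NormedRing.inverse_continuousAt (Units.mk0 L.det hL)
    exact (continuousAt_matrix_inv L hc).tendsto.comp hHlim
  have hDdet : ∀ z, (D z).det ≠ 0 := by
    intro z
    rw [hD, Matrix.det_diagonal]
    exact Finset.prod_ne_zero_iff.mpr fun x _ => expFn_ne_zero _ z
  have hHdet : ∀ z, (H z).det ≠ 0 := by
    intro z
    rw [hH, Matrix.det_mul, Matrix.det_mul]
    exact mul_ne_zero (mul_ne_zero (hdet z) hU) (hDdet z)
  have hinv : ∀ z, (B.mat z)⁻¹ = U * D z * (H z)⁻¹ := by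
    intro z
    apply Matrix.inv_eq_right_inv
    rw [← Matrix.mul_assoc, ← Matrix.mul_assoc]
    exact Matrix.mul_nonsing_inv _ (isUnit_iff_ne_zero.mpr (hHdet z))
  have hentry : ∀ z, B.dualMat z i q =
      ∑ x, U q x * ((expFn (1 - lam x) z * P z) * (H z)⁻¹ x i) := by
    intro z
    unfold FreeBasis.dualMat
    rw [hinv z, Matrix.mul_apply, Finset.mul_sum]
    refine Finset.sum_congr rfl fun x _ => ?_
    have h1 : (U * D z) q x = U q x * expFn (-(lam x)) z := by
      rw [hD]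
      exact Matrix.mul_diagonal _ _ _ _
    have h2 : expFn (1 - lam x) z = expFn 1 z * expFn (-(lam x)) z := by
      rw [← expFn_add]
      congr 1
    rw [h1, hP z, h2]
    ring
  have hterm : ∀ x, Tendsto (fun z => U q x * ((expFn (1 - lam x) z * P z) * (H z)⁻¹ x i))
      atImInfty (𝓝 (U q x * ((0 * 1) * L⁻¹ x i))) := by
    intro x
    have h1 : Tendsto (fun z : ℍ => expFn (1 - lam x) z) atImInfty (𝓝 0) :=
      isZeroAtImInfty_expFn (by linarith [hlam x])
    have h2 : Tendsto (fun z => (H z)⁻¹ x i) atImInfty (𝓝 (L⁻¹ x i)) :=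
      tendsto_pi_nhds.1 (tendsto_pi_nhds.1 hinvlim x) i
    exact ((h1.mul hPlim).mul h2).const_mul _
  have hsum : Tendsto (fun z => ∑ x, U q x * ((expFn (1 - lam x) z * P z) * (H z)⁻¹ x i))
      atImInfty (𝓝 (∑ x, U q x * ((0 * 1) * L⁻¹ x i))) :=
    tendsto_finsetSum _ fun x _ => hterm x
  have h0 : ∑ x, U q x * ((0 * 1) * L⁻¹ x i) = 0 := by simp
  rw [h0] at hsum
  show Tendsto _ atImInfty (𝓝 0)
  exact hsum.congr fun z => (hentry z).symm

/-- `d i ≤ 10`, from the cusp normal form. -/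
theorem FreeBasis.d_le_ten_of_cusp (hdet : ∀ z, (B.mat z).det ≠ 0)
    (U : Matrix (Q N) (Q N) ℂ) (lam : Q N → ℝ) (L : Matrix (Q N) (Q N) ℂ)
    (hU : U.det ≠ 0) (hL : L.det ≠ 0) (hlam : ∀ x, lam x < 1)
    (hlim : ∀ i x, Tendsto (fun z : ℍ => (B.mat z * U) i x * expFn (-(lam x)) z) atImInfty
      (𝓝 (L i x))) (i : Q N) : B.d i ≤ 10 :=
  FreeBasis.d_le_ten hdet (FreeBasis.dualMat_isZeroAtImInfty hdet U lam L hU hL hlam hlim) i

/-- **L8**: `dim S₂(Γ₀(N)) = #{i | d i = 10}`, from the cusp normal form. -/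
theorem FreeBasis.finrank_S2_of_cusp (hdet : ∀ z, (B.mat z).det ≠ 0)
    (U : Matrix (Q N) (Q N) ℂ) (lam : Q N → ℝ) (L : Matrix (Q N) (Q N) ℂ)
    (hU : U.det ≠ 0) (hL : L.det ≠ 0) (hlam : ∀ x, lam x < 1)
    (hlim : ∀ i x, Tendsto (fun z : ℍ => (B.mat z * U) i x * expFn (-(lam x)) z) atImInfty
      (𝓝 (L i x))) :
    Module.finrank ℂ (SkSub N 2) = Nat.card {i : Q N // B.d i = 10} :=
  FreeBasis.finrank_S2 hdet (FreeBasis.dualMat_isZeroAtImInfty hdet U lam L hU hL hlam hlim)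

end

end Fermat.Agent.S20
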