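import Fermat.Agent.S20.CuspMatrix
import Fermat.Agent.S20.DualCusp

set_option autoImplicit false

/-!
# S20: unconditional forms of the cusp/duality statements

Wiring of `CuspMatrix.lean` (cusp normal form, nonvanishing of the determinant) into the
hypotheses of `Dual.lean` / `DualCusp.lean`.
-/

namespace Fermat.Agent.S20

open UpperHalfPlane
open scoped MatrixGroups

noncomputable section

variable {N : ℕ} [NeZero N]

/-- The dual matrix `Δ • (B.mat z)⁻¹ᵀ` vanishes at `i∞` (unconditional). -/
theorem FreeBasis.dualMat_zeroAtImInfty (B : FreeBasis N) (i q : Q N) :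
    IsZeroAtImInfty (fun z => B.dualMat z i q) := by
  obtain ⟨U, e, w, L, hU, hL, hlt, hlim, -⟩ := B.exists_cusp_normal_form
  refine FreeBasis.dualMat_isZeroAtImInfty B.det_mat_ne_zero U
    (fun x => (e x : ℝ) / (w x : ℝ)) L hU hL ?_ hlim i q
  intro x
  have hw : (0 : ℝ) < (w x : ℝ) := by
    exact_mod_cast Nat.lt_of_le_of_lt (Nat.zero_le _) (hlt x)
  rw [div_lt_one hw]
  exact_mod_cast hlt x

/-- All generators of a free basis have weight at most `10` (unconditional). -/
theorem FreeBasis.d_le_ten_final (B : FreeBasis N) (i : Q N) : B.d i ≤ 10 :=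
  FreeBasis.d_le_ten B.det_mat_ne_zero B.dualMat_zeroAtImInfty i

/-- `dim S₂(Γ₀(N)) = #{i | d i = 10}` (unconditional). -/
theorem FreeBasis.finrank_S2_final (B : FreeBasis N) :
    Module.finrank ℂ (SkSub N 2) = Nat.card {i : Q N // B.d i = 10} :=
  FreeBasis.finrank_S2 B.det_mat_ne_zero B.dualMat_zeroAtImInfty

end

end Fermat.Agent.S20
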