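import Fermat.Agent.S20.P1Model

/-! Lifting primitive vectors mod `N` to first columns of elements of `SL(2, ℤ)`. -/

set_option autoImplicit false

open Matrix ModularGroup CongruenceSubgroup
open scoped MatrixGroups

namespace Fermat.Agent.S20

/-- If `gcd(a, c, N) = 1` and `a ≠ 0`, some `c + t N` is coprime to `a`. -/
theorem exists_isCoprime_add_mul (a c N : ℤ) (ha : a ≠ 0)
    (h : ∃ x y z : ℤ, x * a + y * c + z * N = 1) : ∃ t : ℤ, IsCoprime a (c + t * N) := by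
  classical
  obtain ⟨x, y, z, hxyz⟩ := h
  set s : Finset ℕ := a.natAbs.primeFactors.filter (fun p => ¬ (p : ℤ) ∣ c) with hs
  set t : ℤ := ∏ p ∈ s, (p : ℤ) with ht
  refine ⟨t, ?_⟩
  rw [Int.isCoprime_iff_gcd_eq_one, Int.gcd_eq_natAbs]
  apply Nat.Coprime.symm
  apply Nat.Coprime.symm
  refine Nat.coprime_of_dvd ?_
  intro p hp hpa hpc
  have hpa' : (p : ℤ) ∣ a := Int.natCast_dvd.mpr hpa
  have hpc' : (p : ℤ) ∣ c + t * N := Int.natCast_dvd.mpr hpc
  have hpZ : Prime (p : ℤ) := Nat.prime_iff_prime_int.mp hp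
  by_cases hc : (p : ℤ) ∣ c
  · -- then p does not divide N nor t
    have hN : ¬ (p : ℤ) ∣ N := by
      intro hN
      have : (p : ℤ) ∣ 1 := by
        rw [← hxyz]
        exact dvd_add (dvd_add (Dvd.dvd.mul_left hpa' x) (Dvd.dvd.mul_left hc y))
          (Dvd.dvd.mul_left hN z)
      exact hpZ.not_dvd_one this
    have htp : ¬ (p : ℤ) ∣ t := by
      intro hpt
      rw [ht, Prime.dvd_finsetProd_iff hpZ] at hpt
      obtain ⟨q, hq, hpq⟩ := hpt
      have hqp : q.Prime := (Nat.prime_of_mem_primeFactors (Finset.mem_filter.mp hq).1)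
      have : p = q := by
        have h1 : p ∣ q := Int.natCast_dvd_natCast.mp hpq
        exact (Nat.prime_dvd_prime_iff_eq hp hqp).mp h1
      subst this
      exact (Finset.mem_filter.mp hq).2 hc
    have : (p : ℤ) ∣ t * N := by
      have := dvd_sub hpc' hc
      simpa using this
    rcases hpZ.dvd_or_dvd this with h1 | h1
    · exact htp h1
    · exact hN h1
  · have hps : p ∈ s := by
      rw [hs, Finset.mem_filter]
      refine ⟨Nat.mem_primeFactors.mpr ⟨hp, hpa, ?_⟩, hc⟩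
      simpa using ha
    have hpt : (p : ℤ) ∣ t := by
      rw [ht]
      exact Finset.dvd_prod_of_mem (fun q : ℕ => (q : ℤ)) hps
    apply hc
    have := dvd_sub hpc' (Dvd.dvd.mul_right hpt N)
    simpa using this

/-- Every primitive vector mod `N` is the first column mod `N` of an element of `SL(2, ℤ)`. -/
theorem exists_SL2_col (N : ℕ) [NeZero N] (a c : ZMod N)
    (h : ∃ x y : ZMod N, x * a + y * c = 1) :
    ∃ g : SL(2, ℤ), ((g 0 0 : ℤ) : ZMod N) = a ∧ ((g 1 0 : ℤ) : ZMod N) = c := by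
  obtain ⟨x, y, hxy⟩ := h
  -- integer lifts
  obtain ⟨a0, rfl⟩ := ZMod.intCast_surjective a
  obtain ⟨c0, rfl⟩ := ZMod.intCast_surjective c
  obtain ⟨x0, rfl⟩ := ZMod.intCast_surjective x
  obtain ⟨y0, rfl⟩ := ZMod.intCast_surjective y
  have h1 : ((x0 * a0 + y0 * c0 - 1 : ℤ) : ZMod N) = 0 := by
    push_cast
    rw [hxy, sub_self]
  rw [ZMod.intCast_zmod_eq_zero_iff_dvd] at h1
  obtain ⟨z, hz⟩ := h1
  -- make the first entry nonzero
  obtain ⟨a1, ha1, ha1N, hbez⟩ : ∃ a1 : ℤ, a1 ≠ 0 ∧ ((a1 : ℤ) : ZMod N) = ((a0 : ℤ) : ZMod N) ∧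
      ∃ x y z : ℤ, x * a1 + y * c0 + z * (N : ℤ) = 1 := by
    by_cases ha0 : a0 = 0
    · refine ⟨(N : ℤ), by exact_mod_cast NeZero.ne N, by simp [ha0], x0, y0, -z - x0, ?_⟩
      rw [ha0] at hz
      linear_combination hz
    · exact ⟨a0, ha0, rfl, x0, y0, -z, by linear_combination hz⟩
  obtain ⟨t, ht⟩ := exists_isCoprime_add_mul a1 c0 N ha1 hbez
  obtain ⟨u, v, huv⟩ := ht
  -- u * a1 + v * (c0 + t N) = 1 : matrix [[a1, -v], [c0 + t N, u]]
  refine ⟨⟨!![a1, -v; c0 + t * N, u], ?_⟩, ?_, ?_⟩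
  · rw [Matrix.det_fin_two_of]
    linear_combination huv
  · simpa using ha1N
  · simp

end Fermat.Agent.S20
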