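import Mathlib
import Fermat.Prelude.Def_ModularCurve_GenusNumerics
import Fermat.Agent.S20.Lift

/-! Counting the orbits of `(a, c) ↦ (a + c, c)` on the projective line over `ZMod N`
(arithmetic core, model independent): the number of orbits is `cuspCount N`. -/

set_option autoImplicit false
set_option linter.unusedSectionVars false
set_option linter.style.haveILetI false

namespace Fermat.Agent.S20

namespace Cusps

variable {N : ℕ}

/-- A pair `(a, c)` over `ZMod N` is primitive. -/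
def IsPrim (v : ZMod N × ZMod N) : Prop := ∃ x y : ZMod N, x * v.1 + y * v.2 = 1

/-- Two pairs define the same cusp: they differ by a unit and a power of `(a, c) ↦ (a + c, c)`. -/
def Rel (v w : ZMod N × ZMod N) : Prop :=
  ∃ (u : (ZMod N)ˣ) (k : ZMod N), w.1 = u * (v.1 + k * v.2) ∧ w.2 = u * v.2

theorem Rel.refl (v : ZMod N × ZMod N) : Rel v v := ⟨1, 0, by simp, by simp⟩

theorem Rel.symm {v w : ZMod N × ZMod N} (h : Rel v w) : Rel w v := by
  obtain ⟨u, k, h1, h2⟩ := h
  refine ⟨u⁻¹, -k, ?_, ?_⟩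
  · rw [h1, h2]
    have : ((u⁻¹ : (ZMod N)ˣ) : ZMod N) * (u : ZMod N) = 1 := by simp
    linear_combination (-(v.1 + k * v.2) + k * v.2) * this
  · rw [h2, ← mul_assoc]
    simp

theorem Rel.trans {v w z : ZMod N × ZMod N} (h : Rel v w) (h' : Rel w z) : Rel v z := by
  obtain ⟨u, k, h1, h2⟩ := h
  obtain ⟨u', k', h1', h2'⟩ := h'
  refine ⟨u' * u, k + k', ?_, ?_⟩
  · rw [h1', h1, h2]
    push_cast
    ring
  · rw [h2', h2]
    push_cast
    ring

theorem Rel.isPrim {v w : ZMod N × ZMod N} (h : Rel v w) (hv : IsPrim v) : IsPrim w := by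
  obtain ⟨u, k, h1, h2⟩ := h
  obtain ⟨x, y, hxy⟩ := hv
  refine ⟨x * ((u⁻¹ : (ZMod N)ˣ) : ZMod N), (y - x * k) * ((u⁻¹ : (ZMod N)ˣ) : ZMod N), ?_⟩
  rw [h1, h2]
  have : ((u⁻¹ : (ZMod N)ˣ) : ZMod N) * (u : ZMod N) = 1 := by simp
  linear_combination hxy + (x * (v.1 + k * v.2) + (y - x * k) * v.2) * this

section Bridge

variable [NeZero N]

theorem cast_eq_natCast_val {m : ℕ} (hm : m ∣ N) (a : ZMod N) :
    ZMod.castHom hm (ZMod m) a = ((a.val : ℕ) : ZMod m) := by
  rw [ZMod.castHom_apply, ZMod.natCast_val]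

/-- `IsPrim (a, d)` for a divisor `d` of `N` means that `a` is prime to `d`. -/
theorem coprime_val_of_isPrim {d : ℕ} (hd : d ∣ N) {a : ZMod N}
    (h : IsPrim (a, (d : ZMod N))) : Nat.Coprime a.val d := by
  obtain ⟨x, y, hxy⟩ := h
  have h1 := congrArg (ZMod.castHom hd (ZMod d)) hxy
  simp only [map_add, map_mul, map_natCast, map_one] at h1
  rw [ZMod.natCast_self, mul_zero, add_zero] at h1
  have hu : IsUnit (ZMod.castHom hd (ZMod d) a) :=
    IsUnit.of_mul_eq_one _ (by rw [mul_comm]; exact h1)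
  rw [cast_eq_natCast_val, ZMod.isUnit_iff_coprime] at hu
  exact hu

theorem isPrim_of_coprime {d A : ℕ} (h : Nat.Coprime A d) :
    IsPrim (((A : ℕ) : ZMod N), (d : ZMod N)) := by
  obtain ⟨x, y, hxy⟩ := Nat.isCoprime_iff_coprime.mpr h
  refine ⟨(x : ZMod N), (y : ZMod N), ?_⟩
  have := congrArg (Int.cast : ℤ → ZMod N) hxy
  push_cast at this
  exact this

/-- the divisor in a normal form is determined by the class -/
theorem dvd_of_rel_natCast {d d' : ℕ} (hd : d ∣ N) {a a' : ZMod N}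
    (h : Rel (a, (d : ZMod N)) (a', (d' : ZMod N))) : d ∣ d' := by
  obtain ⟨u, k, -, h2⟩ := h
  have h1 := congrArg (ZMod.castHom hd (ZMod d)) h2
  simp only [map_mul, map_natCast] at h1
  rw [ZMod.natCast_self, mul_zero] at h1
  exact (ZMod.natCast_eq_zero_iff d' d).mp h1

theorem eq_of_rel_natCast {d d' : ℕ} (hd : d ∣ N) (hd' : d' ∣ N) {a a' : ZMod N}
    (h : Rel (a, (d : ZMod N)) (a', (d' : ZMod N))) : d = d' :=
  Nat.dvd_antisymm (dvd_of_rel_natCast hd h) (dvd_of_rel_natCast hd' h.symm)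

/-- an element of `ZMod N` killing the divisor `d` is a multiple of `N / d` -/
theorem dvd_val_of_mul_natCast_eq_zero {d : ℕ} (hd : d ∣ N) {x : ZMod N}
    (h : x * (d : ZMod N) = 0) : N / d ∣ x.val := by
  have hN : N ≠ 0 := NeZero.ne N
  have hd0 : 0 < d := Nat.pos_of_dvd_of_pos hd (Nat.pos_of_ne_zero hN)
  have h1 : ((x.val * d : ℕ) : ZMod N) = 0 := by
    push_cast
    rw [ZMod.natCast_zmod_val]
    exact h
  rw [ZMod.natCast_eq_zero_iff] at h1
  obtain ⟨M, hM⟩ := hd
  have hMd : N / d = M := by rw [hM, Nat.mul_div_cancel_left _ hd0]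
  rw [hMd]
  have h2 : M * d ∣ x.val * d := by
    have : M * d = N := by rw [hM, mul_comm]
    rw [this]
    exact h1
  exact Nat.dvd_of_mul_dvd_mul_right hd0 h2

/-- (3, forward) two normal forms with the same divisor in the same class are congruent modulo
`gcd d (N / d)`. -/
theorem modEq_of_rel {d : ℕ} (hd : d ∣ N) {a a' : ZMod N}
    (h : Rel (a, (d : ZMod N)) (a', (d : ZMod N))) :
    a.val ≡ a'.val [MOD Nat.gcd d (N / d)] := by
  obtain ⟨u, k, h1, h2⟩ := h
  simp only at h1 h2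
  set g := Nat.gcd d (N / d) with hg
  have hgd : g ∣ d := Nat.gcd_dvd_left _ _
  have hgM : g ∣ N / d := Nat.gcd_dvd_right _ _
  have hgN : g ∣ N := hgd.trans hd
  -- `u ≡ 1` modulo `N / d`
  have hx : ((u : ZMod N) - 1) * (d : ZMod N) = 0 := by
    rw [sub_mul, one_mul, ← h2, sub_self]
  have hx' : g ∣ ((u : ZMod N) - 1).val := hgM.trans (dvd_val_of_mul_natCast_eq_zero hd hx)
  have hφu : ZMod.castHom hgN (ZMod g) ((u : ZMod N) - 1) = 0 := by
    rw [cast_eq_natCast_val, ZMod.natCast_eq_zero_iff]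
    exact hx'
  rw [map_sub, map_one, sub_eq_zero] at hφu
  have hφd : ZMod.castHom hgN (ZMod g) (d : ZMod N) = 0 := by
    rw [map_natCast, ZMod.natCast_eq_zero_iff]
    exact hgd
  have h3 := congrArg (ZMod.castHom hgN (ZMod g)) h1
  simp only [map_mul, map_add] at h3
  rw [hφu, hφd, mul_zero, add_zero, one_mul, cast_eq_natCast_val, cast_eq_natCast_val] at h3
  exact ((ZMod.natCast_eq_natCast_iff _ _ _).mp h3).symm

/-- (3, backward) two normal forms with the same divisor which are congruent modulo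
`gcd d (N / d)` are in the same class. -/
theorem rel_of_modEq {d : ℕ} (hd : d ∣ N) {a a' : ZMod N}
    (ha : IsPrim (a, (d : ZMod N))) (ha' : IsPrim (a', (d : ZMod N)))
    (h : a.val ≡ a'.val [MOD Nat.gcd d (N / d)]) :
    Rel (a, (d : ZMod N)) (a', (d : ZMod N)) := by
  have hN : N ≠ 0 := NeZero.ne N
  have hd0 : 0 < d := Nat.pos_of_dvd_of_pos hd (Nat.pos_of_ne_zero hN)
  haveI : NeZero d := ⟨hd0.ne'⟩
  have hA : Nat.Coprime a.val d := coprime_val_of_isPrim hd ha
  have hA' : Nat.Coprime a'.val d := coprime_val_of_isPrim hd ha'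
  set A := a.val with hAdef
  set A' := a'.val with hA'def
  set M := N / d with hMdef
  have hNM : M * d = N := Nat.div_mul_cancel hd
  set g := Nat.gcd d M with hg
  have hgd : g ∣ d := Nat.gcd_dvd_left _ _
  -- an inverse of `A` modulo `d`
  set w : ℕ := (((ZMod.unitOfCoprime A hA)⁻¹ : (ZMod d)ˣ) : ZMod d).val with hw
  have hwcop : Nat.Coprime w d := ZMod.val_coe_unit_coprime _
  have hAw : A * w ≡ 1 [MOD d] := by
    rw [← ZMod.natCast_eq_natCast_iff]
    push_cast
    rw [hw, ZMod.natCast_zmod_val]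
    have : ((ZMod.unitOfCoprime A hA : (ZMod d)ˣ) : ZMod d) = (A : ZMod d) :=
      ZMod.coe_unitOfCoprime A hA
    rw [← this, ← Units.val_mul, mul_inv_cancel, Units.val_one]
  -- the unit `U`
  have hcompat : A' * w ≡ 1 [MOD Nat.gcd d M] := by
    have h1 : A' * w ≡ A * w [MOD g] := (h.symm).mul_right w
    exact h1.trans (hAw.of_dvd hgd)
  obtain ⟨U, hU1, hU2⟩ := Nat.chineseRemainder' hcompat
  have hUd : Nat.Coprime U d := by
    have h1 : Nat.gcd U d = Nat.gcd (A' * w) d := hU1.gcd_eq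
    have h2 : Nat.Coprime (A' * w) d := Nat.Coprime.mul_left hA' hwcop
    rw [Nat.Coprime, h1]
    exact h2
  have hUM : Nat.Coprime U M := by
    have h1 : Nat.gcd U M = Nat.gcd 1 M := hU2.gcd_eq
    rw [Nat.Coprime, h1]
    exact Nat.gcd_one_left M
  have hUN : Nat.Coprime U N := by
    rw [← hNM]
    exact Nat.Coprime.mul_right hUM hUd
  set u : (ZMod N)ˣ := ZMod.unitOfCoprime U hUN with hu
  have hucoe : (u : ZMod N) = (U : ZMod N) := ZMod.coe_unitOfCoprime U hUN
  -- `u * d = d`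
  have hud : (d : ZMod N) = (u : ZMod N) * (d : ZMod N) := by
    have h1 : U * d ≡ 1 * d [MOD M * d] := Nat.ModEq.mul_right' d hU2
    rw [hNM, ← ZMod.natCast_eq_natCast_iff] at h1
    push_cast at h1
    rw [hucoe, h1, one_mul]
  -- `a' = u * a + t * d`
  have hUA : U * A ≡ A' [MOD d] := by
    have h1 : U * A ≡ A' * w * A [MOD d] := hU1.mul_right A
    have h2 : A' * w * A = A' * (A * w) := by ring
    rw [h2] at h1
    have h3 : A' * (A * w) ≡ A' * 1 [MOD d] := hAw.mul_left A'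
    rw [mul_one] at h3
    exact h1.trans h3
  obtain ⟨t, ht⟩ := (Nat.modEq_iff_dvd.mp hUA)
  have hcast : (a' : ZMod N) = (u : ZMod N) * a + (t : ZMod N) * (d : ZMod N) := by
    have h1 : ((A' : ℤ) : ZMod N) = ((U * A : ℕ) : ℤ) + (d : ℤ) * t := by
      have : (A' : ℤ) = ((U * A : ℕ) : ℤ) + (d : ℤ) * t := by linarith
      rw [this]
      push_cast
      ring
    push_cast at h1
    rw [hA'def, hAdef, ZMod.natCast_zmod_val, ZMod.natCast_zmod_val] at h1
    rw [h1, hucoe]
    ring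
  refine ⟨u, ((u⁻¹ : (ZMod N)ˣ) : ZMod N) * (t : ZMod N), ?_, hud⟩
  show a' = (u : ZMod N) * (a + ((u⁻¹ : (ZMod N)ˣ) : ZMod N) * (t : ZMod N) * (d : ZMod N))
  have hinv : (u : ZMod N) * ((u⁻¹ : (ZMod N)ˣ) : ZMod N) = 1 := by simp
  rw [hcast]
  linear_combination (-(t : ZMod N) * (d : ZMod N)) * hinv

/-- (1) every pair is in the class of a normal form `(a, d)` with `d ∣ N`. -/
theorem exists_normalForm (v : ZMod N × ZMod N) :
    ∃ (d : ℕ) (a : ZMod N), d ∣ N ∧ Rel v (a, (d : ZMod N)) := by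
  obtain ⟨d, hd, u0, hu, hvu⟩ := ZMod.eq_unit_mul_divisor v.2
  obtain ⟨u, rfl⟩ := hu
  refine ⟨d, ((u⁻¹ : (ZMod N)ˣ) : ZMod N) * v.1, hd, u⁻¹, 0, by simp, ?_⟩
  show (d : ZMod N) = ((u⁻¹ : (ZMod N)ˣ) : ZMod N) * v.2
  rw [hvu, ← mul_assoc, ← Units.val_mul, inv_mul_cancel, Units.val_one, one_mul]

/-- (4) every admissible invariant occurs. -/
theorem exists_isPrim_of_coprime {d : ℕ} (hd : d ∣ N) {j : ℕ}
    (hj : Nat.Coprime j (Nat.gcd d (N / d))) :
    ∃ a : ZMod N, IsPrim (a, (d : ZMod N)) ∧ a.val ≡ j [MOD Nat.gcd d (N / d)] := by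
  have hN : N ≠ 0 := NeZero.ne N
  have hd0 : 0 < d := Nat.pos_of_dvd_of_pos hd (Nat.pos_of_ne_zero hN)
  haveI : NeZero d := ⟨hd0.ne'⟩
  set g := Nat.gcd d (N / d) with hg
  have hgd : g ∣ d := Nat.gcd_dvd_left _ _
  have hgN : g ∣ N := hgd.trans hd
  obtain ⟨y, hy⟩ := ZMod.unitsMap_surjective hgd (ZMod.unitOfCoprime j hj)
  set A : ℕ := (y : ZMod d).val with hA
  have hAd : Nat.Coprime A d := ZMod.val_coe_unit_coprime y
  have hAj : A ≡ j [MOD g] := by
    rw [← ZMod.natCast_eq_natCast_iff]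
    have h1 := congrArg (fun z : (ZMod g)ˣ => (z : ZMod g)) hy
    simp only [ZMod.unitsMap_val, ZMod.coe_unitOfCoprime] at h1
    rw [← h1, hA, ZMod.natCast_val]
  refine ⟨(A : ZMod N), isPrim_of_coprime hAd, ?_⟩
  rw [ZMod.val_natCast]
  exact (Nat.mod_modEq A N).of_dvd hgN |>.trans hAj

end Bridge

section Count

variable (N) [NeZero N]

/-- the modulus of the second invariant -/
def gg (d : ℕ) : ℕ := Nat.gcd d (N / d)

theorem gg_pos {d : ℕ} (hd : d ∣ N) : 0 < gg N d := by
  have hN : N ≠ 0 := NeZero.ne N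
  have hd0 : 0 < d := Nat.pos_of_dvd_of_pos hd (Nat.pos_of_ne_zero hN)
  exact Nat.gcd_pos_of_pos_left _ hd0

/-- the finite set of invariants -/
def invSet : Finset (Σ _ : ℕ, ℕ) :=
  N.divisors.sigma fun d => (Finset.range (gg N d)).filter fun j => (gg N d).Coprime j

theorem card_invSet : (invSet N).card = ModularCurve.cuspCount N := by
  rw [invSet, Finset.card_sigma, ModularCurve.cuspCount]
  refine Finset.sum_congr rfl fun d _ => ?_
  rw [Nat.totient_eq_card_coprime]
  rfl

variable {N}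

/-- the invariant of a normal form -/
def invOf (d : ℕ) (a : ZMod N) : Σ _ : ℕ, ℕ := ⟨d, a.val % gg N d⟩

theorem invOf_mem {d : ℕ} (hd : d ∣ N) {a : ZMod N} (ha : IsPrim (a, (d : ZMod N))) :
    invOf d a ∈ invSet N := by
  have hN : N ≠ 0 := NeZero.ne N
  have hg : 0 < gg N d := gg_pos N hd
  rw [invSet, invOf, Finset.mem_sigma]
  refine ⟨Nat.mem_divisors.mpr ⟨hd, hN⟩, ?_⟩
  rw [Finset.mem_filter, Finset.mem_range]
  refine ⟨Nat.mod_lt _ hg, ?_⟩
  have h1 : Nat.Coprime a.val d := coprime_val_of_isPrim hd ha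
  have h2 : Nat.Coprime a.val (gg N d) := Nat.Coprime.coprime_dvd_right (Nat.gcd_dvd_left _ _) h1
  have h3 : Nat.gcd (a.val % gg N d) (gg N d) = Nat.gcd a.val (gg N d) :=
    (Nat.mod_modEq a.val (gg N d)).gcd_eq
  rw [Nat.coprime_comm, Nat.Coprime, h3]
  exact h2

theorem invOf_eq_iff {d d' : ℕ} (hd : d ∣ N) (hd' : d' ∣ N) {a a' : ZMod N}
    (ha : IsPrim (a, (d : ZMod N))) (ha' : IsPrim (a', (d' : ZMod N))) :
    invOf d a = invOf d' a' ↔ Rel (a, (d : ZMod N)) (a', (d' : ZMod N)) := by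
  constructor
  · intro h
    rw [invOf, invOf, Sigma.mk.inj_iff] at h
    obtain ⟨h1, h2⟩ := h
    subst h1
    exact rel_of_modEq hd ha ha' (eq_of_heq h2)
  · intro h
    have h1 : d = d' := eq_of_rel_natCast hd hd' h
    subst h1
    rw [invOf, invOf]
    congr 1
    exact modEq_of_rel hd h

/-- the invariant of a pair, via a chosen normal form -/
noncomputable def inv (v : ZMod N × ZMod N) : Σ _ : ℕ, ℕ :=
  invOf (exists_normalForm v).choose (exists_normalForm v).choose_spec.choose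

theorem inv_spec (v : ZMod N × ZMod N) :
    ∃ (d : ℕ) (a : ZMod N), d ∣ N ∧ Rel v (a, (d : ZMod N)) ∧ inv v = invOf d a :=
  ⟨_, _, (exists_normalForm v).choose_spec.choose_spec.1,
    (exists_normalForm v).choose_spec.choose_spec.2, rfl⟩

theorem inv_mem {v : ZMod N × ZMod N} (hv : IsPrim v) : inv v ∈ invSet N := by
  obtain ⟨d, a, hd, hr, he⟩ := inv_spec v
  rw [he]
  exact invOf_mem hd (hr.isPrim hv)

theorem inv_eq_iff {v w : ZMod N × ZMod N} (hv : IsPrim v) (hw : IsPrim w) :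
    inv v = inv w ↔ Rel v w := by
  obtain ⟨d, a, hd, hr, he⟩ := inv_spec v
  obtain ⟨d', a', hd', hr', he'⟩ := inv_spec w
  rw [he, he', invOf_eq_iff hd hd' (hr.isPrim hv) (hr'.isPrim hw)]
  constructor
  · intro h
    exact (hr.trans h).trans hr'.symm
  · intro h
    exact (hr.symm.trans h).trans hr'

theorem exists_inv_eq {x : Σ _ : ℕ, ℕ} (hx : x ∈ invSet N) :
    ∃ v : ZMod N × ZMod N, IsPrim v ∧ inv v = x := by
  obtain ⟨d, j⟩ := x
  rw [invSet, Finset.mem_sigma, Finset.mem_filter, Finset.mem_range] at hx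
  obtain ⟨hd, hj, hcop⟩ := hx
  simp only at hd hj hcop
  have hd' : d ∣ N := (Nat.mem_divisors.mp hd).1
  obtain ⟨a, ha, haj⟩ := exists_isPrim_of_coprime hd' (Nat.coprime_comm.mp hcop)
  refine ⟨(a, (d : ZMod N)), ha, ?_⟩
  obtain ⟨d0, a0, hd0, hr, he⟩ := inv_spec (a, (d : ZMod N))
  rw [he, ← (invOf_eq_iff hd' hd0 ha (hr.isPrim ha)).mpr hr, invOf]
  congr 1
  have h1 : a.val % gg N d = j % gg N d := haj
  rw [h1]
  exact Nat.mod_eq_of_lt hj

variable (N)

/-- primitive pairs -/
def PrimPair : Type := {v : ZMod N × ZMod N // IsPrim v}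

/-- the cusp relation on primitive pairs -/
def cuspSetoid : Setoid (PrimPair N) where
  r v w := Rel v.1 w.1
  iseqv := ⟨fun v => Rel.refl v.1, Rel.symm, Rel.trans⟩

/-- The number of classes of primitive pairs modulo units and `(a, c) ↦ (a + c, c)` is
`cuspCount N`. -/
theorem card_quotient_cuspSetoid :
    Nat.card (Quotient (cuspSetoid N)) = ModularCurve.cuspCount N := by
  rw [← card_invSet N]
  let f : Quotient (cuspSetoid N) → {x // x ∈ invSet N} :=
    Quotient.lift (fun v : PrimPair N => (⟨inv v.1, inv_mem v.2⟩ : {x // x ∈ invSet N}))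
      (fun v w h => Subtype.ext ((inv_eq_iff v.2 w.2).mpr h))
  have hf : Function.Bijective f := by
    constructor
    · intro q q'
      induction q using Quotient.inductionOn with
      | _ v =>
        induction q' using Quotient.inductionOn with
        | _ w =>
          intro h
          apply Quotient.sound
          have h1 : inv v.1 = inv w.1 := congrArg Subtype.val h
          exact (inv_eq_iff v.2 w.2).mp h1
    · rintro ⟨x, hx⟩
      obtain ⟨v, hv, hvx⟩ := exists_inv_eq hx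
      exact ⟨Quotient.mk _ ⟨v, hv⟩, Subtype.ext hvx⟩
  rw [Nat.card_eq_of_bijective f hf, Nat.card_eq_fintype_card, Fintype.card_coe]

end Count

section Transport

open Matrix ModularGroup CongruenceSubgroup
open scoped MatrixGroups

variable (N) [NeZero N]

/-- proportional primitive pairs differ by a unit -/
theorem exists_unit_of_cross {v w : ZMod N × ZMod N} (hv : IsPrim v) (hw : IsPrim w)
    (h : v.1 * w.2 = v.2 * w.1) : ∃ u : (ZMod N)ˣ, w.1 = u * v.1 ∧ w.2 = u * v.2 := by
  obtain ⟨x, y, hxy⟩ := hv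
  obtain ⟨x', y', hxy'⟩ := hw
  have h1 : (x * w.1 + y * w.2) * (x' * v.1 + y' * v.2) = 1 := by
    linear_combination (x' * w.1 + y' * w.2) * hxy + hxy' - (x * y' - y * x') * h
  refine ⟨⟨x * w.1 + y * w.2, x' * v.1 + y' * v.2, h1, by rw [mul_comm]; exact h1⟩, ?_, ?_⟩
  · show w.1 = (x * w.1 + y * w.2) * v.1
    linear_combination (-w.1) * hxy - y * h
  · show w.2 = (x * w.1 + y * w.2) * v.2
    linear_combination (-w.2) * hxy + x * h

/-- the first column mod `N` -/
def col (g : SL(2, ℤ)) : PrimPair N :=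
  ⟨(((g 0 0 : ℤ) : ZMod N), ((g 1 0 : ℤ) : ZMod N)), by
    obtain ⟨x, y, hxy⟩ := isCoprime_col g
    refine ⟨(x : ZMod N), (y : ZMod N), ?_⟩
    have := congrArg (Int.cast : ℤ → ZMod N) hxy
    push_cast at this
    exact this⟩

theorem col_T_zpow_mul (n : ℤ) (g : SL(2, ℤ)) :
    (col N (T ^ n * g)).1 =
      (((g 0 0 : ℤ) : ZMod N) + (n : ZMod N) * ((g 1 0 : ℤ) : ZMod N), ((g 1 0 : ℤ) : ZMod N)) := by
  have h1 : (T ^ n * g) 0 0 = g 0 0 + n * g 1 0 := by
    rw [Matrix.SpecialLinearGroup.coe_mul, coe_T_zpow, Matrix.mul_apply, Fin.sum_univ_two]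
    simp
  have h2 : (T ^ n * g) 1 0 = g 1 0 := by
    rw [Matrix.SpecialLinearGroup.coe_mul, coe_T_zpow, Matrix.mul_apply, Fin.sum_univ_two]
    simp
  simp only [col, h1, h2]
  push_cast
  rfl

theorem rel_col_iff (g h : SL(2, ℤ)) :
    Rel (col N g).1 (col N h).1 ↔
      ∃ n : ℤ, (QuotientGroup.mk (T ^ n * g) : SL(2, ℤ) ⧸ Gamma0 N) = QuotientGroup.mk h := by
  constructor
  · rintro ⟨u, k, h1, h2⟩
    obtain ⟨n, rfl⟩ := ZMod.intCast_surjective k
    refine ⟨n, ?_⟩
    rw [mk_eq_mk_iff]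
    have h3 := congrArg Prod.fst (col_T_zpow_mul N n g)
    have h4 := congrArg Prod.snd (col_T_zpow_mul N n g)
    simp only [col] at h1 h2 h3 h4
    rw [h3, h4, h1, h2]
    ring
  · rintro ⟨n, hn⟩
    rw [mk_eq_mk_iff] at hn
    have hcross : (col N (T ^ n * g)).1.1 * (col N h).1.2 =
        (col N (T ^ n * g)).1.2 * (col N h).1.1 := hn
    obtain ⟨u, hu1, hu2⟩ := exists_unit_of_cross N (col N (T ^ n * g)).2 (col N h).2 hcross
    rw [col_T_zpow_mul] at hu1 hu2
    exact ⟨u, (n : ZMod N), hu1, hu2⟩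

/-- The map from `⟨T⟩`-orbits on `SL(2, ℤ) ⧸ Γ₀(N)` to classes of primitive pairs. -/
def cuspMap : MulAction.orbitRel.Quotient (Subgroup.zpowers T) (SL(2, ℤ) ⧸ Gamma0 N) →
    Quotient (cuspSetoid N) :=
  Quotient.lift
    (fun q : SL(2, ℤ) ⧸ Gamma0 N =>
      Quotient.liftOn' q (fun g => (Quotient.mk (cuspSetoid N) (col N g)))
        (fun g h hgh => by
          apply Quotient.sound
          show Rel (col N g).1 (col N h).1
          rw [rel_col_iff]
          refine ⟨0, ?_⟩
          rw [zpow_zero, one_mul]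
          exact Quotient.sound' hgh))
    (fun q q' hqq' => by
      induction q using Quotient.inductionOn' with
      | _ g =>
        induction q' using Quotient.inductionOn' with
        | _ h =>
          show Quotient.mk (cuspSetoid N) (col N g) = Quotient.mk (cuspSetoid N) (col N h)
          apply Quotient.sound
          show Rel (col N g).1 (col N h).1
          apply Rel.symm
          rw [rel_col_iff]
          have h1 : (QuotientGroup.mk g : SL(2, ℤ) ⧸ Gamma0 N) ∈
              MulAction.orbit (Subgroup.zpowers T) (QuotientGroup.mk h : SL(2, ℤ) ⧸ Gamma0 N) :=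
            hqq'
          obtain ⟨⟨t, ht⟩, hth⟩ := h1
          obtain ⟨n, rfl⟩ := Subgroup.mem_zpowers_iff.mp ht
          exact ⟨n, hth⟩)

theorem cuspMap_bijective : Function.Bijective (cuspMap N) := by
  constructor
  · intro x y
    induction x using Quotient.inductionOn with
    | _ q =>
      induction y using Quotient.inductionOn with
      | _ q' =>
        induction q using Quotient.inductionOn' with
        | _ g =>
          induction q' using Quotient.inductionOn' with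
          | _ h =>
            intro hxy
            have h1 : Quotient.mk (cuspSetoid N) (col N g) = Quotient.mk (cuspSetoid N) (col N h) :=
              hxy
            have h2 : Rel (col N g).1 (col N h).1 := Quotient.exact h1
            rw [rel_col_iff] at h2
            obtain ⟨n, hn⟩ := h2
            apply Quotient.sound
            show (QuotientGroup.mk g : SL(2, ℤ) ⧸ Gamma0 N) ∈
              MulAction.orbit (Subgroup.zpowers T) (QuotientGroup.mk h : SL(2, ℤ) ⧸ Gamma0 N)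
            refine ⟨⟨T ^ (-n), Subgroup.zpow_mem_zpowers T (-n)⟩, ?_⟩
            show (T ^ (-n)) • (QuotientGroup.mk h : SL(2, ℤ) ⧸ Gamma0 N) = QuotientGroup.mk g
            rw [← hn]
            show (QuotientGroup.mk (T ^ (-n) * (T ^ n * g)) : SL(2, ℤ) ⧸ Gamma0 N) =
              QuotientGroup.mk g
            rw [← mul_assoc, ← _root_.zpow_add, neg_add_cancel, zpow_zero, one_mul]
  · intro y
    induction y using Quotient.inductionOn with
    | _ v =>
      obtain ⟨g, hg1, hg2⟩ := exists_SL2_col N v.1.1 v.1.2 v.2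
      refine ⟨Quotient.mk _ (QuotientGroup.mk g), ?_⟩
      show Quotient.mk (cuspSetoid N) (col N g) = Quotient.mk (cuspSetoid N) v
      congr 1
      apply Subtype.ext
      show (((g 0 0 : ℤ) : ZMod N), ((g 1 0 : ℤ) : ZMod N)) = v.1
      rw [hg1, hg2]

end Transport

end Cusps

open Matrix ModularGroup CongruenceSubgroup in
open scoped MatrixGroups in
/-- P11 (d): the number of `⟨T⟩`-orbits on `SL(2, ℤ) ⧸ Γ₀(N)` is `cuspCount N`. -/
theorem card_orbits_T (N : ℕ) [NeZero N] :
    Nat.card (MulAction.orbitRel.Quotient (Subgroup.zpowers T) (SL(2, ℤ) ⧸ Gamma0 N)) =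
      ModularCurve.cuspCount N := by
  rw [Nat.card_eq_of_bijective _ (Cusps.cuspMap_bijective N), Cusps.card_quotient_cuspSetoid]

end Fermat.Agent.S20
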