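import Fermat.Agent.S20.Basis

/-! P8 (L6): trace identities at the elliptic points `i` and `ρ`. -/

set_option autoImplicit false

namespace Fermat.Agent.S20

open UpperHalfPlane CongruenceSubgroup Matrix.SpecialLinearGroup ModularGroup
open scoped MatrixGroups ModularForm Manifold

noncomputable section

variable {N : ℕ} [NeZero N] [DecidableEq (Q N)]

omit [DecidableEq (Q N)] in
/-- Transformation of the matrix of translates at a fixed point of `δ`. -/
theorem FreeBasis.mat_apply_of_fixed (B : FreeBasis N) (δ : SL(2, ℤ)) (z₀ : ℍ)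
    (hfix : δ • z₀ = z₀) (i q : Q N) :
    B.mat z₀ i q = denom δ z₀ ^ (B.d i : ℤ) * B.mat z₀ i (δ⁻¹ • q) := by
  have h := cosetFn_smul_apply (B.mem i).2.1 q δ z₀
  rw [hfix] at h
  exact h

/-- The general trace identity: at a fixed point `z₀` of `δ` where the matrix of translates is
invertible, the sum of the inverse automorphy factors is the number of fixed cosets. -/
theorem FreeBasis.sum_inv_denom_pow (B : FreeBasis N) (δ : SL(2, ℤ)) (z₀ : ℍ)
    (hfix : δ • z₀ = z₀) (hdet : (B.mat z₀).det ≠ 0) :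
    ∑ i, (denom δ z₀ ^ (B.d i))⁻¹ = (Nat.card (MulAction.fixedBy (Q N) δ) : ℂ) := by
  set M := B.mat z₀ with hM
  set c : ℂ := denom δ z₀ with hc
  have hc0 : c ≠ 0 := denom_ne_zero _ z₀
  set σ : Equiv.Perm (Q N) := MulAction.toPerm δ⁻¹ with hσ
  -- the permuted matrix is a diagonal multiple of `M`
  have hM' : M.submatrix id σ = Matrix.diagonal (fun i => (c ^ (B.d i))⁻¹) * M := by
    ext i q
    rw [Matrix.diagonal_mul, Matrix.submatrix_apply, id]
    have h := B.mat_apply_of_fixed δ z₀ hfix i q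
    rw [← hM, ← hc, zpow_natCast] at h
    rw [h]
    have : σ q = δ⁻¹ • q := rfl
    rw [this]
    field_simp
  have hunit : IsUnit M.det := isUnit_iff_ne_zero.mpr hdet
  -- compute the trace of `M⁻¹ * M.submatrix id σ` in two ways
  have h1 : Matrix.trace (M⁻¹ * M.submatrix id σ) = ∑ i, (c ^ (B.d i))⁻¹ := by
    rw [hM', Matrix.trace_mul_comm, Matrix.mul_assoc, Matrix.mul_nonsing_inv _ hunit,
      Matrix.mul_one, Matrix.trace_diagonal]
  have h2 : Matrix.trace (M⁻¹ * M.submatrix id σ) =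
      ∑ q, if q = σ q then (1 : ℂ) else 0 := by
    unfold Matrix.trace
    refine Finset.sum_congr rfl fun q _ => ?_
    rw [Matrix.diag_apply]
    have : (M⁻¹ * M.submatrix id σ) q q = (M⁻¹ * M) q (σ q) := by
      simp [Matrix.mul_apply]
    rw [this, Matrix.nonsing_inv_mul _ hunit, Matrix.one_apply]
  rw [← h1, h2, Finset.sum_boole]
  congr 1
  rw [Nat.card_eq_fintype_card, Fintype.card_subtype]
  congr 1
  ext q
  simp only [Finset.mem_filter, Finset.mem_univ, true_and, MulAction.mem_fixedBy]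
  have : σ q = δ⁻¹ • q := rfl
  rw [this]
  exact eq_inv_smul_iff

/-! ### The point `i` -/

omit [NeZero N] [DecidableEq (Q N)] in
theorem S_smul_I : S • UpperHalfPlane.I = UpperHalfPlane.I := by
  rw [modular_S_smul]
  apply UpperHalfPlane.ext
  simp [UpperHalfPlane.I, Complex.inv_I]

omit [NeZero N] [DecidableEq (Q N)] in
theorem S_inv_smul_I : S⁻¹ • UpperHalfPlane.I = UpperHalfPlane.I :=
  inv_smul_eq_iff.mpr S_smul_I.symm

omit [NeZero N] [DecidableEq (Q N)] in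
theorem denom_S_inv_I : denom (S⁻¹ : SL(2, ℤ)) UpperHalfPlane.I = -Complex.I := by
  rw [ModularGroup.denom_apply, S_inv, Matrix.SpecialLinearGroup.coe_neg, coe_S]
  simp [UpperHalfPlane.I]

/-- Trace identity at `i`. -/
theorem FreeBasis.sum_I_pow (B : FreeBasis N) (hdet : ∀ z, (B.mat z).det ≠ 0) :
    ∑ i, Complex.I ^ (B.d i) = (Nat.card (MulAction.fixedBy (Q N) S) : ℂ) := by
  have h := B.sum_inv_denom_pow S⁻¹ UpperHalfPlane.I S_inv_smul_I (hdet _)
  rw [MulAction.fixedBy_inv, denom_S_inv_I] at h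
  rw [← h]
  refine Finset.sum_congr rfl fun i _ => ?_
  rw [← inv_pow, inv_neg, Complex.inv_I, neg_neg]

/-! ### The point `ρ` -/

/-- the elliptic point `ρ = (-1 + √3 i) / 2`. -/
def rho : ℍ := ⟨⟨-1 / 2, Real.sqrt 3 / 2⟩, by
  show (0 : ℝ) < Real.sqrt 3 / 2
  positivity⟩

omit [NeZero N] [DecidableEq (Q N)] in
theorem rho_sq_add : ((rho : ℍ) : ℂ) ^ 2 + (rho : ℂ) + 1 = 0 := by
  have h3 : Real.sqrt 3 * Real.sqrt 3 = 3 := Real.mul_self_sqrt (by norm_num)
  have hcoe : ((rho : ℍ) : ℂ) = ⟨-1 / 2, Real.sqrt 3 / 2⟩ := rfl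
  rw [hcoe]
  apply Complex.ext
  · simp [pow_two]
    nlinarith [h3]
  · simp [pow_two]
    ring

omit [NeZero N] [DecidableEq (Q N)] in
theorem rho_add_one_ne_zero : ((rho : ℍ) : ℂ) + 1 ≠ 0 := by
  intro h
  have := rho_sq_add
  have h1 : ((rho : ℍ) : ℂ) = -1 := by linear_combination h
  rw [h1] at this
  norm_num at this

omit [NeZero N] [DecidableEq (Q N)] in
theorem ST_smul_rho : (S * T) • rho = rho := by
  rw [mul_smul, modular_T_smul, modular_S_smul]
  apply UpperHalfPlane.ext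
  rw [UpperHalfPlane.coe_mk, UpperHalfPlane.coe_vadd]
  have h := rho_sq_add
  have hne := rho_add_one_ne_zero
  have hne' : -((1 : ℝ) + ((rho : ℍ) : ℂ)) ≠ 0 := by
    rw [neg_ne_zero, add_comm]; exact_mod_cast hne
  rw [eq_comm]
  refine eq_inv_of_mul_eq_one_left ?_
  push_cast
  linear_combination -h

omit [NeZero N] [DecidableEq (Q N)] in
theorem denom_ST_rho : denom ((S * T : SL(2, ℤ))) rho = (rho : ℂ) + 1 := by
  rw [ModularGroup.denom_apply, Matrix.SpecialLinearGroup.coe_mul, coe_S, coe_T]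
  simp [Matrix.mul_apply, Fin.sum_univ_two]

/-- Trace identity at `ρ`. -/
theorem FreeBasis.sum_zeta_pow (B : FreeBasis N) (hdet : ∀ z, (B.mat z).det ≠ 0) :
    ∃ ζ : ℂ, ζ ^ 2 - ζ + 1 = 0 ∧
      ∑ i, ζ ^ (B.d i) = (Nat.card (MulAction.fixedBy (Q N) (S * T)) : ℂ) := by
  have h := B.sum_inv_denom_pow (S * T) rho ST_smul_rho (hdet _)
  rw [denom_ST_rho] at h
  have hne := rho_add_one_ne_zero
  refine ⟨((rho : ℂ) + 1)⁻¹, ?_, ?_⟩
  · have hr := rho_sq_add
    field_simp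
    linear_combination hr
  · rw [← h]
    refine Finset.sum_congr rfl fun i _ => ?_
    rw [inv_pow]

omit [NeZero N] [DecidableEq (Q N)] in
/-- A root of `X ^ 2 - X + 1` is not real: `1, ζ` are `ℝ`-linearly independent. -/
theorem eq_zero_of_add_mul_zeta {ζ : ℂ} (hζ : ζ ^ 2 - ζ + 1 = 0) {a b : ℝ}
    (h : (a : ℂ) + (b : ℂ) * ζ = 0) : a = 0 ∧ b = 0 := by
  by_cases hb : b = 0
  · subst hb
    simp only [Complex.ofReal_zero, zero_mul, add_zero, Complex.ofReal_eq_zero] at h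
    exact ⟨h, rfl⟩
  · exfalso
    have hbC : (b : ℂ) ≠ 0 := by exact_mod_cast hb
    have hz : ζ = ((-a / b : ℝ) : ℂ) := by
      push_cast
      field_simp
      linear_combination h
    rw [hz] at hζ
    have hreal : (-a / b) ^ 2 - (-a / b) + 1 = 0 := by exact_mod_cast hζ
    nlinarith [sq_nonneg (-a / b - 1 / 2)]

omit [NeZero N] [DecidableEq (Q N)] in
/-- powers of a primitive sixth root of unity `ζ` (root of `X ^ 2 - X + 1`). -/
theorem zeta_pow_table {ζ : ℂ} (hζ : ζ ^ 2 - ζ + 1 = 0) :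
    ζ ^ 0 = 1 ∧ ζ ^ 2 = ζ - 1 ∧ ζ ^ 4 = -ζ ∧ ζ ^ 6 = 1 ∧ ζ ^ 8 = ζ - 1 ∧ ζ ^ 10 = -ζ := by
  have h2 : ζ ^ 2 = ζ - 1 := by linear_combination hζ
  have h3 : ζ ^ 3 = -1 := by linear_combination (ζ + 1) * hζ
  refine ⟨pow_zero _, h2, ?_, ?_, ?_, ?_⟩
  · calc ζ ^ 4 = ζ ^ 3 * ζ := by ring
      _ = -ζ := by rw [h3]; ring
  · calc ζ ^ 6 = (ζ ^ 3) ^ 2 := by ring
      _ = 1 := by rw [h3]; ring
  · calc ζ ^ 8 = (ζ ^ 3) ^ 2 * ζ ^ 2 := by ring
      _ = ζ - 1 := by rw [h3, h2]; ring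
  · calc ζ ^ 10 = (ζ ^ 3) ^ 3 * ζ := by ring
      _ = -ζ := by rw [h3]; ring

end

end Fermat.Agent.S20
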