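import Fermat.Agent.S20.P1Model

/-! Fixed points of `S` and `S * T` on `SL(2, ℤ) ⧸ Γ₀(N)`. -/

set_option autoImplicit false

open Matrix ModularGroup CongruenceSubgroup
open scoped MatrixGroups

namespace Fermat.Agent.S20

/-- If `(g⁻¹ s g)₁₀ = a² + β a c + c²` in terms of the first column `(a, c)` of `g`, then the fixed
points of `s` on `SL(2, ℤ) ⧸ Γ₀(N)` correspond to the roots of `x² + β x + 1` in `ZMod N`. -/
theorem card_fixedBy_of_conj (N : ℕ) [NeZero N] (s : SL(2, ℤ)) (β : ℤ)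
    (hs : ∀ g : SL(2, ℤ),
      (g⁻¹ * s * g) 1 0 = g 0 0 ^ 2 + β * g 0 0 * g 1 0 + g 1 0 ^ 2) :
    Nat.card (MulAction.fixedBy (SL(2, ℤ) ⧸ Gamma0 N) s) =
      Nat.card {x : ZMod N // x ^ 2 + (β : ZMod N) * x + 1 = 0} := by
  symm
  have hfix : ∀ g : SL(2, ℤ), (QuotientGroup.mk g : SL(2, ℤ) ⧸ Gamma0 N) ∈
      MulAction.fixedBy (SL(2, ℤ) ⧸ Gamma0 N) s ↔
      ((g 0 0 : ℤ) : ZMod N) ^ 2 + (β : ZMod N) * ((g 0 0 : ℤ) : ZMod N) * ((g 1 0 : ℤ) : ZMod N) +
        ((g 1 0 : ℤ) : ZMod N) ^ 2 = 0 := by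
    intro g
    rw [MulAction.mem_fixedBy, smul_mk_eq_iff, Gamma0_mem, hs]
    push_cast
    rfl
  have hcast : ∀ x : ZMod N, (((x.val : ℕ) : ℤ) : ZMod N) = x := by
    intro x
    rw [Int.cast_natCast, ZMod.natCast_zmod_val]
  refine Nat.card_congr (Equiv.ofBijective
    (fun x : {x : ZMod N // x ^ 2 + (β : ZMod N) * x + 1 = 0} =>
      (⟨QuotientGroup.mk (lowerL (x.1.val : ℤ)), by
        rw [hfix]
        simp only [lowerL_apply_zero_zero, lowerL_apply_one_zero, hcast]
        have := x.2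
        push_cast
        linear_combination this⟩ : MulAction.fixedBy (SL(2, ℤ) ⧸ Gamma0 N) s)) ⟨?_, ?_⟩)
  · intro x y hxy
    have h1 := congrArg Subtype.val hxy
    simp only at h1
    rw [mk_eq_mk_iff] at h1
    simp only [lowerL_apply_zero_zero, lowerL_apply_one_zero, hcast] at h1
    apply Subtype.ext
    have : y.1 = x.1 := by simpa using h1
    exact this.symm
  · rintro ⟨q, hq⟩
    obtain ⟨g, rfl⟩ := QuotientGroup.mk_surjective q
    rw [hfix] at hq
    obtain ⟨u, v, huv⟩ := isCoprime_col g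
    set a : ZMod N := ((g 0 0 : ℤ) : ZMod N) with ha
    set c : ZMod N := ((g 1 0 : ℤ) : ZMod N) with hc
    have huv' : (u : ZMod N) * a + (v : ZMod N) * c = 1 := by
      have := congrArg (Int.cast : ℤ → ZMod N) huv
      push_cast at this
      exact this
    set w : ZMod N := (u : ZMod N) ^ 2 * a + 2 * (u : ZMod N) * (v : ZMod N) * c -
      (v : ZMod N) ^ 2 * (a + (β : ZMod N) * c) with hw
    have haw : a * w = 1 := by
      have h2 : ((u : ZMod N) * a + (v : ZMod N) * c) ^ 2 = 1 := by rw [huv', one_pow]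
      rw [hw]
      linear_combination h2 - (v : ZMod N) ^ 2 * hq
    refine ⟨⟨c * w, ?_⟩, ?_⟩
    · have : (c * w) ^ 2 + (β : ZMod N) * (c * w) + 1 =
          w ^ 2 * (a ^ 2 + (β : ZMod N) * a * c + c ^ 2) := by
        linear_combination (-(β : ZMod N) * c * w - 1 - a * w) * haw
      rw [this, hq, mul_zero]
    · apply Subtype.ext
      simp only
      rw [mk_eq_mk_iff]
      simp only [lowerL_apply_zero_zero, lowerL_apply_one_zero, hcast]
      rw [← ha, ← hc]
      push_cast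
      linear_combination (-c) * haw

theorem card_fixedBy_S (N : ℕ) [NeZero N] :
    Nat.card (MulAction.fixedBy (SL(2, ℤ) ⧸ Gamma0 N) S) = ModularCurve.nuTwo N := by
  rw [card_fixedBy_of_conj N S 0 (fun g => by rw [conj_S_apply]; ring), ModularCurve.nuTwo]
  exact Nat.card_congr (Equiv.subtypeEquivRight fun x => by simp)

theorem card_fixedBy_ST (N : ℕ) [NeZero N] :
    Nat.card (MulAction.fixedBy (SL(2, ℤ) ⧸ Gamma0 N) (S * T)) = ModularCurve.nuThree N := by
  rw [card_fixedBy_of_conj N (S * T) 1 (fun g => by rw [conj_ST_apply]; ring),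
    ModularCurve.nuThree]
  exact Nat.card_congr (Equiv.subtypeEquivRight fun x => by simp)

end Fermat.Agent.S20
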