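import Mathlib

/-! Graded freeness over a two-generator graded ring: a graded module `M` over
`R = 𝕜[a, b]` (all living inside one commutative `𝕜`-algebra `F`) on which `a, b` is a
regular sequence, has a homogeneous basis. -/

open Submodule Module

noncomputable section

namespace Fermat.Agent.S20.GradedFree

universe u v

variable {𝕜 : Type v} {F : Type u} [Field 𝕜] [CommRing F] [Algebra 𝕜 F]

/-- The image of a subspace under multiplication by `x`. -/
def mulImage (x : F) (N : Submodule 𝕜 F) : Submodule 𝕜 F := N.map (LinearMap.mulLeft 𝕜 x)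

lemma mem_mulImage {x : F} {N : Submodule 𝕜 F} {y : F} :
    y ∈ mulImage x N ↔ ∃ n ∈ N, y = x * n := by
  simp only [mulImage, Submodule.mem_map, LinearMap.mulLeft_apply]
  constructor
  · rintro ⟨n, hn, rfl⟩; exact ⟨n, hn, rfl⟩
  · rintro ⟨n, hn, rfl⟩; exact ⟨n, hn, rfl⟩

lemma mul_mem_mulImage {x : F} {N : Submodule 𝕜 F} {n : F} (hn : n ∈ N) :
    x * n ∈ mulImage x N := mem_mulImage.2 ⟨n, hn, rfl⟩

/-- The hypotheses: `R` is a graded ring generated by `a` (degree `da`) and `b` (degree `db`),
`M` a graded `R`-module, finite-dimensional in each degree, vanishing in negative degrees,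
and `a, b` is a regular sequence on `M`. -/
structure Hyp (R M : ℤ → Submodule 𝕜 F) (a b : F) (da db : ℤ) : Prop where
  da_pos : 0 < da
  db_pos : 0 < db
  R_zero : R 0 = Submodule.span 𝕜 {1}
  R_neg : ∀ k < 0, R k = ⊥
  a_mem : a ∈ R da
  b_mem : b ∈ R db
  R_mul : ∀ j k x y, x ∈ R j → y ∈ R k → x * y ∈ R (j + k)
  R_gen : ∀ k, k ≠ 0 → ∀ x ∈ R k, ∃ y ∈ R (k - da), ∃ z ∈ R (k - db), x = a * y + b * z
  M_neg : ∀ k < 0, M k = ⊥
  RM_mul : ∀ j k x m, x ∈ R j → m ∈ M k → x * m ∈ M (j + k)
  M_fin : ∀ k, FiniteDimensional 𝕜 (M k)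
  reg_a : ∀ k, ∀ f ∈ M k, a * f = 0 → f = 0
  reg_b : ∀ k f g, f ∈ M k → g ∈ M (k + db - da) → b * f = a * g → ∃ h ∈ M (k - da), f = a * h

variable {R M : ℤ → Submodule 𝕜 F} {a b : F} {da db : ℤ}

namespace Hyp

variable (h : Hyp R M a b da db)
include h

omit h in
lemma R_cast {n n' : ℤ} (hn : n = n') {x : F} (hx : x ∈ R n) : x ∈ R n' := hn ▸ hx

omit h in
lemma M_cast {n n' : ℤ} (hn : n = n') {x : F} (hx : x ∈ M n) : x ∈ M n' := hn ▸ hx

lemma one_mem : (1 : F) ∈ R 0 := by
  rw [h.R_zero]; exact Submodule.subset_span rfl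

lemma smul_one_mem (c : 𝕜) : c • (1 : F) ∈ R 0 := (R 0).smul_mem c h.one_mem

lemma pow_b_mem (n : ℕ) : b ^ n ∈ R (n * db) := by
  induction n with
  | zero => simpa using h.one_mem
  | succ n ih =>
    rw [pow_succ]
    exact R_cast (by push_cast; ring) (h.R_mul _ _ _ _ ih h.b_mem)

lemma aM_le (k : ℤ) : mulImage a (M (k - da)) ≤ M k := by
  intro y hy
  obtain ⟨n, hn, rfl⟩ := mem_mulImage.1 hy
  exact M_cast (by ring) (h.RM_mul _ _ _ _ h.a_mem hn)

lemma bM_le (k : ℤ) : mulImage b (M (k - db)) ≤ M k := by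
  intro y hy
  obtain ⟨n, hn, rfl⟩ := mem_mulImage.1 hy
  exact M_cast (by ring) (h.RM_mul _ _ _ _ h.b_mem hn)

/-- Decomposition of an element of `R n` as `a * s + c • b ^ e`. -/
lemma R_decomp : ∀ (m : ℕ) (n : ℤ), n < m → ∀ x ∈ R n, ∃ s ∈ R (n - da), ∃ c : 𝕜,
    x = a * s + c • b ^ (n / db).toNat ∧ (c ≠ 0 → ∃ e : ℕ, n = e * db) := by
  intro m
  induction m with
  | zero =>
    intro n hn x hx
    have hn' : n < 0 := by exact_mod_cast hn
    rw [h.R_neg n hn'] at hx
    rw [Submodule.mem_bot] at hx
    exact ⟨0, zero_mem _, 0, by simp [hx], fun hc => absurd rfl hc⟩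
  | succ m ih =>
    intro n hn x hx
    by_cases hneg : n < 0
    · rw [h.R_neg n hneg] at hx
      rw [Submodule.mem_bot] at hx
      exact ⟨0, zero_mem _, 0, by simp [hx], fun hc => absurd rfl hc⟩
    by_cases h0 : n = 0
    · subst h0
      rw [h.R_zero, Submodule.mem_span_singleton] at hx
      obtain ⟨c, rfl⟩ := hx
      exact ⟨0, zero_mem _, c, by simp, fun _ => ⟨0, by simp⟩⟩
    obtain ⟨y, hy, z, hz, rfl⟩ := h.R_gen n h0 x hx
    have hlt : n - db < m := by have := h.db_pos; push_cast at hn; omega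
    obtain ⟨s', hs', c, hzc, hc⟩ := ih (n - db) hlt z hz
    by_cases hc0 : c = 0
    · subst hc0
      refine ⟨y + b * s', ?_, 0, ?_, fun hc => absurd rfl hc⟩
      · exact (R (n - da)).add_mem hy (R_cast (by ring) (h.R_mul _ _ _ _ h.b_mem hs'))
      · rw [hzc]; simp; ring
    · obtain ⟨e, he⟩ := hc hc0
      have hn_eq : n = ((e + 1 : ℕ) : ℤ) * db := by push_cast; linarith
      have hdb : db ≠ 0 := h.db_pos.ne'
      have e1 : ((n - db) / db).toNat = e := by
        rw [he, Int.mul_ediv_cancel _ hdb]; simp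
      have e2 : (n / db).toNat = e + 1 := by
        rw [hn_eq, Int.mul_ediv_cancel _ hdb]; simp
      refine ⟨y + b * s', ?_, c, ?_, fun _ => ⟨e + 1, hn_eq⟩⟩
      · exact (R (n - da)).add_mem hy (R_cast (by ring) (h.R_mul _ _ _ _ h.b_mem hs'))
      · rw [hzc, e1, e2, pow_succ]
        simp only [Algebra.smul_def]
        ring

end Hyp

/-! ### The decomposable part, a complement, and the homogeneous generators -/

/-- The decomposable part `a M_{k-da} + b M_{k-db}` of `M_k`. -/
def decomp (M : ℤ → Submodule 𝕜 F) (a b : F) (da db : ℤ) (k : ℤ) : Submodule 𝕜 F :=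
  mulImage a (M (k - da)) ⊔ mulImage b (M (k - db))

/-- A chosen complement of the decomposable part inside `M k`. -/
def compl (M : ℤ → Submodule 𝕜 F) (a b : F) (da db : ℤ) (k : ℤ) : Submodule 𝕜 F :=
  Classical.choose (Submodule.exists_isCompl (decomp M a b da db k)) ⊓ M k

lemma compl_le (M : ℤ → Submodule 𝕜 F) (a b : F) (da db : ℤ) (k : ℤ) :
    compl M a b da db k ≤ M k := inf_le_right

lemma compl_disjoint (M : ℤ → Submodule 𝕜 F) (a b : F) (da db : ℤ) (k : ℤ) :
    Disjoint (compl M a b da db k) (decomp M a b da db k) :=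
  (Classical.choose_spec (Submodule.exists_isCompl (decomp M a b da db k))).disjoint.symm.mono_left
    inf_le_left

lemma Hyp.decomp_le (h : Hyp R M a b da db) (k : ℤ) : decomp M a b da db k ≤ M k :=
  sup_le (h.aM_le k) (h.bM_le k)

lemma Hyp.compl_sup (h : Hyp R M a b da db) (k : ℤ) :
    compl M a b da db k ⊔ decomp M a b da db k = M k := by
  have hc := (Classical.choose_spec (Submodule.exists_isCompl (decomp M a b da db k))).sup_eq_top
  unfold compl
  rw [sup_comm, ← sup_inf_assoc_of_le _ (h.decomp_le k), hc, top_inf_eq]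

/-- The index type of the homogeneous generators: pairs (degree, basis vector of the chosen
complement in that degree). -/
abbrev Idx (M : ℤ → Submodule 𝕜 F) (a b : F) (da db : ℤ) : Type u :=
  Σ n : ℕ, Basis.ofVectorSpaceIndex 𝕜 (compl M a b da db (n : ℤ))

/-- The degree of a generator. -/
def deg (i : Idx M a b da db) : ℤ := (i.1 : ℤ)

/-- The generator itself. -/
def gen (i : Idx M a b da db) : F :=
  ((Basis.ofVectorSpace 𝕜 (compl M a b da db (i.1 : ℤ)) i.2 : compl M a b da db (i.1 : ℤ)) : F)

lemma deg_nonneg (i : Idx M a b da db) : 0 ≤ deg i := Int.natCast_nonneg _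

lemma gen_mem_compl (i : Idx M a b da db) : gen i ∈ compl M a b da db (deg i) :=
  Subtype.property _

lemma gen_mem (i : Idx M a b da db) : gen i ∈ M (deg i) := compl_le _ _ _ _ _ _ (gen_mem_compl i)

lemma linearIndependent_gen_fiber (n : ℕ) :
    LinearIndependent 𝕜 (fun l : Basis.ofVectorSpaceIndex 𝕜 (compl M a b da db (n : ℤ)) =>
      gen (⟨n, l⟩ : Idx M a b da db)) := by
  have := (Basis.ofVectorSpace 𝕜 (compl M a b da db (n : ℤ))).linearIndependent
  exact this.map' (compl M a b da db (n : ℤ)).subtype (Submodule.ker_subtype _)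

lemma compl_le_span_gen (n : ℕ) :
    compl M a b da db (n : ℤ) ≤ Submodule.span 𝕜 (Set.range
      (fun l : Basis.ofVectorSpaceIndex 𝕜 (compl M a b da db (n : ℤ)) =>
        gen (⟨n, l⟩ : Idx M a b da db))) := by
  intro x hx
  have h1 : (⟨x, hx⟩ : compl M a b da db (n : ℤ)) ∈ Submodule.span 𝕜 (Set.range
      (Basis.ofVectorSpace 𝕜 (compl M a b da db (n : ℤ)))) := by
    rw [Basis.span_eq]; trivial
  have h2 := Submodule.mem_map_of_mem (f := (compl M a b da db (n : ℤ)).subtype) h1
  rw [Submodule.map_span, ← Set.range_comp] at h2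
  exact h2

/-- Finset form of the linear independence of the generators of a fixed degree. -/
lemma fiber_indep (n : ℕ) (S : Finset (Idx M a b da db)) (c : Idx M a b da db → 𝕜)
    (hS : ∀ i ∈ S, i.1 = n) (hsum : ∑ i ∈ S, c i • gen i = 0) : ∀ i ∈ S, c i = 0 := by
  classical
  have hli := linearIndependent_gen_fiber (M := M) (a := a) (b := b) (da := da) (db := db) n
  rw [linearIndependent_iff'] at hli
  let ι : Basis.ofVectorSpaceIndex 𝕜 (compl M a b da db (n : ℤ)) → Idx M a b da db :=
    fun l => ⟨n, l⟩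
  have hinj : Function.Injective ι := by
    intro l l' hll
    simpa [ι] using hll
  set S' := S.preimage ι hinj.injOn with hS'
  have hSeq : S = S'.map ⟨ι, hinj⟩ := by
    ext i
    simp only [Finset.mem_map, Function.Embedding.coeFn_mk, hS', Finset.mem_preimage]
    constructor
    · intro hi
      obtain ⟨m, l⟩ := i
      have : m = n := hS _ hi
      subst this
      exact ⟨l, hi, rfl⟩
    · rintro ⟨l, hl, rfl⟩; exact hl
  have hsum' : ∑ l ∈ S', c (ι l) • gen (ι l) = 0 := by
    rw [← hsum, hSeq, Finset.sum_map]; rfl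
  intro i hi
  obtain ⟨m, l⟩ := i
  have : m = n := hS _ hi
  subst this
  refine hli S' (fun l => c (ι l)) hsum' l ?_
  simpa [hS'] using hi

/-! ### Spanning -/

/-- The subspace `R_{k - deg i} * gen i`. -/
def piece (R M : ℤ → Submodule 𝕜 F) (a b : F) (da db : ℤ) (k : ℤ) (i : Idx M a b da db) :
    Submodule 𝕜 F :=
  (R (k - deg i)).map (LinearMap.mulRight 𝕜 (gen i))

lemma mem_piece {k : ℤ} {i : Idx M a b da db} {y : F} :
    y ∈ piece R M a b da db k i ↔ ∃ r ∈ R (k - deg i), y = r * gen i := by
  simp only [piece, Submodule.mem_map, LinearMap.mulRight_apply]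
  constructor
  · rintro ⟨n, hn, rfl⟩; exact ⟨n, hn, rfl⟩
  · rintro ⟨n, hn, rfl⟩; exact ⟨n, hn, rfl⟩

namespace Hyp

variable (h : Hyp R M a b da db)
include h

lemma mulImage_piece_le (x : F) (dx : ℤ) (hx : x ∈ R dx) (k : ℤ) (i : Idx M a b da db) :
    mulImage x (piece R M a b da db (k - dx) i) ≤ piece R M a b da db k i := by
  intro y hy
  obtain ⟨n, hn, rfl⟩ := mem_mulImage.1 hy
  obtain ⟨r, hr, rfl⟩ := mem_piece.1 hn
  refine mem_piece.2 ⟨x * r, R_cast (by ring) (h.R_mul _ _ _ _ hx hr), by ring⟩

lemma mulImage_iSup_piece_le (x : F) (dx : ℤ) (hx : x ∈ R dx) (k : ℤ) :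
    mulImage x (⨆ i, piece R M a b da db (k - dx) i) ≤ ⨆ i, piece R M a b da db k i := by
  unfold mulImage
  rw [Submodule.map_iSup]
  exact iSup_mono fun i => h.mulImage_piece_le x dx hx k i

lemma compl_le_iSup_piece (n : ℕ) :
    compl M a b da db (n : ℤ) ≤ ⨆ i, piece R M a b da db (n : ℤ) i := by
  refine (compl_le_span_gen n).trans (Submodule.span_le.2 ?_)
  rintro _ ⟨l, rfl⟩
  refine Submodule.mem_iSup_of_mem (⟨n, l⟩ : Idx M a b da db) (mem_piece.2 ⟨1, ?_, (one_mul _).symm⟩)
  exact R_cast (by simp [deg]) h.one_mem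

theorem le_iSup_piece : ∀ (m : ℕ) (k : ℤ), k < m → M k ≤ ⨆ i, piece R M a b da db k i := by
  intro m
  induction m with
  | zero =>
    intro k hk
    have hk' : k < 0 := by exact_mod_cast hk
    rw [h.M_neg k hk']; exact bot_le
  | succ m ih =>
    intro k hk
    by_cases hneg : k < 0
    · rw [h.M_neg k hneg]; exact bot_le
    rw [not_lt] at hneg
    rw [← h.compl_sup k]
    refine sup_le ?_ (sup_le ?_ ?_)
    · obtain ⟨n, rfl⟩ := Int.eq_ofNat_of_zero_le hneg
      exact h.compl_le_iSup_piece n
    · have hlt : k - da < m := by have := h.da_pos; push_cast at hk; omega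
      refine le_trans ?_ (h.mulImage_iSup_piece_le a da h.a_mem k)
      exact Submodule.map_mono (ih _ hlt)
    · have hlt : k - db < m := by have := h.db_pos; push_cast at hk; omega
      refine le_trans ?_ (h.mulImage_iSup_piece_le b db h.b_mem k)
      exact Submodule.map_mono (ih _ hlt)

/-- Spanning, in finitely-supported-family form. -/
theorem span (k : ℤ) (g : F) (hg : g ∈ M k) :
    ∃ r : Idx M a b da db →₀ F, (∀ i, r i ∈ R (k - deg i)) ∧
      g = r.sum (fun i x => x * gen i) := by
  classical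
  have hk : k < ((k.toNat + 1 : ℕ) : ℤ) := by
    have := Int.self_le_toNat k; push_cast; omega
  have hg' := h.le_iSup_piece _ k hk hg
  rw [Submodule.mem_iSup_iff_exists_finsupp] at hg'
  obtain ⟨f, hf, hsum⟩ := hg'
  have hex : ∀ i, ∃ r ∈ R (k - deg i), f i = r * gen i ∧ (f i = 0 → r = 0) := by
    intro i
    by_cases h0 : f i = 0
    · exact ⟨0, zero_mem _, by simp [h0], fun _ => rfl⟩
    · obtain ⟨r, hr, hfr⟩ := mem_piece.1 (hf i)
      exact ⟨r, hr, hfr, fun h1 => absurd h1 h0⟩
  choose r hr hfr hr0 using hex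
  refine ⟨Finsupp.onFinset f.support r ?_, ?_, ?_⟩
  · intro i hi
    rw [Finsupp.mem_support_iff]
    intro h0; exact hi (hr0 i h0)
  · intro i; exact hr i
  · rw [← hsum, Finsupp.sum, Finsupp.sum]
    have hsub : (Finsupp.onFinset f.support r (by
        intro i hi
        rw [Finsupp.mem_support_iff]
        intro h0; exact hi (hr0 i h0))).support ⊆ f.support := Finsupp.support_onFinset_subset
    rw [Finset.sum_subset hsub]
    · refine Finset.sum_congr rfl fun i _ => ?_
      simp [hfr i]
    · intro i _ hi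
      rw [Finsupp.notMem_support_iff] at hi
      simp only [Finsupp.onFinset_apply] at hi
      simp [hi]

/-! ### Independence -/

/-- The exponent of `b` attached to degree `k` and generator `i`. -/
def bexp (db : ℤ) (k : ℤ) (i : Idx M a b da db) : ℕ := ((k - deg i) / db).toNat

omit h in
lemma bexp_eq {k : ℤ} {i : Idx M a b da db} {e : ℕ} (hdb : 0 < db) (he : k - deg i = e * db) :
    bexp db k i = e := by
  unfold bexp
  rw [he, Int.mul_ediv_cancel _ hdb.ne']; simp

lemma pure_term_mem (k : ℤ) (i : Idx M a b da db) (e : ℕ) (he : k - deg i = e * db) :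
    b ^ e * gen i ∈ M k :=
  M_cast (by linarith) (h.RM_mul _ _ _ _ (h.pow_b_mem e) (gen_mem i))

/-- A combination of the "pure `b`" multiples of generators lying in `a M` vanishes. -/
theorem pure_indep : ∀ (m : ℕ) (k : ℤ), k < m → ∀ (S : Finset (Idx M a b da db))
    (c : Idx M a b da db → 𝕜), (∀ i ∈ S, ∃ e : ℕ, k - deg i = e * db) →
    (∑ i ∈ S, c i • (b ^ bexp db k i * gen i)) ∈ mulImage a (M (k - da)) →
    ∀ i ∈ S, c i = 0 := by
  classical
  intro m
  induction m with
  | zero =>
    intro k hk S c hS _ i hi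
    exfalso
    have hk' : k < 0 := by exact_mod_cast hk
    obtain ⟨e, he⟩ := hS i hi
    have h1 : 0 ≤ (e : ℤ) * db := mul_nonneg (Int.natCast_nonneg _) h.db_pos.le
    have h2 := deg_nonneg i
    omega
  | succ m ih =>
    intro k hk S c hS hmem
    obtain ⟨hh, hhM, hsum⟩ := mem_mulImage.1 hmem
    -- split according to `deg i = k`
    have hsplit := Finset.sum_filter_add_sum_filter_not S (fun i => deg i = k)
      (fun i => c i • (b ^ bexp db k i * gen i))
    -- the degree-`k` part
    have h0 : ∑ i ∈ S.filter (fun i => deg i = k), c i • (b ^ bexp db k i * gen i)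
        = ∑ i ∈ S.filter (fun i => deg i = k), c i • gen i := by
      refine Finset.sum_congr rfl fun i hi => ?_
      rw [Finset.mem_filter] at hi
      have : bexp db k i = 0 := bexp_eq h.db_pos (e := 0) (by rw [hi.2]; simp)
      rw [this, pow_zero, one_mul]
    -- the lower-degree part is a multiple of `b`
    have h1 : ∑ i ∈ S.filter (fun i => ¬ deg i = k), c i • (b ^ bexp db k i * gen i)
        = b * ∑ i ∈ S.filter (fun i => ¬ deg i = k),
            c i • (b ^ bexp db (k - db) i * gen i) := by
      rw [Finset.mul_sum]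
      refine Finset.sum_congr rfl fun i hi => ?_
      rw [Finset.mem_filter] at hi
      obtain ⟨e, he⟩ := hS i hi.1
      have he0 : e ≠ 0 := by
        rintro rfl
        apply hi.2
        simp at he; linarith
      obtain ⟨e', rfl⟩ := Nat.exists_eq_succ_of_ne_zero he0
      have e1 : bexp db k i = e' + 1 := bexp_eq h.db_pos he
      have e2 : bexp db (k - db) i = e' :=
        bexp_eq h.db_pos (by push_cast at he; linarith)
      rw [e1, e2, pow_succ, mul_smul_comm]
      congr 1; ring
    set x0 := ∑ i ∈ S.filter (fun i => deg i = k), c i • gen i with hx0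
    set w := ∑ i ∈ S.filter (fun i => ¬ deg i = k),
      c i • (b ^ bexp db (k - db) i * gen i) with hw
    have hwM : w ∈ M (k - db) := by
      refine Submodule.sum_mem _ fun i hi => Submodule.smul_mem _ _ ?_
      rw [Finset.mem_filter] at hi
      obtain ⟨e, he⟩ := hS i hi.1
      have he0 : e ≠ 0 := by
        rintro rfl
        apply hi.2
        simp at he; linarith
      obtain ⟨e', rfl⟩ := Nat.exists_eq_succ_of_ne_zero he0
      have he' : k - db - deg i = e' * db := by push_cast at he; linarith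
      rw [bexp_eq h.db_pos he']
      exact h.pure_term_mem _ i e' he'
    have hx0C : x0 ∈ compl M a b da db k := by
      refine Submodule.sum_mem _ fun i hi => Submodule.smul_mem _ _ ?_
      rw [Finset.mem_filter] at hi
      have := gen_mem_compl i
      rwa [hi.2] at this
    have heq : x0 + b * w = a * hh := by
      rw [← hsum, ← hsplit, h0, h1]
    have hx0P : x0 ∈ decomp M a b da db k := by
      have : x0 = a * hh + b * (-w) := by linear_combination heq
      rw [this]
      exact Submodule.add_mem_sup (mul_mem_mulImage hhM)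
        (mul_mem_mulImage (Submodule.neg_mem _ hwM))
    have hx00 : x0 = 0 := by
      have := (compl_disjoint M a b da db k).le_bot (Submodule.mem_inf.2 ⟨hx0C, hx0P⟩)
      simpa using this
    -- consequences
    have hk0 : ∀ i ∈ S.filter (fun i => deg i = k), c i = 0 := by
      by_cases hneg : k < 0
      · intro i hi
        rw [Finset.mem_filter] at hi
        have := deg_nonneg i
        omega
      rw [not_lt] at hneg
      obtain ⟨n, rfl⟩ := Int.eq_ofNat_of_zero_le hneg
      refine fiber_indep n _ c ?_ (hx0.symm.trans hx00)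
      intro i hi
      rw [Finset.mem_filter] at hi
      have := hi.2
      simp only [deg] at this
      exact_mod_cast this
    have hbw : b * w = a * hh := by rw [← heq, hx00, zero_add]
    obtain ⟨h', hh'M, hwh'⟩ := h.reg_b (k - db) w hh hwM (M_cast (by ring) hhM) hbw
    have hlt : k - db < m := by have := h.db_pos; push_cast at hk; omega
    have hk1 := ih (k - db) hlt (S.filter (fun i => ¬ deg i = k)) c ?_ ?_
    · intro i hi
      by_cases hd : deg i = k
      · exact hk0 i (Finset.mem_filter.2 ⟨hi, hd⟩)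
      · exact hk1 i (Finset.mem_filter.2 ⟨hi, hd⟩)
    · intro i hi
      rw [Finset.mem_filter] at hi
      obtain ⟨e, he⟩ := hS i hi.1
      have he0 : e ≠ 0 := by
        rintro rfl
        apply hi.2
        simp at he; linarith
      obtain ⟨e', rfl⟩ := Nat.exists_eq_succ_of_ne_zero he0
      exact ⟨e', by push_cast at he; linarith⟩
    · rw [← hw, hwh']
      exact mul_mem_mulImage hh'M

/-- Independence, finite-set form. -/
theorem indep_finset : ∀ (m : ℕ) (k : ℤ), k < m → ∀ (S : Finset (Idx M a b da db))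
    (r : Idx M a b da db → F), (∀ i ∈ S, r i ∈ R (k - deg i)) →
    ∑ i ∈ S, r i * gen i = 0 → ∀ i ∈ S, r i = 0 := by
  classical
  intro m
  induction m with
  | zero =>
    intro k hk S r hr _ i hi
    have hk' : k < 0 := by exact_mod_cast hk
    have h2 := deg_nonneg i
    have := hr i hi
    rw [h.R_neg _ (by omega)] at this
    simpa using this
  | succ m ih =>
    intro k hk S r hr hsum
    have hdec : ∀ i, i ∈ S → ∃ s ∈ R (k - deg i - da), ∃ c : 𝕜,
        r i = a * s + c • b ^ bexp db k i ∧ (c ≠ 0 → ∃ e : ℕ, k - deg i = e * db) := by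
      intro i hi
      have hlt : k - deg i < ((k - deg i).toNat + 1 : ℕ) := by
        have := Int.self_le_toNat (k - deg i); push_cast; omega
      exact h.R_decomp _ (k - deg i) hlt (r i) (hr i hi)
    choose! s hs c hrc hc using hdec
    -- the `a`-part
    set y := ∑ i ∈ S, s i * gen i with hy
    have hyM : y ∈ M (k - da) := by
      refine Submodule.sum_mem _ fun i hi => ?_
      exact M_cast (by ring) (h.RM_mul _ _ _ _ (hs i hi) (gen_mem i))
    have hsum' : a * y + ∑ i ∈ S, c i • (b ^ bexp db k i * gen i) = 0 := by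
      rw [← hsum, hy, Finset.mul_sum, ← Finset.sum_add_distrib]
      refine Finset.sum_congr rfl fun i hi => ?_
      rw [hrc i hi, add_mul, smul_mul_assoc, mul_assoc]
    -- restrict to the indices with `c i ≠ 0`
    have hfilter : ∑ i ∈ S.filter (fun i => c i ≠ 0), c i • (b ^ bexp db k i * gen i)
        = ∑ i ∈ S, c i • (b ^ bexp db k i * gen i) := by
      rw [Finset.sum_filter]
      refine Finset.sum_congr rfl fun i _ => ?_
      by_cases hci : c i = 0
      · simp [hci]
      · simp [hci]
    have hpure : ∀ i ∈ S.filter (fun i => c i ≠ 0), c i = 0 := by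
      refine h.pure_indep _ k hk _ c ?_ ?_
      · intro i hi
        rw [Finset.mem_filter] at hi
        exact hc i hi.1 hi.2
      · rw [hfilter]
        have : ∑ i ∈ S, c i • (b ^ bexp db k i * gen i) = a * (-y) := by
          linear_combination hsum'
        rw [this]
        exact mul_mem_mulImage (Submodule.neg_mem _ hyM)
    have hc0 : ∀ i ∈ S, c i = 0 := by
      intro i hi
      by_contra hci
      exact hci (hpure i (Finset.mem_filter.2 ⟨hi, hci⟩))
    have hay : a * y = 0 := by
      have : ∑ i ∈ S, c i • (b ^ bexp db k i * gen i) = 0 :=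
        Finset.sum_eq_zero fun i hi => by rw [hc0 i hi, zero_smul]
      rw [this, add_zero] at hsum'
      exact hsum'
    have hy0 : y = 0 := h.reg_a _ y hyM hay
    have hlt : k - da < m := by have := h.da_pos; push_cast at hk; omega
    have hs0 := ih (k - da) hlt S s (fun i hi => R_cast (by ring) (hs i hi)) hy0
    intro i hi
    rw [hrc i hi, hs0 i hi, hc0 i hi, mul_zero, zero_smul, add_zero]

/-- Independence, in finitely-supported-family form. -/
theorem indep (k : ℤ) (r : Idx M a b da db →₀ F) (hr : ∀ i, r i ∈ R (k - deg i))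
    (hsum : r.sum (fun i x => x * gen i) = 0) : r = 0 := by
  have hk : k < ((k.toNat + 1 : ℕ) : ℤ) := by
    have := Int.self_le_toNat k; push_cast; omega
  have := h.indep_finset _ k hk r.support r (fun i _ => hr i) hsum
  ext i
  by_cases hi : i ∈ r.support
  · simpa using this i hi
  · simpa using hi

end Hyp

/-- **Graded freeness.** Under `Hyp`, the graded module `M` has a homogeneous basis over `R`:
a family of homogeneous generators `f i ∈ M (d i)` such that every element of `M k` is uniquely
an `R`-combination `∑ r i * f i` with `r i ∈ R (k - d i)`. -/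
theorem exists_graded_basis (h : Hyp R M a b da db) :
    ∃ (I : Type u) (d : I → ℤ) (f : I → F),
      (∀ i, f i ∈ M (d i)) ∧ (∀ i, 0 ≤ d i) ∧ (∀ k, {i | d i = k}.Finite) ∧
      (∀ k, ∀ g ∈ M k, ∃ r : I →₀ F, (∀ i, r i ∈ R (k - d i)) ∧
        g = r.sum (fun i x => x * f i)) ∧
      (∀ k (r : I →₀ F), (∀ i, r i ∈ R (k - d i)) → r.sum (fun i x => x * f i) = 0 → r = 0) := by
  refine ⟨Idx M a b da db, deg, gen, gen_mem, deg_nonneg, ?_, h.span, h.indep⟩
  intro k
  by_cases hk : k < 0
  · convert Set.finite_empty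
    ext i
    simp only [Set.mem_ofPred_eq, Set.mem_empty_iff_false, iff_false]
    have := deg_nonneg i
    omega
  rw [not_lt] at hk
  obtain ⟨n, rfl⟩ := Int.eq_ofNat_of_zero_le hk
  have : FiniteDimensional 𝕜 (M (n : ℤ)) := h.M_fin n
  have : FiniteDimensional 𝕜 (compl M a b da db (n : ℤ)) :=
    Submodule.finiteDimensional_of_le (compl_le M a b da db n)
  have hfin : Finite (Basis.ofVectorSpaceIndex 𝕜 (compl M a b da db (n : ℤ))) := inferInstance
  have : {i : Idx M a b da db | deg i = (n : ℤ)} ⊆ Set.range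
      (fun l : Basis.ofVectorSpaceIndex 𝕜 (compl M a b da db (n : ℤ)) =>
        (⟨n, l⟩ : Idx M a b da db)) := by
    rintro ⟨m, l⟩ hi
    simp only [Set.mem_ofPred_eq, deg] at hi
    have : m = n := by exact_mod_cast hi
    subst this
    exact ⟨l, rfl⟩
  exact (Set.finite_range _).subset this

end Fermat.Agent.S20.GradedFree

end
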