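import Mathlib

/-! Growth comparison (pure arithmetic) used to count the generators of `⨁ₖ Mₖ(Γ₀(N))` over the
level-one ring. -/

set_option autoImplicit false
set_option linter.style.haveILetI false

namespace Fermat.Agent.S20.Growth

/-- If for every finite set `S` of indices the dimension count `∑_{i ∈ S} ρ (k - d i) ≤ m k`
holds, `ρ` grows at least like `k / 12` and `m` at most like `μ k / 12`, then there are at most
`μ` indices. -/
theorem finite_and_card_le {I : Type} (d : I → ℤ) (ρ m : ℤ → ℕ) (μ : ℕ)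
    (hdeven : ∀ i, Even (d i))
    (hρ : ∀ j : ℤ, 0 ≤ j → Even j → j - 11 ≤ 12 * (ρ j : ℤ))
    (hm : ∀ k : ℤ, 0 ≤ k → 12 * (m k : ℤ) ≤ k * μ + 12)
    (hsum : ∀ (k : ℤ) (S : Finset I), (∀ i ∈ S, d i ≤ k) → ∑ i ∈ S, ρ (k - d i) ≤ m k) :
    Finite I ∧ Nat.card I ≤ μ := by
  classical
  have key : ∀ S : Finset I, S.card ≤ μ := by
    intro S
    by_contra hlt
    push Not at hlt
    set D : ℤ := ∑ i ∈ S, |d i| with hD
    have hDnn : 0 ≤ D := Finset.sum_nonneg fun i _ => abs_nonneg _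
    have hdD : ∀ i ∈ S, d i ≤ D := by
      intro i hi
      calc d i ≤ |d i| := le_abs_self _
        _ ≤ D := Finset.single_le_sum (f := fun i => |d i|) (fun i _ => abs_nonneg _) hi
    set k : ℤ := 2 * (((μ : ℤ) + 1) * (D + 11) + 13 + D) with hk
    have hk0 : 0 ≤ k := by positivity
    have hkD : D ≤ k := by nlinarith
    have hkeven : Even k := ⟨((μ : ℤ) + 1) * (D + 11) + 13 + D, by rw [hk]; ring⟩
    have h1 : ∀ i ∈ S, k - D - 11 ≤ 12 * (ρ (k - d i) : ℤ) := by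
      intro i hi
      have h2 := hρ (k - d i) (by linarith [hdD i hi]) (hkeven.sub (hdeven i))
      linarith [hdD i hi]
    have h3 : (S.card : ℤ) * (k - D - 11) ≤ 12 * ∑ i ∈ S, (ρ (k - d i) : ℤ) := by
      rw [Finset.mul_sum]
      calc (S.card : ℤ) * (k - D - 11) = ∑ _i ∈ S, (k - D - 11) := by
            rw [Finset.sum_const, nsmul_eq_mul]
        _ ≤ ∑ i ∈ S, 12 * (ρ (k - d i) : ℤ) := Finset.sum_le_sum h1
    have h4 : (∑ i ∈ S, (ρ (k - d i) : ℤ)) ≤ (m k : ℤ) := by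
      have := hsum k S (fun i hi => (hdD i hi).trans hkD)
      exact_mod_cast this
    have h5 := hm k hk0
    have h6 : ((μ : ℤ) + 1) ≤ (S.card : ℤ) := by exact_mod_cast hlt
    have h7 : 0 ≤ k - D - 11 := by nlinarith
    have h8 : ((μ : ℤ) + 1) * (k - D - 11) ≤ k * μ + 12 := by
      calc ((μ : ℤ) + 1) * (k - D - 11) ≤ (S.card : ℤ) * (k - D - 11) :=
            mul_le_mul_of_nonneg_right h6 h7
        _ ≤ 12 * ∑ i ∈ S, (ρ (k - d i) : ℤ) := h3
        _ ≤ 12 * (m k : ℤ) := by linarith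
        _ ≤ k * μ + 12 := h5
    nlinarith
  have hfin : Finite I := by
    by_contra hinf
    rw [not_finite_iff_infinite] at hinf
    obtain ⟨S, hS⟩ := Infinite.exists_subset_card_eq I (μ + 1)
    have := key S
    omega
  refine ⟨hfin, ?_⟩
  haveI := Fintype.ofFinite I
  rw [Nat.card_eq_fintype_card]
  exact key Finset.univ

/-- If `μ` independent elements of weight `w` exist, there are at least `μ` indices. -/
theorem le_card {I : Type} [Fintype I] (d : I → ℤ) (ρ m : ℤ → ℕ) (μ : ℕ) (w : ℤ)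
    (hd : ∀ i, 0 ≤ d i)
    (hρlow : ∀ j : ℤ, 0 ≤ j → Even j → j - 11 ≤ 12 * (ρ j : ℤ))
    (hρup : ∀ j : ℤ, 0 ≤ j → 12 * (ρ j : ℤ) ≤ j + 12)
    (hρneg : ∀ j : ℤ, j < 0 → ρ j = 0)
    (hmid : ∀ k : ℤ, m k ≤ ∑ i, ρ (k - d i))
    (hindep : ∀ k : ℤ, μ * ρ k ≤ m (k + w)) : μ ≤ Fintype.card I := by
  by_contra hlt
  push Not at hlt
  set c : ℤ := (Fintype.card I : ℤ) with hc
  have hc0 : 0 ≤ c := by positivity
  set W : ℤ := |w| with hW
  have hW0 : 0 ≤ W := abs_nonneg _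
  have hwW : w ≤ W := le_abs_self _
  set k : ℤ := 2 * (c * (W + 23) + 12) with hk
  have hk0 : 0 ≤ k := by positivity
  have hkeven : Even k := ⟨c * (W + 23) + 12, by rw [hk]; ring⟩
  have h1 : ∀ i : I, 12 * (ρ (k + w - d i) : ℤ) ≤ k + W + 12 := by
    intro i
    rcases lt_or_ge (k + w - d i) 0 with hneg | hnn
    · rw [hρneg _ hneg]
      simp only [Nat.cast_zero, mul_zero]
      linarith
    · have := hρup _ hnn
      linarith [hd i]
  have h2 : 12 * ∑ i, (ρ (k + w - d i) : ℤ) ≤ c * (k + W + 12) := by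
    rw [Finset.mul_sum]
    calc ∑ i, 12 * (ρ (k + w - d i) : ℤ) ≤ ∑ _i : I, (k + W + 12) :=
          Finset.sum_le_sum fun i _ => h1 i
      _ = c * (k + W + 12) := by
          rw [Finset.sum_const, nsmul_eq_mul, Finset.card_univ]
  have h3 : ((μ * ρ k : ℕ) : ℤ) ≤ ∑ i, (ρ (k + w - d i) : ℤ) := by
    have := (hindep k).trans (hmid (k + w))
    exact_mod_cast this
  have h4 := hρlow k hk0 hkeven
  have h5 : (c + 1) ≤ (μ : ℤ) := by
    have : Fintype.card I + 1 ≤ μ := hlt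
    rw [hc]
    exact_mod_cast this
  have h6 : 0 ≤ k - 11 := by nlinarith
  have h7 : (c + 1) * (k - 11) ≤ c * (k + W + 12) := by
    calc (c + 1) * (k - 11) ≤ (μ : ℤ) * (k - 11) := mul_le_mul_of_nonneg_right h5 h6
      _ ≤ (μ : ℤ) * (12 * (ρ k : ℤ)) := mul_le_mul_of_nonneg_left h4 (by positivity)
      _ = 12 * ((μ * ρ k : ℕ) : ℤ) := by push_cast; ring
      _ ≤ 12 * ∑ i, (ρ (k + w - d i) : ℤ) := by linarith
      _ ≤ c * (k + W + 12) := h2
  nlinarith

end Fermat.Agent.S20.Growth
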