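import Fermat.Agent.S20.Basis
import Fermat.Agent.S20.LevelOne
import Fermat.Agent.S20.Growth

/-! P4 (growth half): the index set of a graded basis of `⨁ₖ Mₖ(Γ₀(N))` over the level-one ring
is finite of cardinality `μ = |Q N|`, given a family of `μ` independent forms. -/

set_option autoImplicit false
set_option linter.style.haveILetI false

namespace Fermat.Agent.S20

open UpperHalfPlane CongruenceSubgroup Matrix.SpecialLinearGroup ModularForm EisensteinSeries
open scoped MatrixGroups ModularForm Manifold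

noncomputable section

namespace IndexCard

section Lin

variable {𝕜 F : Type*} [Field 𝕜] [CommRing F] [Algebra 𝕜 F]

/-- the "multiply and sum" map `⨁ᵢ Vᵢ → W`, `r ↦ ∑ᵢ rᵢ gᵢ` -/
def sumMap {ι : Type*} [Fintype ι] (V : ι → Submodule 𝕜 F) (W : Submodule 𝕜 F)
    (g : ι → F) (hmem : ∀ i, ∀ x ∈ V i, x * g i ∈ W) : (∀ i, V i) →ₗ[𝕜] W where
  toFun r := ⟨∑ i, (r i : F) * g i, Submodule.sum_mem _ fun i _ => hmem i _ (r i).2⟩
  map_add' r s := by
    ext
    simp [add_mul, Finset.sum_add_distrib]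
  map_smul' c r := by
    ext
    simp [Finset.smul_sum]

theorem sum_finrank_le {ι : Type*} [Fintype ι] (V : ι → Submodule 𝕜 F) (W : Submodule 𝕜 F)
    [∀ i, FiniteDimensional 𝕜 (V i)] [FiniteDimensional 𝕜 W]
    (g : ι → F) (hmem : ∀ i, ∀ x ∈ V i, x * g i ∈ W)
    (hinj : ∀ r : ι → F, (∀ i, r i ∈ V i) → ∑ i, r i * g i = 0 → ∀ i, r i = 0) :
    ∑ i, Module.finrank 𝕜 (V i) ≤ Module.finrank 𝕜 W := by
  have hinj' : Function.Injective (sumMap V W g hmem) := by
    rw [← LinearMap.ker_eq_bot, LinearMap.ker_eq_bot']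
    intro r hr
    have h0 : ∑ i, (r i : F) * g i = 0 := congrArg Subtype.val hr
    have := hinj (fun i => (r i : F)) (fun i => (r i).2) h0
    funext i
    exact Subtype.ext (this i)
  have := LinearMap.finrank_le_finrank_of_injective hinj'
  rwa [Module.finrank_pi_fintype] at this

theorem finrank_le_sum {ι : Type*} [Fintype ι] (V : ι → Submodule 𝕜 F) (W : Submodule 𝕜 F)
    [∀ i, FiniteDimensional 𝕜 (V i)] [FiniteDimensional 𝕜 W]
    (g : ι → F) (hmem : ∀ i, ∀ x ∈ V i, x * g i ∈ W)
    (hsurj : ∀ m ∈ W, ∃ r : ι → F, (∀ i, r i ∈ V i) ∧ m = ∑ i, r i * g i) :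
    Module.finrank 𝕜 W ≤ ∑ i, Module.finrank 𝕜 (V i) := by
  have hsurj' : Function.Surjective (sumMap V W g hmem) := by
    rintro ⟨m, hm⟩
    obtain ⟨r, hr, hsum⟩ := hsurj m hm
    exact ⟨fun i => ⟨r i, hr i⟩, Subtype.ext hsum.symm⟩
  have := LinearMap.finrank_le_finrank_of_surjective hsurj'
  rwa [Module.finrank_pi_fintype] at this

end Lin

end IndexCard

open IndexCard in
/-- The index set of a graded basis is finite of cardinality `μ`. -/
theorem card_index_eq (N : ℕ) [NeZero N] {I : Type} (d : I → ℤ) (f : I → ℍ → ℂ)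
    (hmem : ∀ i, IsMF N (d i) (f i)) (hd : ∀ i, 0 ≤ d i)
    (hspan : ∀ k, ∀ g, IsMF N k g → ∃ r : I →₀ (ℍ → ℂ), (∀ i, IsMF 1 (k - d i) (r i)) ∧
      g = r.sum (fun i x => x * f i))
    (hindep : ∀ k (r : I →₀ (ℍ → ℂ)), (∀ i, IsMF 1 (k - d i) (r i)) →
      r.sum (fun i x => x * f i) = 0 → r = 0)
    (hfam : ∃ (w : ℤ) (v : Q N → ℍ → ℂ), (∀ a, IsMF N w (v a)) ∧
      ∀ (k : ℤ) (r : Q N → ℍ → ℂ), (∀ a, IsMF 1 k (r a)) → ∑ a, r a * v a = 0 → ∀ a, r a = 0) :
    Finite I ∧ Nat.card I = Nat.card (Q N) := by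
  classical
  haveI hfdN : ∀ k, FiniteDimensional ℂ (MkSub N k) := finiteDimensional_MkSub N
  haveI hfd1 : ∀ k, FiniteDimensional ℂ (MkSub 1 k) := finiteDimensional_MkSub 1
  -- the generators are nonzero
  have hne : ∀ i, f i ≠ 0 := by
    intro i hfi
    have h1 := hindep (d i) (Finsupp.single i 1) (fun j => by
      rcases eq_or_ne j i with rfl | hji
      · rw [Finsupp.single_eq_same]
        exact (isMF_one 1).cast (sub_self _).symm
      · rw [Finsupp.single_eq_of_ne hji]
        exact isMF_zero _ _) (by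
      rw [Finsupp.sum_single_index (by simp), hfi, mul_zero])
    have h2 := DFunLike.congr_fun h1 i
    rw [Finsupp.single_eq_same, Finsupp.zero_apply] at h2
    exact one_ne_zero h2
  -- hence of even weight
  have hdeven : ∀ i, Even (d i) := by
    intro i
    rcases Int.even_or_odd (d i) with h | h
    · exact h
    · exfalso
      apply hne i
      have : f i ∈ MkSub N (d i) := hmem i
      rw [MkSub_eq_bot_of_odd N h] at this
      exact (Submodule.mem_bot ℂ).mp this
  set ρ : ℤ → ℕ := fun k => Module.finrank ℂ (MkSub 1 k) with hρdef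
  set m : ℤ → ℕ := fun k => Module.finrank ℂ (MkSub N k) with hmdef
  have hmul : ∀ (k : ℤ) (i : I), ∀ x ∈ MkSub 1 (k - d i), x * f i ∈ MkSub N k := by
    intro k i x hx
    exact ((IsMF.of_levelOne hx).mul (hmem i)).cast (by ring)
  -- lower count on finite subsets
  have hsum : ∀ (k : ℤ) (S : Finset I), (∀ i ∈ S, d i ≤ k) → ∑ i ∈ S, ρ (k - d i) ≤ m k := by
    intro k S _
    have h1 := sum_finrank_le (𝕜 := ℂ) (ι := S) (fun i => MkSub 1 (k - d i)) (MkSub N k)
      (fun i => f i) (fun i x hx => hmul k i x hx) (by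
        intro r hr hsum0
        set r'' : I → (ℍ → ℂ) := fun j => if h : j ∈ S then r ⟨j, h⟩ else 0 with hr''
        have hsupp : ∀ j, r'' j ≠ 0 → j ∈ S := by
          intro j hj
          by_contra hjS
          exact hj (by simp [hr'', hjS])
        set r' : I →₀ (ℍ → ℂ) := Finsupp.onFinset S r'' hsupp with hr'
        have hr'mem : ∀ j, IsMF 1 (k - d j) (r' j) := by
          intro j
          by_cases hj : j ∈ S
          · have : r' j = r ⟨j, hj⟩ := by simp [hr', hr'', hj]
            rw [this]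
            exact hr ⟨j, hj⟩
          · have : r' j = 0 := by simp [hr', hr'', hj]
            rw [this]
            exact isMF_zero _ _
        have hsum' : r'.sum (fun i x => x * f i) = 0 := by
          rw [Finsupp.onFinset_sum _ (fun a => zero_mul _), ← hsum0, ← Finset.sum_coe_sort S]
          refine Finset.sum_congr rfl fun j _ => ?_
          simp [hr'']
        have h0 := hindep k r' hr'mem hsum'
        intro i
        have := DFunLike.congr_fun h0 (i : I)
        simpa [hr', hr''] using this)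
    rw [Finset.sum_coe_sort S (fun i => Module.finrank ℂ (MkSub 1 (k - d i)))] at h1
    exact h1
  obtain ⟨hfin, hle⟩ := Growth.finite_and_card_le d ρ m (Nat.card (Q N)) hdeven
    (fun j hj hj2 => finrank_MkSub_one_lower hj hj2)
    (fun k hk => sturm_finrank N hk) hsum
  refine ⟨hfin, le_antisymm hle ?_⟩
  haveI := Fintype.ofFinite I
  rw [Nat.card_eq_fintype_card (α := I)]
  obtain ⟨w, v, hv, hvindep⟩ := hfam
  refine Growth.le_card d ρ m (Nat.card (Q N)) w hd
    (fun j hj hj2 => finrank_MkSub_one_lower hj hj2)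
    (fun j hj => by
      rcases Int.even_or_odd j with hj2 | hj2
      · exact finrank_MkSub_one_upper hj hj2
      · show 12 * ((Module.finrank ℂ (MkSub 1 j) : ℕ) : ℤ) ≤ j + 12
        rw [MkSub_eq_bot_of_odd 1 hj2, finrank_bot]
        simp only [Nat.cast_zero, mul_zero]
        linarith)
    (fun j hj => by
      show Module.finrank ℂ (MkSub 1 j) = 0
      rw [MkSub_eq_bot_of_neg 1 hj]
      exact finrank_bot ℂ (ℍ → ℂ)) ?_ ?_
  · intro k
    refine finrank_le_sum (𝕜 := ℂ) (ι := I) (fun i => MkSub 1 (k - d i)) (MkSub N k)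
      f (fun i x hx => hmul k i x hx) ?_
    intro g hg
    obtain ⟨r, hr, hsumg⟩ := hspan k g hg
    refine ⟨fun i => r i, hr, ?_⟩
    rw [hsumg, Finsupp.sum_fintype _ _ (fun i => zero_mul _)]
  · intro k
    have h1 := sum_finrank_le (𝕜 := ℂ) (ι := Q N) (fun _ => MkSub 1 k) (MkSub N (k + w))
      v (fun a x hx => (IsMF.of_levelOne hx).mul (hv a)) (fun r hr h0 => hvindep k r hr h0)
    rw [Finset.sum_const, Finset.card_univ, smul_eq_mul, ← Nat.card_eq_fintype_card] at h1
    exact h1

end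

end Fermat.Agent.S20
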