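import Fermat.Agent.S20.Basis
import Fermat.Agent.S20.RegSeq
import Fermat.Agent.S20.LevelOne
import Fermat.Agent.S20.GradedFree
import Fermat.Agent.S20.IndexCard
import Fermat.Agent.S20.Rank

/-! P3': existence of a homogeneous free basis of `⨁ₖ Mₖ(Γ₀(N))` over the level-one ring,
indexed by the cosets `Q N`. Wiring of P1 (level one), P2 (regular sequence), P3 (graded
freeness) and P4 (number of generators). -/

set_option autoImplicit false
set_option linter.style.haveILetI false

namespace Fermat.Agent.S20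

open UpperHalfPlane CongruenceSubgroup Matrix.SpecialLinearGroup ModularForm EisensteinSeries
open scoped MatrixGroups ModularForm Manifold

noncomputable section

/-- The hypotheses of the abstract graded freeness theorem hold for `R = M(SL₂(ℤ))`,
`M = M(Γ₀(N))`, `a = E₄`, `b = E₆`. -/
theorem hyp_MF (N : ℕ) [NeZero N] :
    GradedFree.Hyp (𝕜 := ℂ) (F := ℍ → ℂ) (fun k => MkSub 1 k) (fun k => MkSub N k)
      (⇑E₄) (⇑E₆) 4 6 where
  da_pos := by norm_num
  db_pos := by norm_num
  R_zero := MkSub_zero 1
  R_neg := fun k hk => MkSub_eq_bot_of_neg 1 hk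
  a_mem := isMF_E4
  b_mem := isMF_E6
  R_mul := fun j k x y hx hy => IsMF.mul hx hy
  R_gen := by
    intro k hk x hx
    rcases lt_or_gt_of_ne hk with hneg | hpos
    · have h0 : x = 0 := by
        have : x ∈ MkSub 1 k := hx
        rw [MkSub_eq_bot_of_neg 1 hneg] at this
        exact (Submodule.mem_bot ℂ).mp this
      exact ⟨0, Submodule.zero_mem _, 0, Submodule.zero_mem _, by rw [h0]; simp⟩
    · obtain ⟨s, t, hs, ht, hst⟩ := levelOne_decomp hpos hx
      exact ⟨s, hs, t, ht, hst⟩
  M_neg := fun k hk => MkSub_eq_bot_of_neg N hk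
  RM_mul := fun j k x m hx hm => IsMF.mul (IsMF.of_levelOne hx) hm
  M_fin := fun k => finiteDimensional_MkSub N k
  reg_a := fun k f hf h => IsMF.eq_zero_of_E4_mul_eq_zero hf h
  reg_b := fun k f g hf hg h => exists_mem_MkSub_eq_E4_mul hf hg h

/-- Reindexing: a graded basis indexed by a finite type of cardinality `μ = |Q N|` gives a
`FreeBasis N`. -/
theorem nonempty_freeBasis_of_index (N : ℕ) [NeZero N] {I : Type} [Finite I]
    (hcard : Nat.card I = Nat.card (Q N)) (d : I → ℤ) (f : I → ℍ → ℂ)
    (hd : ∀ i, 0 ≤ d i) (hmem : ∀ i, IsMF N (d i) (f i))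
    (hspan : ∀ k, ∀ g, IsMF N k g → ∃ r : I →₀ (ℍ → ℂ), (∀ i, IsMF 1 (k - d i) (r i)) ∧
      g = r.sum (fun i x => x * f i))
    (hindep : ∀ k (r : I →₀ (ℍ → ℂ)), (∀ i, IsMF 1 (k - d i) (r i)) →
      r.sum (fun i x => x * f i) = 0 → r = 0) :
    Nonempty (FreeBasis N) := by
  classical
  haveI : Fintype I := Fintype.ofFinite I
  have e : Q N ≃ I :=
    (Finite.equivFin (Q N)).trans ((finCongr hcard.symm).trans (Finite.equivFin I).symm)
  have hdnat : ∀ i, ((d i).toNat : ℤ) = d i := fun i => Int.toNat_of_nonneg (hd i)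
  refine ⟨{ d := fun q => (d (e q)).toNat
            f := fun q => f (e q)
            mem := fun q => by rw [hdnat]; exact hmem (e q)
            span := ?_
            indep := ?_ }⟩
  · intro k m hm
    obtain ⟨r, hr, hsum⟩ := hspan k m hm
    refine ⟨fun q => r (e q), fun q => by rw [hdnat]; exact hr (e q), ?_⟩
    rw [hsum, Finsupp.sum_fintype _ _ (fun i => by simp)]
    exact (Equiv.sum_comp e (fun i => r i * f i)).symm
  · intro k r hr hsum q
    let r' : I →₀ (ℍ → ℂ) := Finsupp.equivFunOnFinite.symm (fun i => r (e.symm i))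
    have hr' : ∀ i, IsMF 1 (k - d i) (r' i) := by
      intro i
      have := hr (e.symm i)
      rw [hdnat, Equiv.apply_symm_apply] at this
      exact this
    have hsum' : r'.sum (fun i x => x * f i) = 0 := by
      rw [Finsupp.sum_fintype _ _ (fun i => by simp), ← hsum, ← Equiv.sum_comp e]
      refine Finset.sum_congr rfl fun q _ => ?_
      simp [r']
    have h0 := hindep k r' hr' hsum'
    have := DFunLike.congr_fun h0 (e q)
    simpa [r'] using this

/-- Existence of a free basis, given a family of `μ` forms of a common weight which are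
independent over the level-one ring (P4, analytic half). -/
theorem exists_freeBasis_of_family (N : ℕ) [NeZero N]
    (hfam : ∃ (w : ℤ) (v : Q N → ℍ → ℂ), (∀ a, IsMF N w (v a)) ∧
      ∀ (k : ℤ) (r : Q N → ℍ → ℂ), (∀ a, IsMF 1 k (r a)) → ∑ a, r a * v a = 0 → ∀ a, r a = 0) :
    Nonempty (FreeBasis N) := by
  obtain ⟨I, d, f, hmem, hd, -, hspan, hindep⟩ := GradedFree.exists_graded_basis (hyp_MF N)
  obtain ⟨hfinI, hcard⟩ := card_index_eq N d f hmem hd hspan hindep hfam
  exact nonempty_freeBasis_of_index N hcard d f hd hmem hspan hindep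

/-- **P3'**: `⨁ₖ Mₖ(Γ₀(N))` has a homogeneous free basis over the level-one ring, indexed by
the cosets `Q N`. -/
theorem exists_freeBasis (N : ℕ) [NeZero N] : Nonempty (FreeBasis N) :=
  exists_freeBasis_of_family N (exists_indep_family N)

end

end Fermat.Agent.S20
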