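import Mathlib

set_option autoImplicit false

namespace Fermat.Agent.S20

open Finset

/-- Number of indices of a given weight. -/
def cnt {ι : Type*} [Fintype ι] (d : ι → ℕ) (k : ℕ) : ℕ :=
  (Finset.univ.filter fun i => d i = k).card

theorem sum_comp_eq_sum_cnt {ι : Type*} [Fintype ι] {M : Type*} [AddCommMonoid M]
    (d : ι → ℕ) (h10 : ∀ i, d i ≤ 10) (hev : ∀ i, Even (d i)) (φ : ℕ → M) :
    ∑ i, φ (d i) = cnt d 0 • φ 0 + cnt d 2 • φ 2 + cnt d 4 • φ 4 + cnt d 6 • φ 6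
      + cnt d 8 • φ 8 + cnt d 10 • φ 10 := by
  classical
  have hmaps : ∀ i ∈ (Finset.univ : Finset ι), d i ∈ ({0, 2, 4, 6, 8, 10} : Finset ℕ) := by
    intro i _
    have h1 := h10 i
    obtain ⟨m, hm⟩ := hev i
    have : m ≤ 5 := by omega
    interval_cases m <;> simp [hm]
  rw [← Finset.sum_fiberwise_of_maps_to hmaps]
  have hinner : ∀ k : ℕ, ∑ i ∈ Finset.univ.filter (fun i => d i = k), φ (d i) = cnt d k • φ k := by
    intro k
    rw [Finset.sum_congr rfl (g := fun _ => φ k)]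
    · rw [Finset.sum_const]; rfl
    · intro i hi
      rw [(Finset.mem_filter.mp hi).2]
  simp only [hinner]
  rw [Finset.sum_insert (by decide), Finset.sum_insert (by decide), Finset.sum_insert (by decide),
    Finset.sum_insert (by decide), Finset.sum_insert (by decide), Finset.sum_singleton]
  abel

theorem zeta_table {ζ : ℂ} (hζ : ζ ^ 2 - ζ + 1 = 0) :
    ζ ^ 2 = ζ - 1 ∧ ζ ^ 4 = -ζ ∧ ζ ^ 6 = 1 ∧ ζ ^ 8 = ζ - 1 ∧ ζ ^ 10 = -ζ := by
  have h2 : ζ ^ 2 = ζ - 1 := by linear_combination hζ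
  have h4 : ζ ^ 4 = -ζ := by
    have : ζ ^ 4 = (ζ ^ 2) ^ 2 := by ring
    rw [this, h2]; linear_combination hζ
  have h6 : ζ ^ 6 = 1 := by
    have : ζ ^ 6 = ζ ^ 4 * ζ ^ 2 := by ring
    rw [this, h4, h2]; linear_combination -hζ
  refine ⟨h2, h4, h6, ?_, ?_⟩
  · have : ζ ^ 8 = ζ ^ 6 * ζ ^ 2 := by ring
    rw [this, h6, h2, one_mul]
  · have : ζ ^ 10 = ζ ^ 6 * ζ ^ 4 := by ring
    rw [this, h6, h4, one_mul]

theorem zeta_not_real {ζ : ℂ} (hζ : ζ ^ 2 - ζ + 1 = 0) {a b : ℝ} (h : (a : ℂ) + b * ζ = 0) :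
    a = 0 ∧ b = 0 := by
  by_cases hb : b = 0
  · subst hb
    simp at h
    exact ⟨h, rfl⟩
  · exfalso
    have hz : ζ = ((-a / b : ℝ) : ℂ) := by
      have hb' : (b : ℂ) ≠ 0 := by exact_mod_cast hb
      push_cast
      field_simp
      linear_combination h
    set t : ℝ := -a / b
    rw [hz] at hζ
    have : t ^ 2 - t + 1 = 0 := by exact_mod_cast hζ
    nlinarith [sq_nonneg (t - 1 / 2)]

/-- The linear system determining the number of generators of weight `10` and `2`. -/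
theorem linear_system {ι : Type*} [Fintype ι] (d : ι → ℕ) (h10 : ∀ i, d i ≤ 10)
    (hev : ∀ i, Even (d i)) (μ ν2 ν3 c : ℕ) (ζ : ℂ) (hζ : ζ ^ 2 - ζ + 1 = 0)
    (h0 : cnt d 0 = 1) (hμ : Fintype.card ι = μ)
    (hI : ∑ i, Complex.I ^ d i = (ν2 : ℂ)) (hz : ∑ i, ζ ^ d i = (ν3 : ℂ))
    (hwt : ((∑ i, d i : ℕ) : ℤ) = 6 * ((μ : ℤ) - c)) :
    (cnt d 10 : ℚ) = 1 + (μ : ℚ) / 12 - (ν2 : ℚ) / 4 - (ν3 : ℚ) / 3 - (c : ℚ) / 2 ∧
    (cnt d 2 : ℚ) = cnt d 10 + c - 1 := by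
  obtain ⟨z2, z4, z6, z8, z10⟩ := zeta_table hζ
  -- cardinality
  have e1 := sum_comp_eq_sum_cnt d h10 hev (fun _ => (1 : ℕ))
  simp only [Finset.sum_const, Finset.card_univ, smul_eq_mul, mul_one] at e1
  rw [hμ] at e1
  -- weights
  have e2 := sum_comp_eq_sum_cnt d h10 hev (fun k => k)
  simp only [smul_eq_mul] at e2
  -- powers of I
  have e3 := sum_comp_eq_sum_cnt d h10 hev (fun k => Complex.I ^ k)
  rw [hI] at e3
  have I2 : Complex.I ^ 2 = -1 := Complex.I_sq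
  have I4 : Complex.I ^ 4 = 1 := Complex.I_pow_four
  have I6 : Complex.I ^ 6 = -1 := by
    have : Complex.I ^ 6 = Complex.I ^ 4 * Complex.I ^ 2 := by ring
    rw [this, I4, I2]; ring
  have I8 : Complex.I ^ 8 = 1 := by
    have : Complex.I ^ 8 = Complex.I ^ 4 * Complex.I ^ 4 := by ring
    rw [this, I4]; ring
  have I10 : Complex.I ^ 10 = -1 := by
    have : Complex.I ^ 10 = Complex.I ^ 8 * Complex.I ^ 2 := by ring
    rw [this, I8, I2]; ring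
  simp only [pow_zero, I2, I4, I6, I8, I10, nsmul_eq_mul] at e3
  have e3' : (ν2 : ℤ) = (cnt d 0 : ℤ) - cnt d 2 + cnt d 4 - cnt d 6 + cnt d 8 - cnt d 10 := by
    have : ((ν2 : ℤ) : ℂ) = (((cnt d 0 : ℤ) - cnt d 2 + cnt d 4 - cnt d 6 + cnt d 8 - cnt d 10 : ℤ) : ℂ) := by
      push_cast
      rw [e3]; ring
    exact_mod_cast this
  -- powers of ζ
  have e4 := sum_comp_eq_sum_cnt d h10 hev (fun k => ζ ^ k)
  rw [hz] at e4
  simp only [pow_zero, z2, z4, z6, z8, z10, nsmul_eq_mul] at e4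
  have e4' : (((cnt d 0 : ℝ) + cnt d 6 - cnt d 2 - cnt d 8 - ν3 : ℝ) : ℂ)
      + ((cnt d 2 : ℝ) + cnt d 8 - cnt d 4 - cnt d 10 : ℝ) * ζ = 0 := by
    push_cast
    rw [e4]; ring
  obtain ⟨e5, e6⟩ := zeta_not_real hζ e4'
  have e5' : (ν3 : ℤ) = (cnt d 0 : ℤ) + cnt d 6 - cnt d 2 - cnt d 8 := by
    have : ((ν3 : ℤ) : ℝ) = (((cnt d 0 : ℤ) + cnt d 6 - cnt d 2 - cnt d 8 : ℤ) : ℝ) := by
      push_cast; linarith
    exact_mod_cast this
  have e6' : (cnt d 2 : ℤ) + cnt d 8 = cnt d 4 + cnt d 10 := by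
    have : (((cnt d 2 : ℤ) + cnt d 8 : ℤ) : ℝ) = (((cnt d 4 : ℤ) + cnt d 10 : ℤ) : ℝ) := by
      push_cast; linarith
    exact_mod_cast this
  have e1' : (μ : ℤ) = (cnt d 0 : ℤ) + cnt d 2 + cnt d 4 + cnt d 6 + cnt d 8 + cnt d 10 := by
    exact_mod_cast e1
  have e2' : (6 : ℤ) * ((μ : ℤ) - c) = (cnt d 0 : ℤ) * 0 + cnt d 2 * 2 + cnt d 4 * 4 + cnt d 6 * 6
      + cnt d 8 * 8 + cnt d 10 * 10 := by
    rw [← hwt, e2]; push_cast; ring
  have h0' : (cnt d 0 : ℤ) = 1 := by exact_mod_cast h0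
  have k10 : (12 : ℤ) * cnt d 10 = μ - 3 * ν2 - 4 * ν3 + 12 - 6 * c := by linarith
  have k2 : (cnt d 2 : ℤ) = cnt d 10 + c - 1 := by linarith
  constructor
  · have : (12 : ℚ) * cnt d 10 = μ - 3 * ν2 - 4 * ν3 + 12 - 6 * c := by exact_mod_cast k10
    linarith
  · exact_mod_cast k2

end Fermat.Agent.S20
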