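import Fermat.Agent.S20.Basis
import Fermat.Agent.S20.LinSys
import Fermat.Agent.S20.LevelOne
import Fermat.Agent.S20.Dual

set_option autoImplicit false

namespace Fermat.Agent.S20

open UpperHalfPlane CongruenceSubgroup Matrix.SpecialLinearGroup
open scoped MatrixGroups ModularForm Manifold

noncomputable section

variable {N : ℕ} [NeZero N]

theorem hb_exists_const_of_weight_zero {f : ℍ → ℂ} (hf : IsMF N 0 f) :
    ∃ c : ℂ, f = fun _ => c := by
  obtain ⟨c, hc⟩ := ModularForm.eq_const_of_weight_zero hf.toMF
  refine ⟨c, ?_⟩
  have h2 : f = Function.const ℍ c := by simpa using hc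
  rw [h2]; rfl

/-- the indicator coefficient family used to test independence -/
theorem hb_isMF_single_const {i : Q N} (d : Q N → ℕ) (k : ℤ) (hk : k = d i) (c : ℂ) (j : Q N) :
    IsMF 1 (k - d j) (if j = i then (fun _ => c : ℍ → ℂ) else 0) := by
  by_cases hji : j = i
  · subst hji
    simp only [if_true]
    have : k - (d j : ℤ) = 0 := by omega
    rw [this]
    exact isMF_const 1 c
  · simp only [hji, if_false]
    exact isMF_zero _ _

/-- There is exactly one generator of weight `0`. -/
theorem FreeBasis.cnt_zero (B : FreeBasis N) : cnt B.d 0 = 1 := by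
  classical
  unfold cnt
  rw [Finset.card_eq_one]
  -- existence
  obtain ⟨r, hr, h1⟩ := B.span 0 (1 : ℍ → ℂ) (isMF_one N)
  have hex : ∃ i, B.d i = 0 := by
    by_contra hne
    push Not at hne
    have : ∀ i, r i = 0 := fun i =>
      IsMF.eq_zero_of_neg (by have := Nat.pos_of_ne_zero (hne i); omega) (hr i)
    have h0 : (1 : ℍ → ℂ) = 0 := by
      rw [h1]
      exact Finset.sum_eq_zero fun i _ => by rw [this i, zero_mul]
    have := congrFun h0 UpperHalfPlane.I
    simp at this
  obtain ⟨i, hi⟩ := hex
  refine ⟨i, ?_⟩
  ext j
  simp only [Finset.mem_filter, Finset.mem_univ, true_and, Finset.mem_singleton]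
  constructor
  · intro hj
    by_contra hji
    -- both `f i` and `f j` are constants
    obtain ⟨a, ha⟩ := hb_exists_const_of_weight_zero (N := N) (by simpa [hi] using B.mem i)
    obtain ⟨b, hb⟩ := hb_exists_const_of_weight_zero (N := N) (by simpa [hj] using B.mem j)
    have hrel := B.indep 0
      (fun l => if l = i then (fun _ => b : ℍ → ℂ) else if l = j then (fun _ => -a) else 0) ?_ ?_ i
    · simp only [if_true] at hrel
      have hb0 : b = 0 := by simpa using congrFun hrel UpperHalfPlane.I
      apply B.f_ne_zero j
      rw [hb, hb0]; rfl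
    · intro l
      by_cases hli : l = i
      · subst hli
        simp only [if_true, hi]
        simpa using isMF_const 1 b
      · by_cases hlj : l = j
        · subst hlj
          simp only [hli, if_false, if_true, hj]
          simpa using isMF_const 1 (-a)
        · simp only [hli, hlj, if_false]
          exact isMF_zero _ _
    · rw [Finset.sum_eq_add_of_mem i j (Finset.mem_univ _) (Finset.mem_univ _) (Ne.symm hji)]
      · simp only [if_true, hji, if_false]
        rw [ha, hb]
        ext z
        simp
        ring
      · intro l _ hl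
        simp [hl.1, hl.2]
  · rintro rfl
    exact hi

end

end Fermat.Agent.S20
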