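import Mathlib
import Fermat.Agent.S20.Defs

set_option autoImplicit false

/-!
# S20 / P6: the Serre derivative preserves `IsMF N`, and `D Δ = E₂ Δ`.
-/

namespace Fermat.Agent.S20

open UpperHalfPlane CongruenceSubgroup
open scoped MatrixGroups ModularForm Manifold
open Derivative

noncomputable section

/-- Cauchy estimate: if `φ` is holomorphic on `ℍ` and bounded by `M` on `{im ≥ A}` then
`deriv (φ ∘ ofComplex)` is bounded by `M` on `{im ≥ max A 0 + 2}`. -/
theorem norm_deriv_comp_ofComplex_le {φ : ℍ → ℂ} (hφ : MDiff φ) {M A : ℝ}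
    (hb : ∀ z : ℍ, A ≤ im z → ‖φ z‖ ≤ M) (z : ℍ) (hz : max A 0 + 2 ≤ im z) :
    ‖deriv (φ ∘ ofComplex) (z : ℂ)‖ ≤ M := by
  have hφ' : DifferentiableOn ℂ (φ ∘ ofComplex) upperHalfPlaneSet :=
    UpperHalfPlane.mdifferentiable_iff.mp hφ
  have hA := le_max_left A 0
  have h0 := le_max_right A 0
  have him : ∀ w ∈ Metric.closedBall (z : ℂ) 1, A ≤ w.im ∧ 0 < w.im := by
    intro w hw
    rw [Metric.mem_closedBall, Complex.dist_eq] at hw
    have h1 : |(w - (z : ℂ)).im| ≤ 1 := (Complex.abs_im_le_norm _).trans hw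
    rw [Complex.sub_im, abs_le] at h1
    have : (z : ℂ).im = im z := rfl
    constructor <;> linarith [h1.1]
  have hsub : Metric.closedBall (z : ℂ) 1 ⊆ upperHalfPlaneSet := fun w hw => (him w hw).2
  have hd : DiffContOnCl ℂ (φ ∘ ofComplex) (Metric.ball (z : ℂ) 1) :=
    hφ'.diffContOnCl_ball hsub
  have hC : ∀ w ∈ Metric.sphere (z : ℂ) 1, ‖(φ ∘ ofComplex) w‖ ≤ M := by
    intro w hw
    have hw' := him w (Metric.sphere_subset_closedBall hw)
    rw [Function.comp_apply, ofComplex_apply_of_im_pos hw'.2]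
    exact hb _ hw'.1
  simpa using Complex.norm_deriv_le_of_forall_mem_sphere_norm_le one_pos hd hC

/-- `D` preserves boundedness at `i∞` for holomorphic functions. -/
theorem isBoundedAtImInfty_D {φ : ℍ → ℂ} (hφ : MDiff φ) (hb : IsBoundedAtImInfty φ) :
    IsBoundedAtImInfty (D φ) := by
  rw [UpperHalfPlane.isBoundedAtImInfty_iff] at hb ⊢
  obtain ⟨M, A, hMA⟩ := hb
  refine ⟨‖(2 * (Real.pi : ℂ) * Complex.I)⁻¹‖ * M, max A 0 + 2, fun z hz => ?_⟩
  rw [normalizedDerivOfComplex, norm_mul]
  exact mul_le_mul_of_nonneg_left (norm_deriv_comp_ofComplex_le hφ hMA z hz) (norm_nonneg _)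

/-- The Serre derivative preserves boundedness at `i∞` for holomorphic functions. -/
theorem isBoundedAtImInfty_serreDerivative (k : ℂ) {φ : ℍ → ℂ} (hφ : MDiff φ)
    (hb : IsBoundedAtImInfty φ) : IsBoundedAtImInfty (serreDerivative k φ) := by
  have h1 : IsBoundedAtImInfty (D φ) := isBoundedAtImInfty_D hφ hb
  have h2 : IsBoundedAtImInfty (fun z : ℍ => k * 12⁻¹ * EisensteinSeries.E2 z * φ z) := by
    have hc : IsBoundedAtImInfty (fun _ : ℍ => k * 12⁻¹) := Filter.const_boundedAtFilter _ _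
    exact (hc.mul EisensteinSeries.isBoundedAtImInfty_E2).mul hb
  exact h1.sub h2

/-- The Serre derivative maps `M_k(Γ₀(N))` to `M_{k+2}(Γ₀(N))`. -/
theorem IsMF.serre {N : ℕ} {k : ℤ} {f : ℍ → ℂ} (hf : IsMF N k f) :
    IsMF N (k + 2) (serreDerivative k f) := by
  refine ⟨serreDerivative_mdifferentiable _ hf.1, fun γ hγ => ?_, fun δ => ?_⟩
  · exact serreDerivative_slash_invariant hf.1 (hf.2.1 γ hγ)
  · rw [serreDerivative_slash_equivariant hf.1]
    exact isBoundedAtImInfty_serreDerivative _ (hf.1.slash k δ) (hf.2.2 δ)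

end

end Fermat.Agent.S20

namespace Fermat.Agent.S20

open UpperHalfPlane
open scoped MatrixGroups ModularForm Manifold
open Derivative

/-- `D Δ = E₂ Δ`. -/
theorem D_delta (z : ℍ) :
    D ModularForm.discriminant z = EisensteinSeries.E2 z * ModularForm.discriminant z := by
  have hη : DifferentiableAt ℂ ModularForm.eta (z : ℂ) :=
    ModularForm.differentiableAt_eta_of_mem_upperHalfPlaneSet z.2
  have hne : ModularForm.eta (z : ℂ) ≠ 0 := ModularForm.eta_ne_zero z.2
  have hlog := ModularForm.logDeriv_eta_eq_E2 z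
  rw [logDeriv_apply, div_eq_iff hne] at hlog
  have hev : (ModularForm.discriminant ∘ ofComplex) =ᶠ[nhds (z : ℂ)]
      fun w => ModularForm.eta w ^ 24 := by
    filter_upwards [isOpen_upperHalfPlaneSet.mem_nhds z.2] with w hw
    simp [ModularForm.discriminant, ofComplex_apply_of_im_pos hw]
  have hd : HasDerivAt (fun w => ModularForm.eta w ^ 24)
      (24 * ModularForm.eta (z : ℂ) ^ 23 * deriv ModularForm.eta (z : ℂ)) (z : ℂ) := by
    have := hη.hasDerivAt.fun_pow 24
    simpa using this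
  rw [normalizedDerivOfComplex, (hd.congr_of_eventuallyEq hev).deriv, hlog,
    ModularForm.discriminant]
  have hpi : (2 * (Real.pi : ℂ) * Complex.I) ≠ 0 := by
    simp [Real.pi_ne_zero]
  field_simp
  ring

/-- `D Δ = E₂ Δ`, for the coercion of the cusp form `Δ`. -/
theorem D_delta_coe (z : ℍ) :
    D (⇑CuspForm.discriminant) z = EisensteinSeries.E2 z * CuspForm.discriminant z :=
  D_delta z

/-- The weight `12` Serre derivative kills `Δ`. -/
theorem serreDerivative_delta : serreDerivative 12 ModularForm.discriminant = 0 := by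
  funext z
  rw [serreDerivative_apply, D_delta z, Pi.zero_apply]
  have h12 : (12 : ℂ) ≠ 0 := by norm_num
  field_simp
  ring

end Fermat.Agent.S20
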