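import Mathlib

set_option autoImplicit false

/-!
# Jacobi's formula for the derivative of a determinant

For a matrix-valued function `F : ℂ → Matrix n n ℂ` whose entries are differentiable at `z` with
derivatives `F' i j`, the determinant is differentiable at `z` with derivative
`trace (adjugate (F z) * F')`.  In particular, if `F' = M * F z` (a linear ODE), the derivative of
the determinant is `trace M * det (F z)`.
-/

namespace Fermat.Agent.S20

open Matrix Finset

variable {n : Type*} [Fintype n] [DecidableEq n]

/-- algebraic identity behind Jacobi's formula (valid in any commutative ring) -/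
theorem sum_perm_sum_prod_erase_eq_trace {R : Type*} [CommRing R] (A B : Matrix n n R) :
    ∑ σ : Equiv.Perm n, ((Equiv.Perm.sign σ : ℤ) : R) *
        ∑ k, (∏ i ∈ (univ : Finset n).erase k, A (σ i) i) * B (σ k) k =
      Matrix.trace (A.adjugate * B) := by
  -- right-hand side: `∑ k, det (A.updateCol k (B · k))`
  have hR : Matrix.trace (A.adjugate * B) = ∑ k, (A.updateCol k fun j => B j k).det := by
    simp only [Matrix.trace, Matrix.diag_apply]
    refine Finset.sum_congr rfl fun k _ => ?_
    rw [← Matrix.cramer_apply, Matrix.cramer_eq_adjugate_mulVec]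
    simp only [Matrix.mul_apply, Matrix.mulVec, dotProduct]
  rw [hR]
  simp only [Matrix.det_apply', Finset.mul_sum]
  rw [Finset.sum_comm]
  refine Finset.sum_congr rfl fun k _ => ?_
  refine Finset.sum_congr rfl fun σ _ => ?_
  congr 1
  rw [← Finset.prod_erase_mul (univ : Finset n) _ (Finset.mem_univ k)]
  congr 1
  · refine Finset.prod_congr rfl fun i hi => ?_
    rw [Matrix.updateCol_ne (Finset.ne_of_mem_erase hi)]
  · rw [Matrix.updateCol_self]

/-- **Jacobi's formula** for the derivative of the determinant of a matrix of differentiable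
functions of one complex variable. -/
theorem hasDerivAt_det {F : ℂ → Matrix n n ℂ} {F' : Matrix n n ℂ} {z : ℂ}
    (h : ∀ i j, HasDerivAt (fun w => F w i j) (F' i j) z) :
    HasDerivAt (fun w => (F w).det) (Matrix.trace ((F z).adjugate * F')) z := by
  have h1 : ∀ σ : Equiv.Perm n, HasDerivAt (fun w => ∏ i, F w (σ i) i)
      (∑ k, (∏ i ∈ (univ : Finset n).erase k, F z (σ i) i) * F' (σ k) k) z := by
    intro σ
    have := HasDerivAt.fun_finsetProd (u := (univ : Finset n))
      (f := fun i w => F w (σ i) i) (f' := fun i => F' (σ i) i) (x := z)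
      (fun i _ => h (σ i) i)
    simpa [smul_eq_mul] using this
  have h2 : HasDerivAt (fun w => ∑ σ : Equiv.Perm n,
      ((Equiv.Perm.sign σ : ℤ) : ℂ) * ∏ i, F w (σ i) i)
      (∑ σ : Equiv.Perm n, ((Equiv.Perm.sign σ : ℤ) : ℂ) *
        ∑ k, (∏ i ∈ (univ : Finset n).erase k, F z (σ i) i) * F' (σ k) k) z :=
    HasDerivAt.fun_sum fun σ _ => (h1 σ).const_mul _
  rw [sum_perm_sum_prod_erase_eq_trace] at h2
  refine h2.congr_of_eventuallyEq (Filter.Eventually.of_forall fun w => ?_)
  simp only [Matrix.det_apply']

/-- Liouville/Abel: if the matrix satisfies the linear ODE `F' = M * F z` at `z`, the determinant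
has derivative `trace M * det (F z)`. -/
theorem hasDerivAt_det_of_eq_mul {F : ℂ → Matrix n n ℂ} {M : Matrix n n ℂ} {z : ℂ}
    (h : ∀ i j, HasDerivAt (fun w => F w i j) ((M * F z) i j) z) :
    HasDerivAt (fun w => (F w).det) (Matrix.trace M * (F z).det) z := by
  have := hasDerivAt_det h
  have e : Matrix.trace ((F z).adjugate * (M * F z)) = Matrix.trace M * (F z).det := by
    rw [Matrix.trace_mul_comm, Matrix.mul_assoc, Matrix.mul_adjugate, Matrix.mul_smul,
      Matrix.mul_one, Matrix.trace_smul, smul_eq_mul, mul_comm]
  rwa [e] at this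

end Fermat.Agent.S20
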