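import Fermat.Agent.S20.Basis
import Fermat.Agent.S20.DetDeriv

set_option autoImplicit false

namespace Fermat.Agent.S20

open UpperHalfPlane CongruenceSubgroup Matrix.SpecialLinearGroup Derivative
open scoped MatrixGroups ModularForm Manifold

noncomputable section

local notation "Δ" => ModularForm.discriminant
local notation "E2" => EisensteinSeries.E2

/-- (P6 output) the Serre derivative preserves modular forms of level `N`. -/
def SerreStable (N : ℕ) : Prop :=
  ∀ (k : ℤ) (f : ℍ → ℂ), IsMF N k f → IsMF N (k + 2) (serreDerivative k f)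

/-- (P6 output) the differential equation of the discriminant. -/
def DeltaODE : Prop := ∀ z : ℍ, D Δ z = E2 z * Δ z

/-- There is no nonzero level one form of weight two (function level). -/
theorem isMF_one_two_eq_zero {f : ℍ → ℂ} (hf : IsMF 1 2 f) : f = 0 := by
  have h := ModularForm.levelOne_weight_two_rank_zero
  have h2 : hf.toMFOne = 0 := by
    have : Subsingleton (ModularForm 𝒮ℒ 2) := by
      rw [rank_zero_iff] at h
      exact h
    exact Subsingleton.elim _ _
  have := congrArg (fun F : ModularForm 𝒮ℒ 2 => (⇑F : ℍ → ℂ)) h2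
  simpa using this

theorem slash_mul_levelOne {k l : ℤ} {r f : ℍ → ℂ} (hr : IsMF 1 k r) (g : SL(2, ℤ)) :
    (r * f) ∣[k + l] g = r * (f ∣[l] g) := by
  rw [ModularForm.mul_slash_SL2, hr.slash_levelOne]

theorem cosetFn_levelOne_mul {N : ℕ} {k l : ℤ} {r f : ℍ → ℂ} (hr : IsMF 1 k r) (q : Q N) :
    cosetFn N (k + l) (r * f) q = r * cosetFn N l f q := by
  unfold cosetFn
  exact slash_mul_levelOne hr _

theorem cosetFn_sum {N : ℕ} {k : ℤ} {ι : Type*} (s : Finset ι) (F : ι → ℍ → ℂ) (q : Q N) :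
    cosetFn N k (∑ i ∈ s, F i) q = ∑ i ∈ s, cosetFn N k (F i) q := by
  unfold cosetFn
  exact SlashAction.sum_slash _ _

theorem cosetFn_serre {N : ℕ} {k : ℤ} {f : ℍ → ℂ} (hf : MDiff f) (q : Q N) :
    cosetFn N (k + 2) (serreDerivative k f) q = serreDerivative k (cosetFn N k f q) := by
  unfold cosetFn
  exact serreDerivative_slash_equivariant hf

theorem cosetFn_mdiff {N : ℕ} {k : ℤ} {f : ℍ → ℂ} (hf : MDiff f) (q : Q N) :
    MDiff (cosetFn N k f q) := hf.slash k _

variable {N : ℕ} [NeZero N]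


theorem FreeBasis.exists_serre_coeffs (B : FreeBasis N) (hS : SerreStable N) :
    ∃ r : Q N → Q N → ℍ → ℂ, (∀ i j, IsMF 1 ((B.d i : ℤ) + 2 - B.d j) (r i j)) ∧
      (∀ i, r i i = 0) ∧
      ∀ i, serreDerivative (B.d i : ℤ) (B.f i) = ∑ j, r i j * B.f j := by
  have h : ∀ i, ∃ r : Q N → ℍ → ℂ, (∀ j, IsMF 1 ((B.d i : ℤ) + 2 - B.d j) (r j)) ∧
      serreDerivative (B.d i : ℤ) (B.f i) = ∑ j, r j * B.f j := fun i =>
    B.span _ _ (hS _ _ (B.mem i))
  choose r hr1 hr2 using h
  refine ⟨r, hr1, fun i => ?_, hr2⟩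
  have := hr1 i i
  have e : (B.d i : ℤ) + 2 - B.d i = 2 := by ring
  rw [e] at this
  exact isMF_one_two_eq_zero this

theorem FreeBasis.serre_cosetFn (B : FreeBasis N) {r : Q N → Q N → ℍ → ℂ}
    (hr1 : ∀ i j, IsMF 1 ((B.d i : ℤ) + 2 - B.d j) (r i j))
    (hr2 : ∀ i, serreDerivative (B.d i : ℤ) (B.f i) = ∑ j, r i j * B.f j) (i q : Q N) :
    serreDerivative (B.d i : ℤ) (cosetFn N (B.d i) (B.f i) q)
      = ∑ j, r i j * cosetFn N (B.d j) (B.f j) q := by
  rw [← cosetFn_serre (B.mem i).1, hr2 i, cosetFn_sum]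
  refine Finset.sum_congr rfl fun j _ => ?_
  have e : (B.d i : ℤ) + 2 = ((B.d i : ℤ) + 2 - B.d j) + B.d j := by ring
  rw [e]
  exact cosetFn_levelOne_mul (hr1 i j) q

theorem hasDerivAt_of_mdiff {G : ℍ → ℂ} (hG : MDiff G) (z : ℍ) :
    HasDerivAt (G ∘ ofComplex) (2 * Real.pi * Complex.I * D G z) (z : ℂ) := by
  have h := (mdifferentiableAt_iff.mp (hG z)).hasDerivAt
  have e : 2 * Real.pi * Complex.I * D G z = deriv (G ∘ ofComplex) z := by
    unfold normalizedDerivOfComplex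
    have : (2 * (Real.pi : ℂ) * Complex.I) ≠ 0 := by
      simp [Real.pi_ne_zero]
    field_simp
  rw [e]
  exact h

theorem D_eq_of_serre {k : ℂ} {G : ℍ → ℂ} (z : ℍ) :
    D G z = serreDerivative k G z + k * 12⁻¹ * E2 z * G z := by
  simp [serreDerivative_apply]

/-- The logarithmic derivative of `det (B.mat)` is `2πi (wt/12) E₂`. -/
theorem FreeBasis.hasDerivAt_det (B : FreeBasis N) (hS : SerreStable N) (z : ℍ) :
    HasDerivAt (fun w : ℂ => (B.mat (ofComplex w)).det)
      (2 * Real.pi * Complex.I * ((B.wt : ℂ) * 12⁻¹ * E2 z) * (B.mat z).det) (z : ℂ) := by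
  obtain ⟨r, hr1, hr0, hr2⟩ := B.exists_serre_coeffs hS
  have key := B.serre_cosetFn hr1 hr2
  let M : Matrix (Q N) (Q N) ℂ := fun i j =>
    2 * Real.pi * Complex.I * (r i j z + if i = j then (B.d i : ℂ) * 12⁻¹ * E2 z else 0)
  have hentry : ∀ i q, HasDerivAt (fun w : ℂ => (B.mat (ofComplex w)) i q)
      ((M * B.mat (ofComplex (z : ℂ))) i q) (z : ℂ) := by
    intro i q
    have h1 := hasDerivAt_of_mdiff (cosetFn_mdiff (k := B.d i) (B.mem i).1 q) z
    have h2 : D (cosetFn N (B.d i) (B.f i) q) z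
        = (∑ j, r i j * cosetFn N (B.d j) (B.f j) q) z
          + (B.d i : ℂ) * 12⁻¹ * E2 z * cosetFn N (B.d i) (B.f i) q z := by
      rw [D_eq_of_serre (k := ((B.d i : ℤ) : ℂ)) z, key i q]
      simp
    have h3 : (M * B.mat (ofComplex (z : ℂ))) i q
        = 2 * Real.pi * Complex.I * D (cosetFn N (B.d i) (B.f i) q) z := by
      rw [h2, Matrix.mul_apply, ofComplex_apply]
      simp only [M, FreeBasis.mat, Finset.sum_apply, Pi.mul_apply]
      simp only [mul_add, add_mul, Finset.sum_add_distrib, mul_ite, ite_mul, mul_zero, zero_mul,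
        Finset.sum_ite_eq, Finset.mem_univ, if_true, Finset.mul_sum]
      congr 1
      · refine Finset.sum_congr rfl fun j _ => ?_
        ring
      · ring
    rw [h3]
    exact h1
  have hdet := hasDerivAt_det_of_eq_mul (F := fun w : ℂ => B.mat (ofComplex w)) (M := M)
    (z := (z : ℂ)) hentry
  have htr : Matrix.trace M = 2 * Real.pi * Complex.I * ((B.wt : ℂ) * 12⁻¹ * E2 z) := by
    simp only [Matrix.trace, Matrix.diag, M, if_true, hr0, Pi.zero_apply, zero_add]
    rw [← Finset.mul_sum, ← Finset.sum_mul, ← Finset.sum_mul]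
    simp [FreeBasis.wt]
  rw [htr, ofComplex_apply] at hdet
  exact hdet

theorem mdiff_discriminant : MDiff (Δ : ℍ → ℂ) := by
  have := CuspFormClass.holo CuspForm.discriminant
  exact this

theorem hasDerivAt_discriminant (hΔ : DeltaODE) (z : ℍ) :
    HasDerivAt (fun w : ℂ => Δ (ofComplex w)) (2 * Real.pi * Complex.I * (E2 z * Δ z)) (z : ℂ) := by
  have h := hasDerivAt_of_mdiff mdiff_discriminant z
  rw [hΔ z] at h
  exact h

/-- `det(B.mat)^12 / Δ^wt` is constant on `ℍ`. -/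
theorem FreeBasis.det_pow_eq (B : FreeBasis N) (hS : SerreStable N) (hΔ : DeltaODE) :
    ∃ c : ℂ, ∀ z : ℍ, (B.mat z).det ^ 12 = c * Δ z ^ B.wt := by
  set g : ℂ → ℂ := fun w => (B.mat (ofComplex w)).det ^ 12 / Δ (ofComplex w) ^ B.wt with hg
  have hderiv : ∀ z : ℍ, HasDerivAt g 0 (z : ℂ) := by
    intro z
    have h1 := (B.hasDerivAt_det hS z).fun_pow 12
    have h2 := (hasDerivAt_discriminant hΔ z).fun_pow B.wt
    have hne : Δ (ofComplex (z : ℂ)) ^ B.wt ≠ 0 :=
      pow_ne_zero _ (ModularForm.discriminant_ne_zero _)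
    have h3 := h1.fun_div h2 hne
    refine h3.congr_deriv ?_
    rw [ofComplex_apply]
    have hz := ModularForm.discriminant_ne_zero z
    rcases Nat.eq_zero_or_pos B.wt with h0 | hpos
    · simp [h0]
    · obtain ⟨m, hm⟩ : ∃ m, B.wt = m + 1 := ⟨B.wt - 1, by omega⟩
      rw [hm]
      field_simp
      push_cast
      ring
  have hconst : ∀ x ∈ upperHalfPlaneSet, ∀ y ∈ upperHalfPlaneSet, g x = g y := by
    intro x hx y hy
    refine IsOpen.is_const_of_deriv_eq_zero isOpen_upperHalfPlaneSet ?_ ?_ ?_ hx hy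
    · exact (convex_halfSpace_im_gt 0).isPreconnected
    · intro w hw
      exact (hderiv ⟨w, hw⟩).differentiableAt.differentiableWithinAt
    · intro w hw
      exact (hderiv ⟨w, hw⟩).deriv
  refine ⟨g (UpperHalfPlane.I : ℍ), fun z => ?_⟩
  have := hconst (z : ℂ) z.2 ((UpperHalfPlane.I : ℍ) : ℂ) (UpperHalfPlane.I : ℍ).2
  rw [← this, hg]
  simp only [ofComplex_apply]
  field_simp [pow_ne_zero _ (ModularForm.discriminant_ne_zero z)]

/-- If the determinant is not identically zero, then `det^12 = c Δ^wt` with `c ≠ 0`. -/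
theorem FreeBasis.det_pow_eq_of_ne (B : FreeBasis N) (hS : SerreStable N) (hΔ : DeltaODE)
    (hne : ∃ z : ℍ, (B.mat z).det ≠ 0) :
    ∃ c : ℂ, c ≠ 0 ∧ ∀ z : ℍ, (B.mat z).det ^ 12 = c * Δ z ^ B.wt := by
  obtain ⟨c, hc⟩ := B.det_pow_eq hS hΔ
  refine ⟨c, ?_, hc⟩
  rintro rfl
  obtain ⟨z, hz⟩ := hne
  have := hc z
  rw [zero_mul] at this
  exact hz (pow_eq_zero_iff (by norm_num) |>.mp this)

/-- The determinant of the matrix of translates of a free basis vanishes nowhere on `ℍ`. -/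
theorem FreeBasis.det_ne_zero (B : FreeBasis N) (hS : SerreStable N) (hΔ : DeltaODE)
    (hne : ∃ z : ℍ, (B.mat z).det ≠ 0) (z : ℍ) : (B.mat z).det ≠ 0 := by
  obtain ⟨c, hc0, hc⟩ := B.det_pow_eq_of_ne hS hΔ hne
  intro h
  have := hc z
  rw [h, zero_pow (by norm_num)] at this
  exact mul_ne_zero hc0 (pow_ne_zero _ (ModularForm.discriminant_ne_zero z)) this.symm

end

end Fermat.Agent.S20
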