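import Mathlib

/-!
# P9a: eigenbasis (block DFT) for the permutation action of a group element on a finite set
-/

set_option autoImplicit false

namespace Fermat.Agent.S20.PermDFT

open Matrix Complex Real

noncomputable section

/-- `exp(-2πi/w)`. -/
def zinv (w : ℕ) : ℂ := Complex.exp (-(2 * π * I / (w : ℂ)))

theorem zinv_pow (w k : ℕ) :
    zinv w ^ k = Complex.exp (-(2 * π * I * (k : ℂ) / (w : ℂ))) := by
  rw [zinv, ← Complex.exp_nat_mul]; congr 1; ring

theorem zinv_isPrimitiveRoot {w : ℕ} (hw : w ≠ 0) : IsPrimitiveRoot (zinv w) w := by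
  have h := (Complex.isPrimitiveRoot_exp w hw).inv
  have e : zinv w = (Complex.exp (2 * π * I / (w : ℂ)))⁻¹ := by
    unfold zinv
    rw [← Complex.exp_neg]
  rw [e]
  exact h

theorem zinv_pow_self (w : ℕ) : zinv w ^ w = 1 := by
  rcases Nat.eq_zero_or_pos w with rfl | hw
  · simp
  · exact (zinv_isPrimitiveRoot hw.ne').pow_eq_one

/-- The DFT (Vandermonde) matrix of size `w`. -/
def dft (w : ℕ) : Matrix (Fin w) (Fin w) ℂ :=
  Matrix.vandermonde (fun j : Fin w => zinv w ^ (j : ℕ))

theorem dft_apply (w : ℕ) (j k : Fin w) : dft w j k = zinv w ^ ((j : ℕ) * (k : ℕ)) := by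
  rw [dft, Matrix.vandermonde_apply, pow_mul]

theorem dft_det_ne_zero (w : ℕ) : (dft w).det ≠ 0 := by
  rw [dft, Matrix.det_vandermonde_ne_zero_iff]
  intro j k h
  have hw : w ≠ 0 := by
    rintro rfl
    exact j.elim0
  exact Fin.ext ((zinv_isPrimitiveRoot hw).pow_inj j.2 k.2 h)

section orbits

variable {G X : Type*} [Group G] [MulAction G X] [Finite X] (g : G)

/-- The orbits of the cyclic group generated by `g`. -/
abbrev Orb : Type _ := MulAction.orbitRel.Quotient (Subgroup.zpowers g) X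

/-- A representative of an orbit. -/
def rep (o : Orb (X := X) g) : X := Quotient.out o

/-- The length of an orbit. -/
def per (o : Orb (X := X) g) : ℕ := Function.minimalPeriod (g • ·) (rep g o)

theorem per_pos (o : Orb (X := X) g) : 0 < per g o := by
  apply Function.minimalPeriod_pos_of_mem_periodicPts
  exact Function.Injective.mem_periodicPts (MulAction.injective g) _

omit [Finite X] in
theorem pow_per_smul (o : Orb (X := X) g) : g ^ per g o • rep g o = rep g o := by
  have := MulAction.pow_smul_mod_minimalPeriod (a := g) (b := rep g o) (per g o)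
  unfold per at this ⊢
  rw [Nat.mod_self, pow_zero, one_smul] at this
  exact this.symm

/-- The parametrisation of `X` by orbits and positions in the orbit. -/
def toX : (Σ o : Orb (X := X) g, Fin (per g o)) → X := fun x => g ^ (x.2 : ℕ) • rep g x.1

omit [Finite X] in
theorem mk_toX (x : Σ o : Orb (X := X) g, Fin (per g o)) :
    (Quotient.mk'' (toX g x) : Orb (X := X) g) = x.1 := by
  have h1 : (Quotient.mk'' (rep g x.1) : Orb (X := X) g) = x.1 := Quotient.out_eq' x.1
  rw [← h1]
  apply Quotient.sound'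
  rw [MulAction.orbitRel_apply]
  refine ⟨⟨g ^ (x.2 : ℕ), Subgroup.pow_mem _ (Subgroup.mem_zpowers g) _⟩, rfl⟩

omit [Finite X] in
theorem toX_injective : Function.Injective (toX (X := X) g) := by
  rintro ⟨o, k⟩ ⟨o', k'⟩ h
  have ho : o = o' := by
    have h1 := mk_toX g ⟨o, k⟩
    have h2 := mk_toX g ⟨o', k'⟩
    rw [h] at h1
    exact h1.symm.trans h2
  subst ho
  have hk : (k : ℕ) = (k' : ℕ) := by
    have h' : (g • ·)^[(k : ℕ)] (rep g o) = (g • ·)^[(k' : ℕ)] (rep g o) := by
      simpa [toX, smul_iterate] using h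
    exact Function.iterate_injOn_Iio_minimalPeriod k.2 k'.2 h'
  rw [Fin.ext hk]

theorem toX_surjective : Function.Surjective (toX (X := X) g) := by
  intro x
  set o : Orb (X := X) g := Quotient.mk'' x with ho
  have hrel : (MulAction.orbitRel (Subgroup.zpowers g) X) x (rep g o) := by
    have : (Quotient.mk'' (rep g o) : Orb (X := X) g) = Quotient.mk'' x := Quotient.out_eq' o
    exact (MulAction.orbitRel (Subgroup.zpowers g) X).symm (Quotient.exact' this)
  rw [MulAction.orbitRel_apply] at hrel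
  obtain ⟨⟨h, hh⟩, hx⟩ := hrel
  obtain ⟨n, rfl⟩ := Subgroup.mem_zpowers_iff.mp hh
  have hx' : g ^ n • rep g o = x := hx
  have hper : (0 : ℤ) < (per g o : ℤ) := by exact_mod_cast per_pos g o
  have hmod := MulAction.zpow_smul_mod_minimalPeriod g (rep g o) n
  have hnn : 0 ≤ n % (per g o : ℤ) := Int.emod_nonneg _ hper.ne'
  have hlt : n % (per g o : ℤ) < per g o := Int.emod_lt_of_pos _ hper
  refine ⟨⟨o, ⟨(n % (per g o : ℤ)).toNat, ?_⟩⟩, ?_⟩
  · have := (Int.toNat_lt hnn).mpr hlt
    exact this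
  · change g ^ ((n % (per g o : ℤ)).toNat) • rep g o = x
    rw [← hx', ← hmod, ← zpow_natCast, Int.toNat_of_nonneg hnn]
    rfl

/-- `X ≃ Σ o, Fin (per o)`. -/
def equivX : (Σ o : Orb (X := X) g, Fin (per g o)) ≃ X :=
  Equiv.ofBijective (toX g) ⟨toX_injective g, toX_surjective g⟩

/-- the shift on `Σ o, Fin (per o)`. -/
def shift (x : Σ o : Orb (X := X) g, Fin (per g o)) : Σ o : Orb (X := X) g, Fin (per g o) :=
  ⟨x.1, ⟨((x.2 : ℕ) + 1) % per g x.1, Nat.mod_lt _ (per_pos g x.1)⟩⟩

theorem toX_shift (x : Σ o : Orb (X := X) g, Fin (per g o)) :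
    toX g (shift g x) = g • toX g x := by
  obtain ⟨o, k⟩ := x
  change g ^ (((k : ℕ) + 1) % per g o) • rep g o = g • g ^ (k : ℕ) • rep g o
  unfold per
  rw [MulAction.pow_smul_mod_minimalPeriod, pow_succ', mul_smul]

end orbits

section main

variable {G X : Type*} [Group G] [MulAction G X] [Fintype X] [DecidableEq X] (g : G)

theorem sum_fin_div (n : ℕ) (hn : 0 < n) :
    ∑ k : Fin n, ((k : ℕ) : ℚ) / (n : ℚ) = ((n : ℚ) - 1) / 2 := by
  rw [← Finset.sum_div, Fin.sum_univ_eq_sum_range (fun k => (k : ℚ)) n]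
  have h := Finset.sum_range_id_mul_two n
  have h' : (∑ i ∈ Finset.range n, (i : ℚ)) * 2 = (n : ℚ) * ((n : ℚ) - 1) := by
    have : ((∑ i ∈ Finset.range n, i : ℕ) : ℚ) * 2 = ((n * (n - 1) : ℕ) : ℚ) := by
      exact_mod_cast h
    rw [Nat.cast_sum] at this
    rw [this, Nat.cast_mul, Nat.cast_sub hn, Nat.cast_one]
  have hn0 : (n : ℚ) ≠ 0 := by exact_mod_cast hn.ne'
  field_simp
  linarith

/-- **P9a.** Eigenbasis of the permutation action of `g` on a finite set `X`. -/
theorem exists_dft :
    ∃ (U : Matrix X X ℂ) (e w : X → ℕ), U.det ≠ 0 ∧ (∀ x, e x < w x) ∧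
      (∀ q x, U (g • q) x =
        Complex.exp (-(2 * π * I * (e x : ℂ) / (w x : ℂ))) * U q x) ∧
      ∑ x, ((e x : ℚ) / (w x : ℚ)) = ((Fintype.card X : ℚ) -
        (Nat.card (MulAction.orbitRel.Quotient (Subgroup.zpowers g) X) : ℚ)) / 2 := by
  classical
  let _ : Fintype (Orb (X := X) g) := Fintype.ofFinite _
  set φ := equivX (X := X) g with hφ
  let UY : Matrix (Σ o : Orb (X := X) g, Fin (per g o)) (Σ o : Orb (X := X) g, Fin (per g o)) ℂ :=
    Matrix.blockDiagonal' (fun o => dft (per g o))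
  have hφshift : ∀ q : X, φ.symm (g • q) = shift g (φ.symm q) := by
    intro q
    apply φ.injective
    rw [Equiv.apply_symm_apply]
    change g • q = toX g (shift g (φ.symm q))
    rw [toX_shift]
    congr 1
    exact (Equiv.apply_symm_apply φ q).symm
  refine ⟨Matrix.reindex φ φ UY, fun x => ((φ.symm x).2 : ℕ), fun x => per g (φ.symm x).1,
    ?_, ?_, ?_, ?_⟩
  · rw [Matrix.det_reindex_self]
    apply Matrix.det_ne_zero_of_right_inverse
      (B := Matrix.blockDiagonal' (fun o => (dft (per g o))⁻¹))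
    rw [← Matrix.blockDiagonal'_mul]
    have : (fun o : Orb (X := X) g => dft (per g o) * (dft (per g o))⁻¹) = 1 := by
      funext o
      exact Matrix.mul_nonsing_inv _ (isUnit_iff_ne_zero.mpr (dft_det_ne_zero _))
    rw [this, Matrix.blockDiagonal'_one]
  · intro x; exact (φ.symm x).2.2
  · intro q x
    simp only [Matrix.reindex_apply, Matrix.submatrix_apply]
    rw [hφshift q, ← zinv_pow]
    obtain ⟨o, k⟩ := φ.symm q
    obtain ⟨o', k'⟩ := φ.symm x
    simp only [UY, shift, Matrix.blockDiagonal'_apply]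
    by_cases h : o = o'
    · subst h
      simp only [dif_pos, cast_eq, dft_apply]
      rw [← pow_add]
      have hper := zinv_pow_self (per g o)
      have key : ∀ a : ℕ, zinv (per g o) ^ ((a % per g o) * (k' : ℕ)) =
          zinv (per g o) ^ (a * (k' : ℕ)) := by
        intro a
        conv_rhs => rw [← Nat.mod_add_div a (per g o)]
        rw [add_mul, pow_add, mul_assoc, pow_mul (zinv (per g o)) (per g o), hper, one_pow,
          mul_one]
      rw [key]
      congr 1; ring
    · simp only [dif_neg h, mul_zero]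
  · let F : (Σ o : Orb (X := X) g, Fin (per g o)) → ℚ :=
      fun y => ((y.2 : ℕ) : ℚ) / (per g y.1 : ℚ)
    refine Eq.trans (Equiv.sum_comp φ.symm F) ?_
    rw [Fintype.sum_sigma]
    have h1 : ∀ o : Orb (X := X) g, ∑ k : Fin (per g o), ((k : ℕ) : ℚ) / (per g o : ℚ) =
        ((per g o : ℚ) - 1) / 2 := fun o => sum_fin_div _ (per_pos g o)
    have hcard : (Fintype.card X : ℚ) = ∑ o : Orb (X := X) g, (per g o : ℚ) := by
      rw [← Fintype.card_congr φ, Fintype.card_sigma]
      simp
    rw [hcard, Nat.card_eq_fintype_card]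
    calc ∑ o : Orb (X := X) g, ∑ k : Fin (per g o), F ⟨o, k⟩
        = ∑ o : Orb (X := X) g, ((per g o : ℚ) - 1) / 2 := Finset.sum_congr rfl (fun o _ => h1 o)
      _ = _ := by
        rw [← Finset.sum_div, Finset.sum_sub_distrib]
        simp [Finset.card_univ]

end main

end

end Fermat.Agent.S20.PermDFT
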