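import Fermat.Agent.S20.Basis
import Fermat.Agent.S20.DetF
import Fermat.Agent.S20.LevelOne
import Fermat.Agent.S20.Serre
import Fermat.Agent.S20.RegSeq
import Fermat.Agent.S20.PermDFT
import Fermat.Agent.S20.TwistedPeriodic

set_option autoImplicit false
set_option linter.unusedSectionVars false

/-!
# S20 / P9c: the matrix of translates of a free basis at the cusp `i∞`

With `U` a block DFT matrix for the action of `T⁻¹` on `Q N`, the matrix
`H z = B.mat z * U * diag (exp (-2πi λ_x z))` has a limit `L` at `i∞` and `det L ≠ 0` (freeness of the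
basis).  Comparing with `det (B.mat z) ^ 12 = c Δ ^ wt` gives `wt = 12 ∑ λ_x = 6 (μ - #cusps)`.
-/

namespace Fermat.Agent.S20

open Complex Filter Function
open UpperHalfPlane hiding I
open CongruenceSubgroup Matrix.SpecialLinearGroup
open scoped Real Topology Manifold MatrixGroups ModularForm

noncomputable section

namespace CuspMatrix

local notation "Δ" => ModularForm.discriminant
local notation "T" => ModularGroup.T

/-! ### general helpers -/

theorem tendsto_delta_mul_expFn :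
    Tendsto (fun z : ℍ => Δ z * expFn (-1) z) atImInfty (𝓝 1) := by
  refine ModularForm.tendsto_atImInfty_tprod_one_sub_eta_q_pow.congr ?_
  intro z
  rw [ModularForm.discriminant_eq_q_prod, ← expFn_one]
  have := expFn_neg_mul 1 z
  linear_combination (-(∏' n, (1 - ModularForm.eta_q n z) ^ 24)) * this

theorem isBounded_of_tendsto {φ : ℍ → ℂ} {l : ℂ} (h : Tendsto φ atImInfty (𝓝 l)) :
    IsBoundedAtImInfty φ := by
  unfold IsBoundedAtImInfty BoundedAtFilter
  exact h.isBigO_one ℝ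

theorem neg_one_mem_Gamma0 (N : ℕ) : (-1 : SL(2, ℤ)) ∈ Gamma0 N := by
  rw [Gamma0_mem]
  simp

/-- forms of odd weight for `Γ₀(N)` vanish -/
theorem eq_zero_of_odd_weight {N : ℕ} {k : ℤ} {f : ℍ → ℂ} (hk : Odd k) (hf : IsMF N k f) :
    f = 0 := by
  funext z
  have h := congrFun (hf.2.1 (-1) (neg_one_mem_Gamma0 N)) z
  rw [ModularForm.SL_slash_apply] at h
  have h1 : ((-1 : SL(2, ℤ)) • z) = z := by
    simp
  have h2 : denom ((-1 : SL(2, ℤ)) : GL (Fin 2) ℝ) z = -1 := by
    simp [denom]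
  rw [h1, h2, Odd.neg_one_zpow (by simpa using hk.neg)] at h
  have h3 : (2 : ℂ) * f z = 0 := by linear_combination -h
  simpa using h3


theorem mdiff_sum {ι : Type*} (s : Finset ι) (F : ι → ℍ → ℂ) (h : ∀ i ∈ s, MDiff (F i)) :
    MDiff (fun z => ∑ i ∈ s, F i z) := by
  classical
  induction s using Finset.induction_on with
  | empty => simpa using (mdifferentiable_const : MDiff (fun _ : ℍ => (0 : ℂ)))
  | insert a s ha ih =>
    have h1 : MDiff (F a) := h a (Finset.mem_insert_self a s)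
    have h2 := ih (fun i hi => h i (Finset.mem_insert_of_mem hi))
    have : (fun z => ∑ i ∈ insert a s, F i z) = F a + fun z => ∑ i ∈ s, F i z := by
      funext z
      simp [Finset.sum_insert ha]
    rw [this]
    exact h1.add h2

theorem isBounded_sum {ι : Type*} (s : Finset ι) (F : ι → ℍ → ℂ)
    (h : ∀ i ∈ s, IsBoundedAtImInfty (F i)) :
    IsBoundedAtImInfty (fun z => ∑ i ∈ s, F i z) := by
  unfold IsBoundedAtImInfty BoundedAtFilter at *
  refine (Asymptotics.IsBigO.sum h).congr_left ?_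
  intro z
  simp [Finset.sum_apply]

theorem isBounded_mul_const {φ : ℍ → ℂ} (h : IsBoundedAtImInfty φ) (c : ℂ) :
    IsBoundedAtImInfty (fun z => φ z * c) :=
  h.mul (Filter.const_boundedAtFilter _ c)

/-! ### eigen-data for the action of `T⁻¹` on the cosets -/

/-- eigen-data for the action of `T⁻¹` on the cosets (the output of `PermDFT.exists_dft`) -/
structure CuspData (N : ℕ) [NeZero N] where
  /-- the block DFT matrix -/
  U : Matrix (Q N) (Q N) ℂ
  /-- numerators of the exponents -/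
  e : Q N → ℕ
  /-- widths -/
  w : Q N → ℕ
  det_ne : U.det ≠ 0
  lt : ∀ x, e x < w x
  eig : ∀ q x, U ((T⁻¹ : SL(2, ℤ)) • q) x =
    cexp (-(2 * π * I * (e x : ℂ) / (w x : ℂ))) * U q x
  sum_eq : ∑ x, ((e x : ℚ) / (w x : ℚ)) = ((Fintype.card (Q N) : ℚ) -
    (Nat.card (MulAction.orbitRel.Quotient (Subgroup.zpowers (T⁻¹ : SL(2, ℤ))) (Q N)) : ℚ)) / 2

theorem exists_cuspData (N : ℕ) [NeZero N] : Nonempty (CuspData N) := by
  obtain ⟨U, e, w, h1, h2, h3, h4⟩ := PermDFT.exists_dft (X := Q N) (T⁻¹ : SL(2, ℤ))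
  exact ⟨⟨U, e, w, h1, h2, h3, h4⟩⟩

variable {N : ℕ} [NeZero N]

/-- the exponent `λ_x ∈ [0, 1)` -/
def CuspData.lam (C : CuspData N) (x : Q N) : ℝ := (C.e x : ℝ) / (C.w x : ℝ)

theorem CuspData.lam_nonneg (C : CuspData N) (x : Q N) : 0 ≤ C.lam x :=
  div_nonneg (Nat.cast_nonneg _) (Nat.cast_nonneg _)

theorem CuspData.lam_lt_one (C : CuspData N) (x : Q N) : C.lam x < 1 := by
  have h := C.lt x
  have hw : (0 : ℝ) < (C.w x : ℝ) := by
    exact_mod_cast Nat.lt_of_le_of_lt (Nat.zero_le _) h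
  unfold CuspData.lam
  rw [div_lt_one hw]
  exact_mod_cast h

theorem CuspData.eig' (C : CuspData N) (q x : Q N) :
    C.U ((T : SL(2, ℤ)) • q) x = cexp (2 * π * I * (C.lam x : ℝ)) * C.U q x := by
  have h := C.eig ((T : SL(2, ℤ)) • q) x
  rw [inv_smul_smul] at h
  rw [h, ← mul_assoc, ← Complex.exp_add]
  have : 2 * (π : ℂ) * I * ((C.lam x : ℝ) : ℂ) + -(2 * π * I * (C.e x : ℂ) / (C.w x : ℂ)) = 0 := by
    unfold CuspData.lam
    push_cast
    ring
  rw [this, Complex.exp_zero, one_mul]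

theorem CuspData.sum_lam (C : CuspData N) :
    ∑ x, C.lam x = ((Fintype.card (Q N) : ℝ) -
      (Nat.card (MulAction.orbitRel.Quotient (Subgroup.zpowers (T⁻¹ : SL(2, ℤ))) (Q N)) : ℝ)) / 2
    := by
  have h := congrArg (fun r : ℚ => (r : ℝ)) C.sum_eq
  push_cast at h
  exact h

/-! ### the `U`-transform of the row of translates of a form -/

/-- the `U`-transform of the row of translates of `f` -/
def rowU (U : Matrix (Q N) (Q N) ℂ) (k : ℤ) (f : ℍ → ℂ) (x : Q N) (z : ℍ) : ℂ :=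
  ∑ q, cosetFn N k f q z * U q x

theorem rowU_mdiff (U : Matrix (Q N) (Q N) ℂ) {k : ℤ} {f : ℍ → ℂ} (hf : MDiff f) (x : Q N) :
    MDiff (rowU U k f x) := by
  unfold rowU
  refine mdiff_sum _ _ (fun q _ => ?_)
  exact (cosetFn_mdiff (k := k) hf q).mul mdifferentiable_const

theorem cosetFn_isBounded {k : ℤ} {f : ℍ → ℂ} (hf : IsMF N k f) (q : Q N) :
    IsBoundedAtImInfty (cosetFn N k f q) := hf.2.2 _

theorem rowU_isBounded (U : Matrix (Q N) (Q N) ℂ) {k : ℤ} {f : ℍ → ℂ} (hf : IsMF N k f)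
    (x : Q N) : IsBoundedAtImInfty (rowU U k f x) := by
  unfold rowU
  refine isBounded_sum _ _ (fun q _ => ?_)
  exact isBounded_mul_const (cosetFn_isBounded hf q) _

theorem cosetFn_vadd_one {k : ℤ} {f : ℍ → ℂ}
    (hf : ∀ γ ∈ Gamma0 N, f ∣[k] (γ : SL(2, ℤ)) = f) (q : Q N) (z : ℍ) :
    cosetFn N k f q ((1 : ℝ) +ᵥ z) = cosetFn N k f ((T⁻¹ : SL(2, ℤ)) • q) z := by
  have h := cosetFn_smul_apply hf q T z
  rw [UpperHalfPlane.modular_T_smul] at h
  rw [h]
  have : denom ((T : SL(2, ℤ)) : GL (Fin 2) ℝ) z = 1 := by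
    rw [ModularGroup.denom_apply]
    simp [ModularGroup.T]
  rw [this, one_zpow, one_mul]

theorem CuspData.rowU_vadd_one (C : CuspData N) {k : ℤ} {f : ℍ → ℂ}
    (hf : ∀ γ ∈ Gamma0 N, f ∣[k] (γ : SL(2, ℤ)) = f) (x : Q N) (z : ℍ) :
    rowU C.U k f x ((1 : ℝ) +ᵥ z) = cexp (2 * π * I * (C.lam x : ℝ)) * rowU C.U k f x z := by
  unfold rowU
  simp only [cosetFn_vadd_one hf]
  rw [Finset.mul_sum]
  -- reindex by `q = T • q'`
  have hre : ∑ q, cosetFn N k f ((T⁻¹ : SL(2, ℤ)) • q) z * C.U q x =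
      ∑ q, cosetFn N k f q z * C.U ((T : SL(2, ℤ)) • q) x := by
    refine Fintype.sum_equiv (MulAction.toPerm (T⁻¹ : SL(2, ℤ))) _ _ (fun q => ?_)
    simp [MulAction.toPerm_apply]
  rw [hre]
  refine Finset.sum_congr rfl (fun q _ => ?_)
  rw [C.eig']
  ring

theorem rowU_inv {U : Matrix (Q N) (Q N) ℂ} (hU : U.det ≠ 0) (k : ℤ) (f : ℍ → ℂ) (q : Q N)
    (z : ℍ) : cosetFn N k f q z = ∑ x, rowU U k f x z * U⁻¹ x q := by
  unfold rowU
  have h1 : U * U⁻¹ = 1 := Matrix.mul_nonsing_inv _ (isUnit_iff_ne_zero.mpr hU)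
  simp only [Finset.sum_mul]
  rw [Finset.sum_comm]
  have : ∀ q', ∑ x, cosetFn N k f q' z * U q' x * U⁻¹ x q =
      cosetFn N k f q' z * (U * U⁻¹) q' q := by
    intro q'
    rw [Matrix.mul_apply, Finset.mul_sum]
    refine Finset.sum_congr rfl (fun x _ => ?_)
    ring
  simp only [this, h1, Matrix.one_apply, mul_ite, mul_one, mul_zero, Finset.sum_ite_eq',
    Finset.mem_univ, if_true]


/-! ### limits at `i∞` -/

theorem isBounded_congr {φ ψ : ℍ → ℂ} (h : IsBoundedAtImInfty φ) (e : ∀ z, φ z = ψ z) :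
    IsBoundedAtImInfty ψ := by
  have : φ = ψ := funext e
  rwa [← this]

/-- existence of the limit of `rowU … * expFn (-λ_x)` -/
theorem CuspData.exists_limit (C : CuspData N) {k : ℤ} {f : ℍ → ℂ} (hf : IsMF N k f) (x : Q N) :
    ∃ l : ℂ, Tendsto (fun z => rowU C.U k f x z * expFn (-(C.lam x)) z) atImInfty (𝓝 l) ∧
      (l = 0 → IsBoundedAtImInfty (fun z => rowU C.U k f x z * expFn (-(C.lam x + 1)) z)) :=
  twisted_limit (rowU_mdiff C.U hf.1 x) (rowU_isBounded C.U hf x) (C.lam_lt_one x)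
    (C.rowU_vadd_one hf.2.1 x)

/-- if all the limits vanish, then all translates of `f` are `O(q)` at `i∞` -/
theorem CuspData.isBounded_of_tendsto_zero (C : CuspData N) {k : ℤ} {f : ℍ → ℂ}
    (hf : IsMF N k f)
    (h0 : ∀ x, Tendsto (fun z => rowU C.U k f x z * expFn (-(C.lam x)) z) atImInfty (𝓝 0))
    (δ : SL(2, ℤ)) : IsBoundedAtImInfty (fun z => (f ∣[k] δ) z * expFn (-1) z) := by
  have h1 : ∀ x, IsBoundedAtImInfty (fun z => rowU C.U k f x z * expFn (-1) z) := by
    intro x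
    obtain ⟨l, hl, hl'⟩ := C.exists_limit hf x
    have hl0 : l = 0 := tendsto_nhds_unique hl (h0 x)
    have hb := (hl' hl0).mul (isBoundedAtImInfty_expFn (C.lam_nonneg x))
    refine isBounded_congr hb (fun z => ?_)
    simp only [Pi.mul_apply]
    rw [mul_assoc, ← expFn_add]
    congr 2
    ring
  have h2 : f ∣[k] δ = cosetFn N k f (QuotientGroup.mk δ⁻¹) := by
    rw [cosetFn_mk hf.2.1, inv_inv]
  have h3 : ∀ z, (f ∣[k] δ) z * expFn (-1) z =
      ∑ x, (rowU C.U k f x z * expFn (-1) z) * C.U⁻¹ x (QuotientGroup.mk δ⁻¹) := by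
    intro z
    rw [h2, rowU_inv C.det_ne k f _ z, Finset.sum_mul]
    refine Finset.sum_congr rfl (fun x _ => ?_)
    ring
  refine isBounded_congr ?_ (fun z => (h3 z).symm)
  refine isBounded_sum _ _ (fun x _ => ?_)
  exact isBounded_mul_const (h1 x) _

/-! ### division by `Δ` -/

theorem delta_slash (γ : SL(2, ℤ)) : (Δ : ℍ → ℂ) ∣[(12 : ℤ)] γ = Δ :=
  isCF_delta.isMF.slash_levelOne γ

theorem slash_delta_mul (k : ℤ) (g : ℍ → ℂ) (γ : SL(2, ℤ)) :
    ((Δ : ℍ → ℂ) * g) ∣[k] γ = (Δ : ℍ → ℂ) * (g ∣[k - 12] γ) := by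
  have hk : k = 12 + (k - 12) := by ring
  conv_lhs => rw [hk]
  rw [ModularForm.mul_slash_SL2, delta_slash]

/-- a form all of whose translates are `O(q)` at `i∞` is divisible by `Δ` -/
theorem isMF_div_delta {k : ℤ} {h : ℍ → ℂ} (hh : IsMF N k h)
    (hb : ∀ δ : SL(2, ℤ), IsBoundedAtImInfty (fun z => (h ∣[k] δ) z * expFn (-1) z)) :
    ∃ g, IsMF N (k - 12) g ∧ h = (Δ : ℍ → ℂ) * g := by
  set g : ℍ → ℂ := fun z => h z / Δ z with hg
  have hmul : h = (Δ : ℍ → ℂ) * g := by
    funext z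
    simp only [Pi.mul_apply, hg]
    field_simp [ModularForm.discriminant_ne_zero z]
  have hcancel : ∀ {a b : ℍ → ℂ}, (Δ : ℍ → ℂ) * a = (Δ : ℍ → ℂ) * b → a = b := by
    intro a b hab
    funext z
    exact mul_left_cancel₀ (ModularForm.discriminant_ne_zero z) (congrFun hab z)
  refine ⟨g, ⟨?_, ?_, ?_⟩, hmul⟩
  · intro τ
    exact mdiffAt_of_eq_mul mdiff_discriminant hh.1 hmul (ModularForm.discriminant_ne_zero τ)
  · intro γ hγ
    apply hcancel
    rw [← slash_delta_mul, ← hmul, hh.2.1 γ hγ]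
  · intro δ
    refine isBoundedAtImInfty_of_eq_mul tendsto_delta_mul_expFn (hb δ) ?_
    funext z
    have h1 : h ∣[k] δ = (Δ : ℍ → ℂ) * (g ∣[k - 12] δ) := by
      conv_lhs => rw [hmul]
      rw [slash_delta_mul]
    simp only [Pi.mul_apply, h1]
    ring


/-! ### the limit matrix -/

/-- the limit matrix `L = lim H(z)` -/
def CuspData.L (C : CuspData N) (B : FreeBasis N) : Matrix (Q N) (Q N) ℂ := fun i x =>
  limUnder atImInfty (fun z => rowU C.U (B.d i) (B.f i) x z * expFn (-(C.lam x)) z)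

theorem CuspData.tendsto_L (C : CuspData N) (B : FreeBasis N) (i x : Q N) :
    Tendsto (fun z => rowU C.U (B.d i) (B.f i) x z * expFn (-(C.lam x)) z) atImInfty
      (𝓝 (C.L B i x)) := by
  obtain ⟨l, hl, -⟩ := C.exists_limit (B.mem i) x
  unfold CuspData.L
  rw [hl.limUnder_eq]
  exact hl

theorem freeBasis_f_ne_zero (B : FreeBasis N) (i : Q N) : B.f i ≠ 0 := by
  intro h0
  have h := B.indep (B.d i) (fun j => if j = i then (1 : ℍ → ℂ) else 0) ?_ ?_ i
  · simp only [if_true] at h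
    have := congrFun h UpperHalfPlane.I
    simp at this
  · intro j
    by_cases hj : j = i
    · subst hj
      simp only [if_true]
      exact (isMF_one 1).cast (by ring)
    · simp only [if_neg hj]
      exact isMF_zero _ _
  · rw [Finset.sum_eq_single i]
    · simp [h0]
    · intro j _ hj
      simp [hj]
    · intro hi
      exact absurd (Finset.mem_univ i) hi

theorem freeBasis_even_d (B : FreeBasis N) (i : Q N) : Even ((B.d i : ℕ) : ℤ) := by
  by_contra h
  rw [Int.not_even_iff_odd] at h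
  exact freeBasis_f_ne_zero B i (eq_zero_of_odd_weight h (B.mem i))

theorem freeBasis_even_wt (B : FreeBasis N) : Even ((B.wt : ℕ) : ℤ) := by
  unfold FreeBasis.wt
  push_cast
  exact Finset.even_sum _ (fun i _ => freeBasis_even_d B i)

theorem freeBasis_d_le_wt (B : FreeBasis N) (i : Q N) : B.d i ≤ B.wt := by
  unfold FreeBasis.wt
  exact Finset.single_le_sum (f := B.d) (fun j _ => Nat.zero_le _) (Finset.mem_univ i)

theorem cosetFn_smul (k : ℤ) (c : ℂ) (f : ℍ → ℂ) (q : Q N) :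
    cosetFn N k (c • f) q = c • cosetFn N k f q := by
  unfold cosetFn
  exact ModularForm.SL_smul_slash _ _ _ _

theorem cosetFn_levelOne_mul' {K k l : ℤ} {r f : ℍ → ℂ} (hr : IsMF 1 k r) (hK : K = k + l)
    (q : Q N) : cosetFn N K (r * f) q = r * cosetFn N l f q := by
  subst hK
  exact cosetFn_levelOne_mul hr q

/-- **Nondegeneracy of the limit matrix** (freeness of the basis at `q = 0`). -/
theorem CuspData.det_L_ne_zero (C : CuspData N) (B : FreeBasis N) : (C.L B).det ≠ 0 := by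
  intro hdet
  obtain ⟨c, hc0, hc⟩ := Matrix.exists_vecMul_eq_zero_iff.mpr hdet
  have hcL : ∀ x, ∑ i, c i * C.L B i x = 0 := fun x => by
    have := congrFun hc x
    simpa [Matrix.vecMul, dotProduct] using this
  set K : ℤ := (B.wt : ℤ) + 4 with hK
  have hKd : ∀ i, Even (K - B.d i) ∧ (K - B.d i = 0 ∨ 4 ≤ K - B.d i) := by
    intro i
    refine ⟨((freeBasis_even_wt B).add (by decide)).sub (freeBasis_even_d B i), Or.inr ?_⟩
    have : ((B.d i : ℕ) : ℤ) ≤ (B.wt : ℤ) := by exact_mod_cast freeBasis_d_le_wt B i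
    rw [hK]
    linarith
  choose A hA hAlim using fun i => exists_isMF_tendsto_one (hKd i).1 (hKd i).2
  set h : ℍ → ℂ := ∑ i, c i • (A i * B.f i) with hh
  have hmem : IsMF N K h := by
    rw [← mem_MkSub, hh]
    refine Submodule.sum_mem _ (fun i _ => Submodule.smul_mem _ _ ?_)
    rw [mem_MkSub]
    exact ((hA i).of_levelOne.mul (B.mem i)).cast (by ring)
  have hcos : ∀ q z, cosetFn N K h q z =
      ∑ i, c i * (A i z * cosetFn N (B.d i) (B.f i) q z) := by
    intro q z
    rw [hh, cosetFn_sum, Finset.sum_apply]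
    refine Finset.sum_congr rfl (fun i _ => ?_)
    rw [cosetFn_smul, cosetFn_levelOne_mul' (hA i) (by ring : K = (K - B.d i) + B.d i)]
    simp only [Pi.smul_apply, Pi.mul_apply, smul_eq_mul]
  have hrow : ∀ x z, rowU C.U K h x z =
      ∑ i, c i * A i z * rowU C.U (B.d i) (B.f i) x z := by
    intro x z
    unfold rowU
    simp only [hcos, Finset.sum_mul, Finset.mul_sum]
    rw [Finset.sum_comm]
    refine Finset.sum_congr rfl (fun i _ => Finset.sum_congr rfl (fun q _ => ?_))
    ring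
  have h0 : ∀ x, Tendsto (fun z => rowU C.U K h x z * expFn (-(C.lam x)) z) atImInfty
      (𝓝 0) := by
    intro x
    have ht : Tendsto (fun z => ∑ i, c i * A i z *
        (rowU C.U (B.d i) (B.f i) x z * expFn (-(C.lam x)) z)) atImInfty
        (𝓝 (∑ i, c i * 1 * C.L B i x)) := by
      refine tendsto_finsetSum _ (fun i _ => ?_)
      exact ((tendsto_const_nhds (x := c i)).mul (hAlim i)).mul (C.tendsto_L B i x)
    have hval : ∑ i, c i * 1 * C.L B i x = 0 := by
      simpa using hcL x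
    rw [hval] at ht
    refine ht.congr (fun z => ?_)
    rw [hrow, Finset.sum_mul]
    refine Finset.sum_congr rfl (fun i _ => ?_)
    ring
  have hbd := C.isBounded_of_tendsto_zero hmem h0
  obtain ⟨g, hg, hhg⟩ := isMF_div_delta hmem hbd
  obtain ⟨r, hr, hgr⟩ := B.span (K - 12) g hg
  have hind := B.indep K (fun i => c i • A i - (Δ : ℍ → ℂ) * r i) ?_ ?_
  · apply hc0
    funext i
    have hi : c i • A i = (Δ : ℍ → ℂ) * r i := sub_eq_zero.mp (hind i)
    have hl1 : Tendsto (c i • A i) atImInfty (𝓝 (c i • (1 : ℂ))) := (hAlim i).const_smul (c i)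
    have hrb : IsBoundedAtImInfty (r i) := by
      have := (hr i).2.2 1
      rwa [SlashAction.slash_one] at this
    have hl2 : Tendsto ((Δ : ℍ → ℂ) * r i) atImInfty (𝓝 0) := by
      have := hrb.mul_zeroAtFilter ModularForm.discriminant_isZeroAtImInfty
      rw [mul_comm]
      exact this
    rw [hi] at hl1
    have := tendsto_nhds_unique hl1 hl2
    simpa using this
  · intro i
    refine ((hA i).smul (c i)).sub ?_
    exact (isCF_delta.isMF.mul (hr i)).cast (by ring)
  · have e1 : ∑ i, (c i • A i - (Δ : ℍ → ℂ) * r i) * B.f i =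
        ∑ i, c i • (A i * B.f i) - (Δ : ℍ → ℂ) * ∑ i, r i * B.f i := by
      rw [Finset.mul_sum, ← Finset.sum_sub_distrib]
      refine Finset.sum_congr rfl (fun i _ => ?_)
      rw [sub_mul, smul_mul_assoc, mul_assoc]
    rw [e1, ← hgr, ← hhg, ← hh, sub_self]


/-! ### determinants -/

theorem prod_expFn {ι : Type*} (s : Finset ι) (c : ι → ℝ) (z : ℍ) :
    ∏ i ∈ s, expFn (c i) z = expFn (∑ i ∈ s, c i) z := by
  classical
  induction s using Finset.induction_on with
  | empty => simp [expFn_zero]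
  | insert a s ha ih => rw [Finset.prod_insert ha, Finset.sum_insert ha, ih, expFn_add]

/-- the matrix `H z = B.mat z * U * diag (expFn (-λ_x) z)` -/
def CuspData.H (C : CuspData N) (B : FreeBasis N) (z : ℍ) : Matrix (Q N) (Q N) ℂ :=
  B.mat z * C.U * Matrix.diagonal (fun x => expFn (-(C.lam x)) z)

theorem CuspData.H_apply (C : CuspData N) (B : FreeBasis N) (z : ℍ) (i x : Q N) :
    C.H B z i x = rowU C.U (B.d i) (B.f i) x z * expFn (-(C.lam x)) z := by
  unfold CuspData.H
  rw [Matrix.mul_diagonal, Matrix.mul_apply]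
  rfl

theorem CuspData.det_H (C : CuspData N) (B : FreeBasis N) (z : ℍ) :
    (C.H B z).det = (B.mat z).det * C.U.det * expFn (-(∑ x, C.lam x)) z := by
  unfold CuspData.H
  rw [Matrix.det_mul, Matrix.det_mul, Matrix.det_diagonal, prod_expFn, Finset.sum_neg_distrib]

theorem CuspData.tendsto_det_H (C : CuspData N) (B : FreeBasis N) :
    Tendsto (fun z => (C.H B z).det) atImInfty (𝓝 (C.L B).det) := by
  have h1 : Tendsto (fun z => C.H B z) atImInfty (𝓝 (C.L B)) := by
    refine tendsto_pi_nhds.mpr (fun i => tendsto_pi_nhds.mpr (fun x => ?_))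
    simp only [C.H_apply B]
    exact C.tendsto_L B i x
  exact ((continuous_id.matrix_det).tendsto (C.L B)).comp h1

end CuspMatrix

open CuspMatrix

variable {N : ℕ} [NeZero N]

/-- The determinant of the matrix of translates of a free basis is not identically zero. -/
theorem FreeBasis.exists_det_ne_zero (B : FreeBasis N) : ∃ z : ℍ, (B.mat z).det ≠ 0 := by
  obtain ⟨C⟩ := exists_cuspData N
  have h := (C.tendsto_det_H B).eventually_ne (C.det_L_ne_zero B)
  obtain ⟨z, hz⟩ := h.exists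
  refine ⟨z, fun h0 => hz ?_⟩
  rw [C.det_H, h0, zero_mul, zero_mul]

theorem serreStable (N : ℕ) : SerreStable N := fun _ _ hf => hf.serre

theorem deltaODE : DeltaODE := fun z => D_delta z

/-- `det (B.mat z) ^ 12 = c Δ ^ wt` with `c ≠ 0`, unconditionally. -/
theorem FreeBasis.det_pow (B : FreeBasis N) :
    ∃ c : ℂ, c ≠ 0 ∧ ∀ z : ℍ, (B.mat z).det ^ 12 = c * ModularForm.discriminant z ^ B.wt :=
  B.det_pow_eq_of_ne (serreStable N) deltaODE B.exists_det_ne_zero

/-- The determinant of the matrix of translates of a free basis vanishes nowhere. -/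
theorem FreeBasis.det_mat_ne_zero (B : FreeBasis N) (z : ℍ) : (B.mat z).det ≠ 0 :=
  B.det_ne_zero (serreStable N) deltaODE B.exists_det_ne_zero z

namespace CuspMatrix

/-- the total weight is `12 ∑ λ_x` -/
theorem CuspData.wt_eq (C : CuspData N) (B : FreeBasis N) :
    (B.wt : ℝ) = 12 * ∑ x, C.lam x := by
  obtain ⟨c, hc0, hc⟩ := B.det_pow
  set S : ℝ := ∑ x, C.lam x with hS
  set s : ℝ := (B.wt : ℝ) - 12 * S with hs
  -- `(det H)^12 = c (det U)^12 (Δ expFn(-1))^wt expFn s`
  have hU : C.U.det ^ 12 ≠ 0 := pow_ne_zero _ C.det_ne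
  have hpow : ∀ (a : ℝ) (n : ℕ) (z : ℍ), expFn a z ^ n = expFn (n * a) z := by
    intro a n z
    induction n with
    | zero => simp [expFn_zero]
    | succ n ih =>
      rw [pow_succ, ih, ← expFn_add]
      congr 1
      push_cast
      ring
  have hid : ∀ z : ℍ, (C.H B z).det ^ 12 =
      c * C.U.det ^ 12 * (ModularForm.discriminant z * expFn (-1) z) ^ B.wt * expFn s z := by
    intro z
    rw [C.det_H, mul_pow, mul_pow, hc z, mul_pow, hpow, hpow]
    have e : expFn s z = expFn ((B.wt : ℝ) * 1) z * expFn ((12 : ℕ) * -S) z := by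
      rw [← expFn_add]
      congr 1
      rw [hs]
      push_cast
      ring
    rw [e]
    have e2 : expFn ((B.wt : ℕ) * (-1 : ℝ)) z * expFn ((B.wt : ℝ) * 1) z = 1 := by
      rw [← expFn_add]
      have : ((B.wt : ℕ) : ℝ) * (-1 : ℝ) + (B.wt : ℝ) * 1 = 0 := by ring
      rw [this, expFn_zero]
    linear_combination (-(c * ModularForm.discriminant z ^ B.wt * C.U.det ^ 12 *
      expFn ((12 : ℕ) * -S) z)) * e2
  have hlim1 : Tendsto (fun z => (C.H B z).det ^ 12) atImInfty (𝓝 ((C.L B).det ^ 12)) :=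
    (C.tendsto_det_H B).pow 12
  have hlim2 : Tendsto (fun z : ℍ => (ModularForm.discriminant z * expFn (-1) z) ^ B.wt)
      atImInfty (𝓝 1) := by
    simpa using tendsto_delta_mul_expFn.pow B.wt
  have hL : (C.L B).det ^ 12 ≠ 0 := pow_ne_zero _ (C.det_L_ne_zero B)
  -- hence `expFn s` tends to a nonzero limit
  have hlim3 : Tendsto (fun z : ℍ => expFn s z) atImInfty
      (𝓝 ((C.L B).det ^ 12 / (c * C.U.det ^ 12))) := by
    have hev : ∀ᶠ z : ℍ in atImInfty,
        (ModularForm.discriminant z * expFn (-1) z) ^ B.wt ≠ 0 := hlim2.eventually_ne one_ne_zero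
    have hq : Tendsto (fun z : ℍ => (C.H B z).det ^ 12 /
        (c * C.U.det ^ 12 * (ModularForm.discriminant z * expFn (-1) z) ^ B.wt)) atImInfty
        (𝓝 ((C.L B).det ^ 12 / (c * C.U.det ^ 12 * 1))) := by
      refine hlim1.div (tendsto_const_nhds.mul hlim2) ?_
      rw [mul_one]
      exact mul_ne_zero hc0 hU
    rw [mul_one] at hq
    refine hq.congr' ?_
    filter_upwards [hev] with z hz
    rw [hid z]
    have hUd : C.U.det ≠ 0 := C.det_ne
    field_simp
  have hm : (C.L B).det ^ 12 / (c * C.U.det ^ 12) ≠ 0 :=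
    div_ne_zero hL (mul_ne_zero hc0 hU)
  have hs0 : s = 0 := by
    rcases lt_trichotomy s 0 with hneg | h0 | hpos
    · exfalso
      have hz : Tendsto (fun z : ℍ => expFn (-s) z) atImInfty (𝓝 0) :=
        isZeroAtImInfty_expFn (by linarith)
      have hprod := hz.mul hlim3
      have hone : (fun z : ℍ => expFn (-s) z * expFn s z) = fun _ => 1 := by
        funext z
        exact expFn_neg_mul s z
      rw [hone, zero_mul] at hprod
      exact one_ne_zero (tendsto_nhds_unique tendsto_const_nhds hprod)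
    · exact h0
    · exfalso
      have hz : Tendsto (fun z : ℍ => expFn s z) atImInfty (𝓝 0) := isZeroAtImInfty_expFn hpos
      exact hm (tendsto_nhds_unique hlim3 hz)
  rw [hs] at hs0
  linarith

end CuspMatrix

/-- **Cusp normal form** of the matrix of translates of a free basis: the shape consumed by
`CuspOrder.wt_eq_six_mul` and `FreeBasis.dualMat_isZeroAtImInfty`. -/
theorem FreeBasis.exists_cusp_normal_form (B : FreeBasis N) :
    ∃ (U : Matrix (Q N) (Q N) ℂ) (e w : Q N → ℕ) (L : Matrix (Q N) (Q N) ℂ),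
      U.det ≠ 0 ∧ L.det ≠ 0 ∧ (∀ x, e x < w x) ∧
      (∀ i x, Tendsto (fun z : ℍ => (B.mat z * U) i x * expFn (-((e x : ℝ) / (w x : ℝ))) z)
        atImInfty (𝓝 (L i x))) ∧
      ∑ x, ((e x : ℚ) / (w x : ℚ)) = ((Fintype.card (Q N) : ℚ) -
        (Nat.card (MulAction.orbitRel.Quotient
          (Subgroup.zpowers (ModularGroup.T : SL(2, ℤ))) (Q N)) : ℚ)) / 2 := by
  obtain ⟨C⟩ := exists_cuspData N
  refine ⟨C.U, C.e, C.w, C.L B, C.det_ne, C.det_L_ne_zero B, C.lt, fun i x => ?_, ?_⟩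
  · exact C.tendsto_L B i x
  · have h := C.sum_eq
    rw [Subgroup.zpowers_inv] at h
    exact h

/-- **P9c.** The total weight of a free basis is `6 (μ - #cusps)`. -/
theorem FreeBasis.wt_eq (B : FreeBasis N) :
    (B.wt : ℤ) = 6 * ((Nat.card (Q N) : ℤ) -
      (Nat.card (MulAction.orbitRel.Quotient
        (Subgroup.zpowers (ModularGroup.T : SL(2, ℤ))) (Q N)) : ℤ)) := by
  obtain ⟨C⟩ := exists_cuspData N
  have h1 := C.wt_eq B
  rw [C.sum_lam, Subgroup.zpowers_inv] at h1
  have h2 : (B.wt : ℝ) = 6 * ((Fintype.card (Q N) : ℝ) -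
      (Nat.card (MulAction.orbitRel.Quotient
        (Subgroup.zpowers (ModularGroup.T : SL(2, ℤ))) (Q N)) : ℝ)) := by
    rw [h1]
    ring
  rw [Nat.card_eq_fintype_card]
  exact_mod_cast h2


end

end Fermat.Agent.S20
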