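import Fermat.Agent.S20.GradedFree

/-! Dimension count for a graded module with a homogeneous basis, and the growth bound on the
number of basis elements. Everything is abstract in the index type `I`. -/

open Submodule Module

noncomputable section

namespace Fermat.Agent.S20.GradedFree

universe u v w

variable {𝕜 : Type v} {F : Type u} [Field 𝕜] [CommRing F] [Algebra 𝕜 F]
variable {R M : ℤ → Submodule 𝕜 F} {I : Type w} (d : I → ℤ) (f : I → F)

/-- The data of a homogeneous basis, as produced by `exists_graded_basis`. -/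
structure IsGradedBasis (R M : ℤ → Submodule 𝕜 F) (d : I → ℤ) (f : I → F) : Prop where
  R_neg : ∀ k < 0, R k = ⊥
  RM_mul : ∀ j k x m, x ∈ R j → m ∈ M k → x * m ∈ M (j + k)
  mem : ∀ i, f i ∈ M (d i)
  nonneg : ∀ i, 0 ≤ d i
  fin : ∀ k, {i | d i = k}.Finite
  span : ∀ k, ∀ g ∈ M k, ∃ r : I →₀ F, (∀ i, r i ∈ R (k - d i)) ∧ g = r.sum (fun i x => x * f i)
  indep : ∀ k (r : I →₀ F), (∀ i, r i ∈ R (k - d i)) → r.sum (fun i x => x * f i) = 0 → r = 0

variable {d f}

namespace IsGradedBasis

variable (H : IsGradedBasis R M d f)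
include H

lemma finite_le (k : ℤ) : {i | d i ≤ k}.Finite := by
  have : {i | d i ≤ k} ⊆ ⋃ j ∈ Finset.range (k.toNat + 1), {i | d i = (j : ℤ)} := by
    intro i hi
    simp only [Set.mem_ofPred_eq] at hi
    have h0 := H.nonneg i
    simp only [Set.mem_iUnion, Finset.mem_range, Set.mem_ofPred_eq, exists_prop]
    refine ⟨(d i).toNat, ?_, ?_⟩
    · omega
    · omega
  refine Set.Finite.subset ?_ this
  exact Set.Finite.biUnion (Finset.finite_toSet _) fun j _ => H.fin j

/-- The linear map `(r i) ↦ ∑ r i * f i` from `∏_{d i ≤ k} R (k - d i)` to `M k`. -/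
def sumMap (k : ℤ) [Fintype {i // d i ≤ k}] :
    (∀ i : {i // d i ≤ k}, R (k - d i.1)) →ₗ[𝕜] M k where
  toFun r := ⟨∑ i, (r i : F) * f i.1, by
    refine Submodule.sum_mem _ fun i _ => ?_
    have := H.RM_mul _ _ _ _ (r i).2 (H.mem i.1)
    rwa [sub_add_cancel] at this⟩
  map_add' r s := by
    ext
    simp [add_mul, Finset.sum_add_distrib]
  map_smul' c r := by
    ext
    simp [Finset.smul_sum]

lemma sumMap_injective (k : ℤ) [Fintype {i // d i ≤ k}] :
    Function.Injective (H.sumMap k) := by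
  classical
  rw [← LinearMap.ker_eq_bot, LinearMap.ker_eq_bot']
  intro r hr
  have hr' : ∑ i, (r i : F) * f i.1 = 0 := by
    have := congrArg Subtype.val hr
    simpa [sumMap] using this
  -- extend `r` by zero to a finitely supported family on `I`
  let r' : I → F := fun i => if h : d i ≤ k then (r ⟨i, h⟩ : F) else 0
  let s : I →₀ F := Finsupp.onFinset ((H.finite_le k).toFinset) r' (by
    intro i hi
    simp only [Set.Finite.mem_toFinset, Set.mem_ofPred_eq]
    by_contra hik
    exact hi (by simp [r', hik]))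
  have hs_mem : ∀ i, s i ∈ R (k - d i) := by
    intro i
    simp only [s, Finsupp.onFinset_apply, r']
    split_ifs with hik
    · exact (r ⟨i, hik⟩).2
    · exact zero_mem _
  have hs_sum : s.sum (fun i x => x * f i) = 0 := by
    rw [Finsupp.sum, ← hr']
    have hsub : s.support ⊆ (H.finite_le k).toFinset := Finsupp.support_onFinset_subset
    rw [Finset.sum_subset hsub (fun i _ hi => by
      rw [Finsupp.notMem_support_iff] at hi; simp [hi])]
    rw [Finset.sum_subtype ((H.finite_le k).toFinset) (p := fun i => d i ≤ k)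
      (fun i => by simp only [Set.Finite.mem_toFinset, Set.mem_ofPred_eq])]
    refine Finset.sum_congr rfl fun i _ => ?_
    simp only [s, Finsupp.onFinset_apply, r', dif_pos i.2]
  have hs0 := H.indep k s hs_mem hs_sum
  ext i
  have := DFunLike.congr_fun hs0 i.1
  simp only [s, Finsupp.onFinset_apply, r', dif_pos i.2, Finsupp.coe_zero, Pi.zero_apply] at this
  simpa using this

lemma sumMap_surjective (k : ℤ) [Fintype {i // d i ≤ k}] :
    Function.Surjective (H.sumMap k) := by
  classical
  rintro ⟨g, hg⟩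
  obtain ⟨r, hr, hsum⟩ := H.span k g hg
  refine ⟨fun i => ⟨r i.1, hr i.1⟩, ?_⟩
  ext
  simp only [sumMap, LinearMap.coe_mk, AddHom.coe_mk]
  rw [hsum, Finsupp.sum]
  have hzero : ∀ i, ¬ d i ≤ k → r i = 0 := by
    intro i hik
    have := hr i
    rw [H.R_neg _ (by omega)] at this
    simpa using this
  have hsub : r.support ⊆ (H.finite_le k).toFinset := by
    intro i hi
    simp only [Set.Finite.mem_toFinset, Set.mem_ofPred_eq]
    by_contra hik
    exact (Finsupp.mem_support_iff.1 hi) (hzero i hik)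
  rw [Finset.sum_subset hsub (fun i _ hi => by
    rw [Finsupp.notMem_support_iff] at hi; simp [hi])]
  rw [Finset.sum_subtype ((H.finite_le k).toFinset) (p := fun i => d i ≤ k)
    (fun i => by simp only [Set.Finite.mem_toFinset, Set.mem_ofPred_eq])]

/-- The dimension formula. -/
theorem finrank_eq (hRfin : ∀ k, FiniteDimensional 𝕜 (R k)) (k : ℤ) :
    Module.finrank 𝕜 (M k) = ∑ i ∈ (H.finite_le k).toFinset, Module.finrank 𝕜 (R (k - d i)) := by
  classical
  let _inst : Fintype {i // d i ≤ k} := (H.finite_le k).fintype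
  have e : (∀ i : {i // d i ≤ k}, R (k - d i.1)) ≃ₗ[𝕜] M k :=
    LinearEquiv.ofBijective (H.sumMap k) ⟨H.sumMap_injective k, H.sumMap_surjective k⟩
  rw [← e.finrank_eq, Module.finrank_pi_fintype]
  rw [Finset.sum_subtype ((H.finite_le k).toFinset) (p := fun i => d i ≤ k)
    (fun i => by simp only [Set.Finite.mem_toFinset, Set.mem_ofPred_eq])]

/-- Basis elements are nonzero. -/
lemma gen_ne_zero [Nontrivial F] (h1 : (1 : F) ∈ R 0) (i : I) : f i ≠ 0 := by
  classical
  intro hfi
  have := H.indep (d i) (Finsupp.single i 1) (by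
    intro j
    by_cases hj : j = i
    · subst hj; simpa using h1
    · rw [Finsupp.single_apply, if_neg (Ne.symm hj)]; exact zero_mem _) (by
    rw [Finsupp.sum_single_index (by simp)]; simp [hfi])
  have h2 := DFunLike.congr_fun this i
  simp at h2

/-- If `M` vanishes in odd degrees, all basis elements have even degree. -/
lemma even_deg [Nontrivial F] (h1 : (1 : F) ∈ R 0) (hodd : ∀ k, Odd k → M k = ⊥) (i : I) :
    Even (d i) := by
  by_contra hne
  rw [Int.not_even_iff_odd] at hne
  have := H.mem i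
  rw [hodd _ hne] at this
  exact H.gen_ne_zero h1 i (by simpa using this)

/-- **Growth bound.** If `12 * dim M_k ≤ μ k + 12` and `k - 11 ≤ 12 * dim R_k` (even `k ≥ 0`),
there are at most `μ` basis elements. -/
theorem finite_card_le (hRfin : ∀ k, FiniteDimensional 𝕜 (R k)) (hd_even : ∀ i, Even (d i))
    (μ : ℕ)
    (hM : ∀ k : ℤ, 0 ≤ k → 12 * (Module.finrank 𝕜 (M k) : ℤ) ≤ μ * k + 12)
    (hR : ∀ k : ℤ, 0 ≤ k → Even k → k - 11 ≤ 12 * (Module.finrank 𝕜 (R k) : ℤ)) :
    Finite I ∧ Nat.card I ≤ μ := by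
  classical
  by_contra hcon
  -- a finite set of `μ + 1` indices
  have hT : ∃ T : Finset I, T.card = μ + 1 := by
    by_cases hfin : Finite I
    · have hlt : μ < Nat.card I := by
        by_contra hle
        exact hcon ⟨hfin, not_lt.1 hle⟩
      let _inst := Fintype.ofFinite I
      rw [Nat.card_eq_fintype_card, ← Finset.card_univ] at hlt
      obtain ⟨T, _, hT⟩ := Finset.exists_subset_card_eq (s := (Finset.univ : Finset I))
        (n := μ + 1) hlt
      exact ⟨T, hT⟩
    · rw [not_finite_iff_infinite] at hfin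
      obtain ⟨T, hT⟩ := Infinite.exists_subset_card_eq I (μ + 1)
      exact ⟨T, hT⟩
  obtain ⟨T, hTcard⟩ := hT
  obtain ⟨D, hD⟩ := Finset.exists_le (T.image d)
  have hD' : ∀ i ∈ T, d i ≤ max D 0 := fun i hi =>
    (hD _ (Finset.mem_image_of_mem d hi)).trans (le_max_left _ _)
  set D' : ℤ := max D 0 with hD'def
  have hD'0 : 0 ≤ D' := le_max_right _ _
  set X : ℤ := ((μ : ℤ) + 1) * (D' + 11) with hX
  have hX0 : 0 ≤ X := by
    rw [hX]
    have h1 : (0 : ℤ) ≤ (μ : ℤ) + 1 := by positivity
    have h2 : 0 ≤ D' + 11 := by linarith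
    exact mul_nonneg h1 h2
  set k : ℤ := 2 * (X + 13) with hk
  have hk0 : 0 ≤ k := by rw [hk]; linarith
  have hkeven : Even k := ⟨X + 13, by rw [hk]; ring⟩
  have hkD : D' ≤ k := by
    have : D' + 11 ≤ X := by
      rw [hX]
      have h1 : (1 : ℤ) ≤ (μ : ℤ) + 1 := by
        have : (0 : ℤ) ≤ (μ : ℤ) := Int.natCast_nonneg _
        linarith
      have h2 : 0 ≤ D' + 11 := by linarith
      nlinarith
    rw [hk]; linarith
  have hTsub : T ⊆ (H.finite_le k).toFinset := by
    intro i hi
    simp only [Set.Finite.mem_toFinset, Set.mem_ofPred_eq]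
    exact (hD' i hi).trans hkD
  have h1 : ∑ i ∈ T, Module.finrank 𝕜 (R (k - d i)) ≤ Module.finrank 𝕜 (M k) := by
    rw [H.finrank_eq hRfin k]
    exact Finset.sum_le_sum_of_subset hTsub
  have h2 : ∀ i ∈ T, k - D' - 11 ≤ 12 * (Module.finrank 𝕜 (R (k - d i)) : ℤ) := by
    intro i hi
    have hle := hD' i hi
    have hev : Even (k - d i) := hkeven.sub (hd_even i)
    have := hR (k - d i) (by linarith) hev
    linarith
  have h3 : ((μ : ℤ) + 1) * (k - D' - 11) ≤ 12 * (Module.finrank 𝕜 (M k) : ℤ) := by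
    calc ((μ : ℤ) + 1) * (k - D' - 11) = ∑ _i ∈ T, (k - D' - 11) := by
          rw [Finset.sum_const, hTcard]; simp
      _ ≤ ∑ i ∈ T, 12 * (Module.finrank 𝕜 (R (k - d i)) : ℤ) := Finset.sum_le_sum h2
      _ = 12 * ((∑ i ∈ T, Module.finrank 𝕜 (R (k - d i)) : ℕ) : ℤ) := by
          push_cast; rw [Finset.mul_sum]
      _ ≤ 12 * (Module.finrank 𝕜 (M k) : ℤ) := by
          have : ((∑ i ∈ T, Module.finrank 𝕜 (R (k - d i)) : ℕ) : ℤ)
              ≤ (Module.finrank 𝕜 (M k) : ℤ) := by exact_mod_cast h1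
          linarith
  have h4 := hM k hk0
  have h5 : ((μ : ℤ) + 1) * (k - D' - 11) = μ * k + k - X := by rw [hX]; ring
  rw [h5] at h3
  have : k - X ≤ 12 := by linarith
  rw [hk] at this
  linarith

end IsGradedBasis

/-- The basis produced by `exists_graded_basis` is an `IsGradedBasis`. -/
theorem exists_isGradedBasis {a b : F} {da db : ℤ} (h : Hyp R M a b da db) :
    ∃ (I : Type u) (d : I → ℤ) (f : I → F), IsGradedBasis R M d f := by
  obtain ⟨I, d, f, h1, h2, h3, h4, h5⟩ := exists_graded_basis h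
  exact ⟨I, d, f, ⟨h.R_neg, h.RM_mul, h1, h2, h3, h4, h5⟩⟩

end Fermat.Agent.S20.GradedFree

end
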